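import Fermat.Agent.FB.Coef

/-!
# Dimension count for flat cocycles, I: characters
-/

set_option autoImplicit false
set_option linter.unusedSectionVars false

namespace Fermat.Agent.FB

open Fermat.Agent.Coh Fermat.Agent.GalD Fermat.Agent.LocalCFT Module IntermediateField

variable {p : ℕ} [hp : Fact p.Prime]

theorem exists_tau : ∃ τ ∈ II p, IsPrimitiveRoot (tc (wp p) τ) (p ^ 2 - 1) := by
  obtain ⟨z, hz⟩ := exists_primitive (l := p) two_ne_zero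
  obtain ⟨τ, hτ, hτz⟩ := exists_II_mul hz.pow_eq_one
  have hzn : ‖z‖ = 1 := norm_of_pow_eq_one ee_pos.ne' hz.pow_eq_one
  have h1 : tc (wp p) τ = rdd z := by rw [tc, hτz, mul_div_cancel_right₀ _ wp_ne_zero]
  refine ⟨τ, hτ, ?_⟩
  rw [h1]
  refine ⟨?_, fun i hi => ?_⟩
  · rw [← rdd_pow hzn.le, hz.pow_eq_one, rdd_one]
  · apply hz.dvd_of_pow_eq_one
    rw [← rdd_pow hzn.le, ← rdd_one (p := p), rdd_eq_iff (by rw [norm_pow, hzn, one_pow])
      (by rw [norm_one])] at hi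
    apply eq_one_of_pow (ee_coprime (p := p)) _ hi
    rw [← pow_mul, mul_comm, pow_mul, hz.pow_eq_one, one_pow]

theorem pow_modEq {R : Type*} [CommRing R] [IsDomain R] {x : R} {n a b : ℕ}
    (hx : IsPrimitiveRoot x n) (hn : 0 < n) (h : x ^ a = x ^ b) : a % n = b % n := by
  rw [pow_eq_pow_mod a hx.pow_eq_one, pow_eq_pow_mod b hx.pow_eq_one] at h
  exact hx.pow_inj (Nat.mod_lt _ hn) (Nat.mod_lt _ hn) h

theorem num_aux (hp2 : p ≠ 2) {i : ℕ} (h1 : p ^ 2 - 1 ≤ i) (h2 : i < p ^ 2 + p) :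
    (∃ r, r < p ∧ i = p ^ 2 - 1 + r ∧ (p * i) % (p ^ 2 - 1) = p * r ∧ p * r < p ^ 2 - 1) ∨
      (i = p ^ 2 - 1 + p ∧ (p * i) % (p ^ 2 - 1) = 1) := by
  have hp3 : 3 ≤ p := by
    have := hp.out.two_le
    omega
  obtain ⟨r, hr⟩ := Nat.exists_eq_add_of_le h1
  have hpp : p ^ 2 = p * p := pow_two p
  have hlt : 3 * p ≤ p * p := Nat.mul_le_mul_right p hp3
  have hmod : ∀ s : ℕ, (p * (p ^ 2 - 1 + s)) % (p ^ 2 - 1) = (p * s) % (p ^ 2 - 1) := fun s => by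
    rw [mul_add, Nat.mul_add_mod_self_right]
  rcases Nat.lt_or_ge r p with h3 | h3
  · left
    have h4 : p * r ≤ p * (p - 1) := Nat.mul_le_mul_left p (by omega)
    have h5 : p * (p - 1) = p * p - p := by rw [Nat.mul_sub, mul_one]
    have h6 : p * r < p ^ 2 - 1 := by omega
    refine ⟨r, h3, hr, ?_, h6⟩
    rw [hr, hmod, Nat.mod_eq_of_lt h6]
  · right
    have h4 : r = p := by omega
    refine ⟨by rw [hr, h4], ?_⟩
    rw [hr, hmod, h4]
    have h5 : p * p = 1 + (p ^ 2 - 1) := by omega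
    rw [h5, Nat.add_mod_right, Nat.mod_eq_of_lt (by omega)]

theorem num1 (hp2 : p ≠ 2) {i : ℕ} (h1 : p ^ 2 - 1 ≤ i) (h2 : i < p ^ 2 + p) :
    (p * i) % (p ^ 2 - 1) ≠ (p + 1) % (p ^ 2 - 1) := by
  have hp3 : 3 ≤ p := by
    have := hp.out.two_le
    omega
  have hpp : p ^ 2 = p * p := pow_two p
  have hlt : 3 * p ≤ p * p := Nat.mul_le_mul_right p hp3
  rw [Nat.mod_eq_of_lt (show p + 1 < p ^ 2 - 1 by omega)]
  rcases num_aux hp2 h1 h2 with ⟨r, hr, hi, h3, h4⟩ | ⟨hi, h3⟩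
  · rw [h3]
    intro h
    have h5 : p ∣ 1 := (Nat.dvd_add_right (dvd_refl p)).mp (h ▸ dvd_mul_right p r)
    exact hp.out.one_lt.ne' (Nat.dvd_one.mp h5)
  · rw [h3]
    omega

theorem num2 (hp2 : p ≠ 2) {i : ℕ} (h1 : p ^ 2 - 1 ≤ i) (h2 : i < p ^ 2 + p) :
    (p * i) % (p ^ 2 - 1) ≠ 2 % (p ^ 2 - 1) := by
  have hp3 : 3 ≤ p := by
    have := hp.out.two_le
    omega
  have hpp : p ^ 2 = p * p := pow_two p
  have hlt : 3 * p ≤ p * p := Nat.mul_le_mul_right p hp3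
  rw [Nat.mod_eq_of_lt (show 2 < p ^ 2 - 1 by omega)]
  rcases num_aux hp2 h1 h2 with ⟨r, hr, hi, h3, h4⟩ | ⟨hi, h3⟩
  · rw [h3]
    intro h
    have h5 : p ∣ 2 := h ▸ dvd_mul_right p r
    have := Nat.le_of_dvd two_pos h5
    omega
  · rw [h3]
    omega

theorem num3 (hp2 : p ≠ 2) {i : ℕ} (h1 : p ^ 2 - 1 ≤ i) (h2 : i < p ^ 2 + p)
    (h : (p * i) % (p ^ 2 - 1) = (2 * p) % (p ^ 2 - 1)) : i = p ^ 2 + 1 := by
  have hp3 : 3 ≤ p := by
    have := hp.out.two_le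
    omega
  have hpp : p ^ 2 = p * p := pow_two p
  have hlt : 3 * p ≤ p * p := Nat.mul_le_mul_right p hp3
  rw [Nat.mod_eq_of_lt (show 2 * p < p ^ 2 - 1 by omega)] at h
  rcases num_aux hp2 h1 h2 with ⟨r, hr, hi, h3, h4⟩ | ⟨hi, h3⟩
  · rw [h3, mul_comm 2] at h
    have := Nat.eq_of_mul_eq_mul_left hp.out.pos h
    omega
  · omega

theorem num4 : (p * (p ^ 2 + 1)) % (p ^ 2 - 1) = (2 * p) % (p ^ 2 - 1) := by
  have h1 : 1 ≤ p ^ 2 := Nat.one_le_pow 2 p hp.out.pos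
  have h2 : p ^ 2 + 1 = (p ^ 2 - 1) + 2 := by omega
  rw [h2, mul_add, Nat.mul_add_mod_self_right, mul_comm p 2]

variable {f : Gp p → ZMod p} {y : PadicAlgCl p}

theorem KG.pow (h : KG f y) (n : ℕ) : KG (fun g => (n : ZMod p) * f g) (y ^ n) :=
  ⟨pow_ne_zero _ h.1, fun g hg => by rw [map_pow, h.2 g hg, mul_pow, zpw_natCast_mul]⟩

theorem norm_pow_sub_le {i : ℕ} (hi : 0 < i) (h : ‖y - 1‖ ≤ ‖wq p‖ ^ i) (n : ℕ) :
    ‖y ^ n - 1‖ ≤ ‖wq p‖ ^ i := by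
  have hy := norm_eq_one_of hi h
  induction n with
  | zero => rw [pow_zero, sub_self, norm_zero]; positivity
  | succ n ih => rw [pow_succ']; exact norm_mul_sub_le hy.le h ih

theorem lc_pow {i : ℕ} (hi : 0 < i) (h : ‖y - 1‖ ≤ ‖wq p‖ ^ i) (n : ℕ) :
    lc (y ^ n) i = n * lc y i := by
  induction n with
  | zero => rw [pow_zero, lc, sub_self, zero_div, rdd_zero, Nat.cast_zero, zero_mul]
  | succ n ih => rw [pow_succ', lc_mul hi h (norm_pow_sub_le hi h n), ih, Nat.cast_succ]; ring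

theorem norm_gal_sub_one (g : Gp p) : ‖g y - 1‖ = ‖y - 1‖ := by
  rw [← norm_gal g (y - 1), map_sub, map_one]

/-- one step for invariant characters -/
theorem KG.step_inv (hp2 : p ≠ 2) {τ : Gp p} (hτ : τ ∈ II p)
    (hprim : IsPrimitiveRoot (tc (wp p) τ) (p ^ 2 - 1))
    (hf : ∀ u ∈ GK p, f (τ⁻¹ * u * τ) = f u) {i : ℕ} (h1 : p ^ 2 - 1 ≤ i) (h2 : i < p ^ 2 + p)
    (h : KG f y) (hy : ‖y - 1‖ ≤ ‖wq p‖ ^ i) : ∃ y', KG f y' ∧ ‖y' - 1‖ ≤ ‖wq p‖ ^ (i + 1) := by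
  have hi0 : 0 < i := ee_pos.trans_le h1
  by_cases hpi : p ∣ i
  · obtain ⟨y', hy', hy'1⟩ := h.drop hpi hi0 hy
    exact ⟨y', hy', hy'.next hp2 h2 hy'1⟩
  refine ⟨y, h, h.next hp2 h2 ?_⟩
  rw [← lc_eq_zero_iff hy]
  obtain ⟨m, hm⟩ := exists_cyc (zp_prim (p := p)) τ
  have h3 : KG (fun g => (m : ZMod p) * f g) (τ y) := h.gal hm fun u hu => by rw [hf u hu]
  have h4 := lc_unique hpi hi0 h3 (h.pow m) (by rw [norm_gal_sub_one]; exact hy)
    (norm_pow_sub_le hi0 hy m)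
  rw [lc_gal hy, lc_pow hi0 hy, hτ, tc_wq, ← pow_mul, ← th_pow_cyc zp_prim hτ hm,
    mul_comm (_ ^ (p + 1))] at h4
  by_contra hne
  exact num1 hp2 h1 h2 (pow_modEq hprim ee_pos (mul_left_cancel₀ hne h4))

/-- invariant characters vanish -/
theorem KG.inv_zero (hp2 : p ≠ 2) {τ : Gp p} (hτ : τ ∈ II p)
    (hprim : IsPrimitiveRoot (tc (wp p) τ) (p ^ 2 - 1))
    (hf : ∀ u ∈ GK p, f (τ⁻¹ * u * τ) = f u)
    (h : KG f y) (hy : ‖y - 1‖ ≤ ‖wq p‖ ^ (p ^ 2 - 1)) : ∀ g ∈ GK p, f g = 0 := by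
  have key : ∀ r, r ≤ p + 1 → ∃ y', KG f y' ∧ ‖y' - 1‖ ≤ ‖wq p‖ ^ (p ^ 2 - 1 + r) := by
    intro r
    induction r with
    | zero => intro _; exact ⟨y, h, hy⟩
    | succ r ih =>
      intro hr
      obtain ⟨y', h', hy'⟩ := ih (by omega)
      have h3 : p ^ 2 - 1 + r < p ^ 2 + p := by
        have : 1 ≤ p ^ 2 := Nat.one_le_pow 2 p hp.out.pos
        omega
      exact h'.step_inv hp2 hτ hprim hf (Nat.le_add_right _ _) h3 hy'
  obtain ⟨y', h', hy'⟩ := key (p + 1) le_rfl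
  refine h'.eq_zero' ?_
  have : p ^ 2 - 1 + (p + 1) = p ^ 2 + p := by
    have : 1 ≤ p ^ 2 := Nat.one_le_pow 2 p hp.out.pos
    omega
  rwa [this] at hy'

/-! ### families -/

section fam

variable {E : Type*} [Field E]

open Classical in
theorem exists_natCast_of_pow [CharP E p] {z : E} (hz : z ^ p = z) : ∃ n : ℕ, (n : E) = z := by
  have h3 := (FiniteField.X_pow_card_sub_X_natDegree_eq E hp.out.one_lt)
  by_contra hne
  push Not at hne
  have hX : (Polynomial.X ^ p - Polynomial.X : Polynomial E) ≠ 0 :=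
    FiniteField.X_pow_card_sub_X_ne_zero E hp.out.one_lt
  have h4 : (insert z ((Finset.range p).image (fun n : ℕ => (n : E)))).card ≤ p := by
    conv_rhs => rw [← h3]
    refine (Finset.card_le_card ?_).trans ((Multiset.toFinset_card_le
      (Polynomial.X ^ p - Polynomial.X : Polynomial E).roots).trans (Polynomial.card_roots' _))
    intro w hw
    rw [Multiset.mem_toFinset, Polynomial.mem_roots hX, Polynomial.IsRoot.def,
      Polynomial.eval_sub, Polynomial.eval_pow, Polynomial.eval_X, sub_eq_zero]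
    rw [Finset.mem_insert] at hw
    rcases hw with rfl | hw
    · exact hz
    · obtain ⟨n, _, rfl⟩ := Finset.mem_image.mp hw
      rw [← frobenius_def, map_natCast]
  rw [Finset.card_insert_of_notMem (by
    intro hmem
    obtain ⟨n, _, hn⟩ := Finset.mem_image.mp hmem
    exact hne n hn), Finset.card_image_of_injOn, Finset.card_range] at h4
  · omega
  · intro a ha b hb hab
    have h5 := (CharP.natCast_eq_natCast E p).mp hab
    rw [Finset.coe_range, Set.mem_Iio] at ha hb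
    exact Nat.ModEq.eq_of_lt_of_lt h5 ha hb

theorem charP_of (ι : E →+* KK p) : CharP E p := ⟨fun n => by
  rw [← CharP.cast_eq_zero_iff (KK p) p n, ← map_natCast ι, map_eq_zero]⟩

/-- additive leading coefficients of a family of characters -/
theorem exists_U {F : E → Gp p → ZMod p} (hF : ∀ x x' g, F (x + x') g = F x g + F x' g)
    {i : ℕ} (hi : ¬ p ∣ i) (hi0 : 0 < i)
    (h : ∀ x, ∃ y, KG (F x) y ∧ ‖y - 1‖ ≤ ‖wq p‖ ^ i) :
    ∃ U : E →+ KK p, ∀ x y, KG (F x) y → ‖y - 1‖ ≤ ‖wq p‖ ^ i → U x = lc y i := by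
  choose Y hY1 hY2 using h
  have huniq : ∀ x y, KG (F x) y → ‖y - 1‖ ≤ ‖wq p‖ ^ i → lc (Y x) i = lc y i :=
    fun x y h1 h2 => lc_unique hi hi0 (hY1 x) h1 (hY2 x) h2
  have hadd : ∀ x x', lc (Y (x + x')) i = lc (Y x) i + lc (Y x') i := by
    intro x x'
    rw [← lc_mul hi0 (hY2 x) (hY2 x')]
    exact huniq _ _ (((hY1 x).mul (hY1 x')).congr fun g _ => (hF x x' g).symm)
      (norm_mul_sub_le (norm_eq_one_of hi0 (hY2 x)).le (hY2 x) (hY2 x'))
  exact ⟨AddMonoidHom.mk' (fun x => lc (Y x) i) hadd, huniq⟩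

/-- one step for families -/
theorem step_fam (hp2 : p ≠ 2) (ι : E →+* KK p) {F : E → Gp p → ZMod p}
    (hF : ∀ x x' g, F (x + x') g = F x g + F x' g)
    {τ : Gp p} (hτ : τ ∈ II p)
    (hprim : IsPrimitiveRoot (tc (wp p) τ) (p ^ 2 - 1)) {t : E} (ht : ι t = tc (wp p) τ)
    (hFτ : ∀ m : ℕ, τ (zp p) = zp p ^ m → ∀ x, ∀ u ∈ GK p,
      F (t ^ 2 * x) u = m * F x (τ⁻¹ * u * τ))
    {i : ℕ} (h1 : p ^ 2 - 1 ≤ i) (h2 : i < p ^ 2 + p)
    (h : ∀ x, ∃ y, KG (F x) y ∧ ‖y - 1‖ ≤ ‖wq p‖ ^ i)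
    (hU : i = p ^ 2 + 1 → ∀ x y, KG (F x) y → ‖y - 1‖ ≤ ‖wq p‖ ^ i → lc y i = 0) :
    ∀ x, ∃ y, KG (F x) y ∧ ‖y - 1‖ ≤ ‖wq p‖ ^ (i + 1) := by
  have hi0 : 0 < i := ee_pos.trans_le h1
  by_cases hpi : p ∣ i
  · intro x
    obtain ⟨y, hy, hy1⟩ := h x
    obtain ⟨y', hy', hy'1⟩ := hy.drop hpi hi0 hy1
    exact ⟨y', hy', hy'.next hp2 h2 hy'1⟩
  obtain ⟨U, hU'⟩ := exists_U hF hpi hi0 h
  set γ := tc (wp p) τ ^ (p * i) with hγ
  have hUt : ∀ x, U (t ^ 2 * x) = γ * U x := by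
    intro x
    obtain ⟨y, hy, hy1⟩ := h x
    obtain ⟨m, hm⟩ := exists_cyc (zp_prim (p := p)) τ
    rw [hU' x y hy hy1, hU' (t ^ 2 * x) (τ y) (hy.gal hm fun u hu => hFτ m hm x u hu)
      (by rw [norm_gal_sub_one]; exact hy1), lc_gal hy1, hτ, tc_wq, ← pow_mul, mul_comm]
  have hzero : ∀ x, U x = 0 := by
    by_contra hne
    push Not at hne
    obtain ⟨x, hx⟩ := hne
    -- the quadratic relation
    have hchar : CharP E p := charP_of ι
    have hβ : (t ^ 2) ^ (p ^ 2) = t ^ 2 := by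
      apply ι.injective
      rw [map_pow, map_pow, ht, ← pow_mul, mul_comm, pow_mul, mem_FF'.mp (th_mem τ)]
    obtain ⟨β, hβdef⟩ : ∃ β, β = t ^ 2 := ⟨_, rfl⟩
    rw [← hβdef] at hβ
    simp only [← hβdef] at hUt
    have hcast : ∀ z : E, z ^ p = z → ∃ n : ℕ, (n : E) = z := fun z hz => exists_natCast_of_pow hz
    have hβp : ∀ z : E, (z + z ^ p) ^ p = z ^ p + z ^ (p ^ 2) := fun z => by
      rw [add_pow_char, ← pow_mul, ← pow_two]
    obtain ⟨s, hs⟩ := hcast (β + β ^ p) (by rw [hβp, hβ, add_comm])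
    obtain ⟨n, hn⟩ := hcast (β ^ (p + 1)) (by
      rw [← pow_mul, add_mul, one_mul, pow_add, ← pow_two, hβ, pow_succ, mul_comm])
    have hrel : ∀ x : E, β * (β * x) + n * x = s * (β * x) := by
      intro x
      rw [hs, hn, pow_succ]
      ring
    have hUn : ∀ (n : ℕ) (x : E), U (n * x) = n * U x := fun n x => by
      rw [← nsmul_eq_mul, map_nsmul, nsmul_eq_mul]
    have h3 := congrArg U (hrel x)
    rw [map_add, hUt, hUt, hUn, hUn, hUt] at h3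
    have h4 : γ * γ + n = s * γ := by
      apply mul_right_cancel₀ hx
      linear_combination h3
    have h5 : (γ - ι β) * (γ - ι β ^ p) = 0 := by
      have hs' : (s : KK p) = ι β + ι β ^ p := by rw [← map_natCast ι, hs, map_add, map_pow]
      have hn' : (n : KK p) = ι β * ι β ^ p := by
        rw [← map_natCast ι, hn, pow_succ, map_mul, map_pow, mul_comm]
      rw [hs', hn'] at h4
      linear_combination h4
    have hιβ : ι β = tc (wp p) τ ^ 2 := by rw [hβdef, map_pow, ht]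
    rcases mul_eq_zero.mp h5 with h6 | h6
    · rw [sub_eq_zero, hγ, hιβ] at h6
      exact num2 hp2 h1 h2 (pow_modEq hprim ee_pos h6)
    · rw [sub_eq_zero, hγ, hιβ, ← pow_mul] at h6
      have h7 := num3 hp2 h1 h2 (pow_modEq hprim ee_pos h6)
      obtain ⟨y, hy, hy1⟩ := h x
      exact hx (by rw [hU' x y hy hy1, hU h7 x y hy hy1])
  intro x
  obtain ⟨y, hy, hy1⟩ := h x
  refine ⟨y, hy, hy.next hp2 h2 ?_⟩
  rw [← lc_eq_zero_iff hy1, ← hU' x y hy hy1]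
  exact hzero x

end fam

end Fermat.Agent.FB
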