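import Fermat.Agent.FB.Pts
import Fermat.Agent.FB.Dim

/-!
# The residue field of `ℚ̄_p` is algebraically closed
-/

set_option autoImplicit false
set_option linter.unusedSectionVars false

namespace Fermat.Agent.FB

open Fermat.Agent.Coh Fermat.Agent.GalD Fermat.Agent.LocalCFT Module Polynomial

variable {p : ℕ} [hp : Fact p.Prime]

instance isAlgClosed_KK : IsAlgClosed (KK p) := by
  refine IsAlgClosed.of_exists_root _ fun f hf hirr => ?_
  obtain ⟨F, hF1, hF2, hF3⟩ := lifts_and_natDegree_eq_and_monic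
    (f := IsLocalRing.residue (OO p)) (p := f)
    (by rw [lifts_iff_coeff_lifts]; intro n; exact rd_surjective _) hf
  have hdeg : (F.map (OO p).subtype).degree ≠ 0 := by
    rw [degree_map_eq_of_injective (by exact Subtype.val_injective), degree_eq_natDegree hF3.ne_zero, hF2]
    have := hirr.natDegree_pos
    intro h
    rw [Nat.cast_eq_zero] at h
    omega
  obtain ⟨z, hz⟩ := IsAlgClosed.exists_root (F.map (OO p).subtype) hdeg
  have hz1 : ‖z‖ ≤ 1 := by
    by_contra hlt
    rw [not_le] at hlt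
    rw [IsRoot.def, eval_map, eval₂_eq_sum_range, Finset.sum_range_succ, hF3.coeff_natDegree,
      map_one, one_mul] at hz
    have h1 : ‖z ^ F.natDegree‖ ≤ ‖z‖ ^ (F.natDegree - 1) := by
      rw [← neg_eq_iff_add_eq_zero.mpr hz, norm_neg]
      refine IsUltrametricDist.norm_sum_le_of_forall_le_of_nonneg (by positivity) fun i hi => ?_
      rw [norm_mul, norm_pow]
      have h2 : ‖(OO p).subtype (F.coeff i)‖ ≤ 1 := mem_OO.mp (F.coeff i).2
      refine (mul_le_of_le_one_left (by positivity) h2).trans ?_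
      exact pow_le_pow_right₀ hlt.le (by rw [Finset.mem_range] at hi; omega)
    rw [norm_pow] at h1
    have hpos : 0 < F.natDegree := by rw [hF2]; exact hirr.natDegree_pos
    exact absurd h1 (not_le.mpr (pow_lt_pow_right₀ hlt (by omega)))
  refine ⟨rd ⟨z, mem_OO.mpr hz1⟩, ?_⟩
  rw [← hF1, eval_map, eval₂_at_apply]
  have h3 : F.eval ⟨z, mem_OO.mpr hz1⟩ = 0 := by
    apply Subtype.ext
    have h4 : (OO p).subtype (F.eval ⟨z, mem_OO.mpr hz1⟩) = 0 := by
      rw [← eval₂_at_apply, ← eval_map]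
      exact hz
    exact h4
  rw [h3, map_zero]

instance isAlgebraic_KK : Algebra.IsAlgebraic (ZMod p) (KK p) where
  isAlgebraic y := by
    obtain ⟨m, hm, hy⟩ := exists_mem_FF' y
    rw [mem_FF'] at hy
    refine ⟨X ^ (p ^ m) - X, ?_, ?_⟩
    · exact (FiniteField.X_pow_card_pow_sub_X_ne_zero (ZMod p) hm hp.out.one_lt)
    · rw [map_sub, map_pow, aeval_X, hy, sub_self]

theorem exists_conj {x y : KK p} (hx : aeval x (minpoly (ZMod p) y) = 0) :
    ∃ σ : KK p ≃+* KK p, σ x = y := by
  have : IsAlgClosure (ZMod p) (KK p) := ⟨inferInstance, inferInstance⟩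
  obtain ⟨σ, hσ⟩ := minpoly.exists_algEquiv_of_root (K := ZMod p) (L := KK p) (x := x) (y := y)
    (Algebra.IsAlgebraic.isAlgebraic y) hx
  exact ⟨σ, hσ⟩

end Fermat.Agent.FB
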