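import Fermat.Agent.FB.Coset

/-!
# Fontaine's bound for finite Galois extensions of complete fields
-/

set_option autoImplicit false
set_option linter.unusedSectionVars false

namespace Fermat.Agent.FB

open Coalgebra TensorProduct WithConv Polynomial

section ring

variable {S : Type*} [CommRing S] {L : Type*} [NormedField L] [IsUltrametricDist L] [Algebra S L]

/-- the ring of integers -/
def OL (hS1 : ∀ s : S, ‖algebraMap S L s‖ ≤ 1) : Subalgebra S L where
  carrier := {x | ‖x‖ ≤ 1}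
  mul_mem' := fun {x y} hx hy => by
    change ‖x * y‖ ≤ 1
    rw [norm_mul]
    exact mul_le_one₀ hx (norm_nonneg _) hy
  add_mem' := fun {x y} hx hy => (IsUltrametricDist.norm_add_le_max x y).trans (max_le hx hy)
  algebraMap_mem' := hS1

variable (hS1 : ∀ s : S, ‖algebraMap S L s‖ ≤ 1)

theorem mem_OL {x : L} : x ∈ OL hS1 ↔ ‖x‖ ≤ 1 := Iff.rfl

theorem OL_dvd {x y : OL hS1} (hx : (x : L) ≠ 0) (h : ‖(y : L)‖ ≤ ‖(x : L)‖) : x ∣ y :=
  ⟨⟨(y : L) / x, by
    rw [mem_OL, norm_div]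
    exact div_le_one_of_le₀ h (norm_nonneg _)⟩, Subtype.ext (by
      change (y : L) = x * (y / x)
      rw [mul_div_cancel₀ _ hx])⟩

theorem OL_cpl [CompleteSpace L] {ϖ : OL hS1} (h0 : (ϖ : L) ≠ 0) (h1 : ‖(ϖ : L)‖ < 1) :
    Cpl (OL hS1) ϖ where
  haus x hx := by
    have h2 : ∀ n : ℕ, ‖(x : L)‖ ≤ ‖(ϖ : L)‖ ^ n := by
      intro n
      obtain ⟨y, hy⟩ := hx n
      have h3 : (x : L) = (ϖ : L) ^ n * y := by rw [hy]; rfl
      rw [h3, norm_mul, norm_pow]
      exact mul_le_of_le_one_right (pow_nonneg (norm_nonneg _) _) y.2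
    have h3 : ‖(x : L)‖ ≤ 0 :=
      ge_of_tendsto' (tendsto_pow_atTop_nhds_zero_of_lt_one (norm_nonneg _) h1) h2
    exact Subtype.ext (norm_le_zero_iff.mp h3)
  lim f hf := by
    have h2 : ∀ n : ℕ, ‖(f (n + 1) : L) - f n‖ ≤ ‖(ϖ : L)‖ ^ n := by
      intro n
      obtain ⟨y, hy⟩ := hf n
      have h3 : (f (n + 1) : L) - f n = (ϖ : L) ^ n * y := by
        have := congrArg (Subtype.val) hy
        exact this
      rw [h3, norm_mul, norm_pow]
      exact mul_le_of_le_one_right (pow_nonneg (norm_nonneg _) _) y.2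
    have hcau : CauchySeq (fun n => (f n : L)) :=
      cauchySeq_of_le_geometric ‖(ϖ : L)‖ 1 h1 fun n => by
        rw [dist_comm, dist_eq_norm, one_mul]
        exact h2 n
    obtain ⟨l, hl⟩ := cauchySeq_tendsto_of_complete hcau
    have hlO : ‖l‖ ≤ 1 := le_of_tendsto' hl.norm fun n => (f n).2
    have h3 : ∀ n k : ℕ, ‖(f (n + k) : L) - f n‖ ≤ ‖(ϖ : L)‖ ^ n := by
      intro n k
      induction k with
      | zero => rw [add_zero, sub_self, norm_zero]; exact pow_nonneg (norm_nonneg _) _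
      | succ k ih =>
        have h4 : (f (n + (k + 1)) : L) - f n = (f (n + k + 1) - f (n + k)) + (f (n + k) - f n) := by
          rw [add_assoc]
          ring
        rw [h4]
        refine (IsUltrametricDist.norm_add_le_max _ _).trans (max_le ((h2 _).trans ?_) ih)
        exact pow_le_pow_of_le_one (norm_nonneg _) h1.le (Nat.le_add_right _ _)
    have h4 : ∀ n : ℕ, ‖l - f n‖ ≤ ‖(ϖ : L)‖ ^ n := by
      intro n
      have h5 : Filter.Tendsto (fun k => ‖(f (n + k) : L) - f n‖) Filter.atTop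
          (nhds ‖l - f n‖) := by
        refine (Filter.Tendsto.sub_const ?_ _).norm
        have h6 := (Filter.tendsto_add_atTop_iff_nat (f := fun n => (f n : L)) n).mpr hl
        simpa [add_comm] using h6
      exact le_of_tendsto' h5 fun k => h3 n k
    refine ⟨⟨l, hlO⟩, fun n => OL_dvd hS1 ?_ ?_⟩
    · change (ϖ : L) ^ n ≠ 0
      exact pow_ne_zero _ h0
    · change ‖l - f n‖ ≤ ‖(ϖ : L) ^ n‖
      rw [norm_pow]
      exact h4 n

include hS1 in
theorem norm_point_le {H : Type*} [CommRing H] [Algebra S H] [Module.Finite S H]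
    (P : H →ₐ[S] L) (h : H) : ‖P h‖ ≤ 1 := by
  obtain ⟨q, hq, hqc⟩ := (Algebra.IsIntegral.isIntegral h : IsIntegral S h)
  by_contra hlt
  push Not at hlt
  have h1 : (q.map (algebraMap S L)).eval (P h) = 0 := by
    have h2 := congrArg P hqc
    rw [map_zero] at h2
    rw [← h2, eval_map]
    change _ = (P : H →+* L) _
    rw [hom_eval₂]
    congr 1
    ext x
    exact (P.commutes x).symm
  set r := q.map (algebraMap S L) with hr
  have hrm : r.Monic := hq.map _
  rw [eval_eq_sum_range, Finset.sum_range_succ, hrm.coeff_natDegree, one_mul] at h1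
  have h2 : ‖∑ i ∈ Finset.range r.natDegree, r.coeff i * (P h) ^ i‖ < ‖P h‖ ^ r.natDegree := by
    rcases Nat.eq_zero_or_pos r.natDegree with h0 | h0
    · rw [h0, Finset.range_zero, Finset.sum_empty, norm_zero, pow_zero]
      exact zero_lt_one
    · obtain ⟨i, hi, hle⟩ := IsUltrametricDist.exists_norm_finsetSum_le_of_nonempty
        (Finset.nonempty_range_iff.mpr h0.ne') (fun i => r.coeff i * (P h) ^ i)
      refine hle.trans_lt ?_
      rw [norm_mul, norm_pow, hr, coeff_map]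
      refine (mul_le_of_le_one_left (pow_nonneg (norm_nonneg _) _) (hS1 _)).trans_lt ?_
      exact pow_lt_pow_right₀ hlt (Finset.mem_range.mp hi)
  rw [eq_neg_of_add_eq_zero_left h1, norm_neg, norm_pow] at h2
  exact lt_irrefl _ h2

end ring

section bound

variable {L : Type*} [NormedField L] [IsUltrametricDist L] [CompleteSpace L]
  {G : Type*} [Group G] [Fintype G] [MulSemiringAction G L]
  (hiso : ∀ (g : G) (x : L), ‖g • x‖ = ‖x‖)
  {S : Type*} [CommRing S] [Algebra S L] (hS1 : ∀ s : S, ‖algebraMap S L s‖ ≤ 1)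
  (hS2 : ∀ (g : G) (s : S), g • algebraMap S L s = algebraMap S L s)
  {H : Type*} [CommRing H] [Bialgebra S H] [Module.Free S H] [IsCocomm S H]
  [Module.Finite S H]

include hiso hS1 hS2 in
/-- **Fontaine's bound.** -/
theorem bound {p : ℕ} (hp : p.Prime) (hp2 : p ≠ 2) (hp0 : (p : L) ≠ 0) (hp1 : ‖(p : L)‖ < 1)
    {α : L} (hα : ‖α‖ ≤ 1)
    (hgen : ∀ y : L, ‖y‖ ≤ 1 → ∃ g : L[X], (∀ i (σ : G), σ • g.coeff i = g.coeff i) ∧
      (∀ i, ‖g.coeff i‖ ≤ 1) ∧ g.eval α = y)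
    {ι : Type*} (P : ι → (H →ₐ[S] L))
    (hP : ∀ i, (toConv (P i).toLinearMap : WithConv (H →ₗ[S] L)) ^ p = 1)
    (hfaith : ∀ σ : G, (∀ i h, σ • (P i h) = P i h) → σ = 1)
    (C D : Subgroup G) (hDC : D ≤ C) {s₁ : G} (hs₁ : s₁ ∈ C) (hs₁' : s₁ ∉ D) {A B : ℝ}
    (hA : ∀ σ ∉ C, ∀ b : L, (∀ h ∈ C, h • b = b) → ‖b‖ ≤ 1 → ‖σ • b - b‖ ≤ A)
    (hB : ∀ σ ∈ C, σ ∉ D → ∀ b : L, (∀ h ∈ D, h • b = b) → ‖b‖ ≤ 1 → ‖σ • b - b‖ ≤ B) :
    ‖(p : L)‖ ^ p ≤ (A ^ (C.index - 1) * B ^ (D.relIndex C)) ^ (p - 1) := by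
  classical
  obtain ⟨σ, hσ1, hprod⟩ := exists_prod_le hiso C D hDC hs₁ hs₁' hα hA hB
  by_contra hlt
  push Not at hlt
  apply hσ1
  set PP : ℝ := ∏ s : G, max ‖s • α - α‖ ‖σ • α - α‖ with hPP
  have hPP0 : 0 ≤ PP := Finset.prod_nonneg fun s _ => (norm_nonneg _).trans (le_max_left _ _)
  have hPPp : PP ^ (p - 1) < ‖(p : L)‖ ^ p := (pow_le_pow_left₀ hPP0 hprod _).trans_lt hlt
  have hp1' : p - 1 ≠ 0 := by have := hp.two_le; omega
  -- conjugates
  have hfixα : ∀ s t : G, s • α = t • α → s = t := by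
    intro s t hst
    have h1 : (t⁻¹ * s) • α = α := by rw [mul_smul, hst, inv_smul_smul]
    have h2 : t⁻¹ * s = 1 := by
      apply hfaith
      intro i h
      obtain ⟨g, hg1, hg2, hg3⟩ := hgen (P i h) (norm_point_le hS1 (P i) h)
      rw [← hg3, eval_eq_sum_range, Finset.smul_sum]
      refine Finset.sum_congr rfl fun k _ => ?_
      rw [smul_mul', smul_pow', h1, hg1]
    exact (eq_of_inv_mul_eq_one h2).symm
  -- the ring of integers
  let αO : OL hS1 := ⟨α, hα⟩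
  let A₀ : Subring (OL hS1) :=
    { carrier := {x | ∀ g : G, g • (x : L) = x}
      mul_mem' := fun {x y} hx hy g => by
        change g • ((x : L) * y) = x * y
        rw [smul_mul', hx, hy]
      one_mem' := fun g => smul_one g
      add_mem' := fun {x y} hx hy g => by
        change g • ((x : L) + y) = x + y
        rw [smul_add, hx, hy]
      zero_mem' := fun g => smul_zero g
      neg_mem' := fun {x} hx g => by
        change g • (-(x : L)) = -x
        rw [smul_neg, hx] }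
  let act : G → (OL hS1 →+* OL hS1) := fun g =>
    { toFun := fun x => ⟨g • (x : L), by rw [mem_OL, hiso]; exact x.2⟩
      map_one' := Subtype.ext (smul_one g)
      map_mul' := fun x y => Subtype.ext (smul_mul' g _ _)
      map_zero' := Subtype.ext (smul_zero g)
      map_add' := fun x y => Subtype.ext (smul_add g _ _) }
  have hact : ∀ g (x : OL hS1), ((act g x : OL hS1) : L) = g • (x : L) := fun _ _ => rfl
  have hgenO : ∀ y : OL hS1, ∃ g : A₀[X], (g.map A₀.subtype).eval αO = y := by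
    intro y
    obtain ⟨g, hg1, hg2, hg3⟩ := hgen y y.2
    refine ⟨∑ i ∈ Finset.range (g.natDegree + 1),
      Polynomial.C (⟨⟨g.coeff i, hg2 i⟩, fun σ => hg1 i σ⟩ : A₀) * X ^ i, ?_⟩
    apply Subtype.ext
    rw [Polynomial.map_sum, eval_finsetSum]
    change ((OL hS1).val (∑ i ∈ _, _)) = _
    rw [map_sum, ← hg3, eval_eq_sum_range]
    refine Finset.sum_congr rfl fun i _ => ?_
    rw [Polynomial.map_mul, map_C, Polynomial.map_pow, map_X, eval_mul, eval_C, eval_pow, eval_X]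
    rfl
  -- the constants
  let cL : G → L := fun s => if ‖σ • α - α‖ ≤ ‖s • α - α‖ then s • α - α else σ • α - α
  have hcL : ∀ s, ‖cL s‖ = max ‖s • α - α‖ ‖σ • α - α‖ := by
    intro s
    change ‖if _ then _ else _‖ = _
    split_ifs with h
    · rw [max_eq_left h]
    · rw [max_eq_right (not_le.mp h).le]
  have hσα : σ • α - α ≠ 0 := by
    rw [sub_ne_zero]
    intro h
    exact hσ1 (hfixα σ 1 (by rw [h, one_smul]))
  have hcpos : ∀ s, 0 < ‖cL s‖ := fun s => by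
    rw [hcL]
    exact (norm_pos_iff.mpr hσα).trans_le (le_max_right _ _)
  have hcne : ∀ s, cL s ≠ 0 := fun s => norm_pos_iff.mp (hcpos s)
  have hαs : ∀ s : G, ‖s • α - α‖ ≤ 1 := fun s =>
    (norm_sub_le_max _ _).trans (max_le (by rw [hiso]; exact hα) hα)
  let c : G → OL hS1 := fun s => ⟨cL s, by
    rw [mem_OL, hcL]
    exact max_le (hαs s) (hαs σ)⟩
  let ξ : OL hS1 := ⟨σ • α - α, hαs σ⟩
  have hd : ∀ s, ∃ d, αO - act s αO = c s * d := fun s => OL_dvd hS1 (hcne s) (by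
    change ‖α - s • α‖ ≤ ‖cL s‖
    rw [hcL, norm_sub_rev]
    exact le_max_left _ _)
  have he : ∀ s, ∃ e, ξ = c s * e := fun s => OL_dvd hS1 (hcne s) (by
    change ‖σ • α - α‖ ≤ ‖cL s‖
    rw [hcL]
    exact le_max_right _ _)
  choose d hd using hd
  choose e he using he
  -- `l`
  have hcprod : ‖∏ s, cL s‖ = PP := by
    rw [norm_prod, hPP]
    exact Finset.prod_congr rfl fun s _ => hcL s
  have hppos : 0 < ‖(p : L)‖ := norm_pos_iff.mpr hp0
  set lL : L := (∏ s, cL s) / p with hlL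
  have hlp : ‖lL‖ ^ (p - 1) < ‖(p : L)‖ := by
    rw [hlL, norm_div, hcprod, div_pow, div_lt_iff₀ (pow_pos hppos _)]
    refine hPPp.trans_le (le_of_eq ?_)
    rw [← pow_succ', Nat.sub_add_cancel hp.one_lt.le]
  have hl1 : ‖lL‖ < 1 := by
    by_contra h
    push Not at h
    have := one_le_pow₀ h (n := p - 1)
    linarith
  have hlne : lL ≠ 0 := div_ne_zero (Finset.prod_ne_zero_iff.mpr fun s _ => hcne s) hp0
  set tL : L := lL ^ (p - 1) / p with htL
  have htne : tL ≠ 0 := div_ne_zero (pow_ne_zero _ hlne) hp0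
  have ht1 : ‖tL‖ < 1 := by
    rw [htL, norm_div, norm_pow, div_lt_one hppos]
    exact hlp
  obtain ⟨ϖ, hϖ0, hϖ1, hϖl, hϖt⟩ : ∃ ϖ : L, ϖ ≠ 0 ∧ ‖ϖ‖ < 1 ∧ ‖lL‖ ≤ ‖ϖ‖ ∧ ‖tL‖ ≤ ‖ϖ‖ := by
    rcases le_total ‖lL‖ ‖tL‖ with h | h
    · exact ⟨tL, htne, ht1, h, le_rfl⟩
    · exact ⟨lL, hlne, hl1, le_rfl, h⟩
  let l : OL hS1 := ⟨lL, hl1.le⟩
  let t : OL hS1 := ⟨tL, ht1.le⟩
  let ϖO : OL hS1 := ⟨ϖ, hϖ1.le⟩
  obtain ⟨l', hl'⟩ : ϖO ∣ l := OL_dvd hS1 hϖ0 hϖl
  obtain ⟨ν, hν⟩ : ϖO ∣ t := OL_dvd hS1 hϖ0 hϖt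
  have hpO : (((p : ℕ) : OL hS1) : L) = (p : L) := by push_cast; rfl
  have hc : ∏ s, c s = (p : OL hS1) * l := by
    apply Subtype.ext
    have h1 : ((∏ s, c s : OL hS1) : L) = ∏ s, cL s := map_prod (OL hS1).val c Finset.univ
    rw [h1]
    change _ = (((p : ℕ) : OL hS1) : L) * lL
    rw [hpO, hlL, mul_div_cancel₀ _ hp0]
  have hν' : l ^ (p - 1) = (p : OL hS1) * (ϖO * ν) := by
    rw [← hν]
    apply Subtype.ext
    change lL ^ (p - 1) = (((p : ℕ) : OL hS1) : L) * tL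
    rw [hpO, htL, mul_div_cancel₀ _ hp0]
  -- conclusion
  apply hfaith
  intro i h
  let PO : H →ₐ[S] OL hS1 := (P i).codRestrict (OL hS1) fun h => norm_point_le hS1 (P i) h
  have hPO : (toConv PO.toLinearMap : WithConv (H →ₗ[S] OL hS1)) ^ p = 1 := by
    have h1 := push_pow (OL hS1).val (toConv PO.toLinearMap) p
    have h2 := push_one (C := H) (OL hS1).val
    have h3 : (toConv ((OL hS1).val.toLinearMap ∘ₗ (toConv PO.toLinearMap).ofConv) :
        WithConv (H →ₗ[S] L)) = toConv (P i).toLinearMap := rfl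
    rw [h3, hP i, ← h2] at h1
    apply WithConv.ext
    ext x
    have h4 := congrArg (fun f : WithConv (H →ₗ[S] L) => f x) h1
    exact h4
  have hfin := fontaine A₀ act αO (OL_cpl hS1 hϖ0 hϖ1) hp hp2 (l := l) (l' := l') (ν := ν)
    (fun h => hp0 (by rw [← hpO, h]; rfl)) (fun h => hlne (congrArg Subtype.val h)) hl' hν'
    (fun x g => hS2 g x) hgenO (fun g a ha => Subtype.ext (ha g))
    (fun s t hst => hfixα s t (congrArg Subtype.val hst)) (act σ) (fun a ha => Subtype.ext (ha σ))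
    (ξ := ξ) (Subtype.ext (by
      change σ • α = α + (σ • α - α)
      ring)) hd he hc PO hPO h
  exact congrArg Subtype.val hfin

end bound

end Fermat.Agent.FB
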