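import Fermat.Agent.FB.Kum

/-!
# Leading coefficients of Kummer generators
-/

set_option autoImplicit false
set_option linter.unusedSectionVars false

namespace Fermat.Agent.FB

open Fermat.Agent.Coh Fermat.Agent.GalD Fermat.Agent.LocalCFT Module IntermediateField

variable {p : ℕ} [hp : Fact p.Prime]

variable (p) in
/-- a `p`-th root of the tame uniformizer -/
noncomputable def wq : PadicAlgCl p :=
  (IsAlgClosed.exists_pow_nat_eq (wp p) hp.out.pos).choose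

theorem wq_pow : wq p ^ p = wp p :=
  (IsAlgClosed.exists_pow_nat_eq (wp p) hp.out.pos).choose_spec

theorem norm_wq_pow : ‖wq p‖ ^ p = ‖wp p‖ := by rw [← norm_pow, wq_pow]

theorem wq_ne_zero : wq p ≠ 0 := by
  intro h
  have h1 := wq_pow (p := p)
  rw [h, zero_pow hp.out.ne_zero] at h1
  exact wp_ne_zero h1.symm

theorem norm_wq_pos : 0 < ‖wq p‖ := norm_pos_iff.mpr wq_ne_zero

theorem norm_wq_lt_one : ‖wq p‖ < 1 := by
  rw [← pow_lt_one_iff_of_nonneg (norm_nonneg _) hp.out.ne_zero, norm_wq_pow]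
  exact norm_wp_lt_one

theorem wp_zpow_eq (k : ℤ) : ‖wp p‖ ^ k = ‖wq p‖ ^ ((p : ℤ) * k) := by
  rw [← norm_wq_pow, zpow_mul, zpow_natCast]

theorem wp_pow_eq (k : ℕ) : ‖wp p‖ ^ k = ‖wq p‖ ^ (p * k) := by
  rw [← norm_wq_pow, pow_mul]

theorem tc_wq (g : Gp p) : tc (wq p) g = tc (wp p) g ^ p := by
  apply pow_inj_l (l := p) (a := 1)
  rw [pow_one, ← tc_pow_arg wq_ne_zero, wq_pow, ← pow_mul, ← pow_two]
  exact (mem_FF'.mp (th_mem g)).symm

/-! ### powers of the root of unity -/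

/-- powers of the root of unity -/
noncomputable def zpw (a : ZMod p) : PadicAlgCl p := zp p ^ a.val

theorem zpw_natCast (n : ℕ) : zpw (n : ZMod p) = zp p ^ n := by
  rw [zpw, ZMod.val_natCast]
  exact (pow_eq_pow_mod n zp_prim.pow_eq_one).symm

theorem zpw_add (a b : ZMod p) : zpw (a + b) = zpw a * zpw b := by
  have : NeZero p := ⟨hp.out.ne_zero⟩
  have h : a + b = ((a.val + b.val : ℕ) : ZMod p) := by
    rw [Nat.cast_add, ZMod.natCast_zmod_val, ZMod.natCast_zmod_val]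
  rw [h, zpw_natCast, pow_add]
  rfl

theorem zpw_natCast_mul (m : ℕ) (b : ZMod p) : zpw ((m : ZMod p) * b) = zpw b ^ m := by
  have : NeZero p := ⟨hp.out.ne_zero⟩
  have h : (m : ZMod p) * b = ((b.val * m : ℕ) : ZMod p) := by
    rw [Nat.cast_mul, ZMod.natCast_zmod_val, mul_comm]
  rw [h, zpw_natCast, pow_mul]
  rfl

theorem zpw_zero : zpw (0 : ZMod p) = 1 := by
  rw [zpw, ZMod.val_zero, pow_zero]

theorem zpw_ne_zero (a : ZMod p) : zpw a ≠ 0 := pow_ne_zero _ (zp_prim.ne_zero hp.out.ne_zero)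

theorem zpw_pow (a : ZMod p) : zpw a ^ p = 1 := by
  rw [zpw, ← pow_mul, mul_comm, pow_mul, zp_prim.pow_eq_one, one_pow]

theorem zpw_fixed {g : Gp p} (hg : g ∈ GK p) (a : ZMod p) : g (zpw a) = zpw a := by
  rw [zpw, map_pow, root_fixed zp_prim hg]

theorem eq_zero_of_zpw {a : ZMod p} (h : ‖zpw a - 1‖ < ‖wp p‖ ^ (p + 1)) : a = 0 := by
  have : NeZero p := ⟨hp.out.ne_zero⟩
  by_contra hne
  have h1 : zpw a ≠ 1 := by
    intro h1
    have h2 := zp_prim.dvd_of_pow_eq_one _ h1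
    have h3 := ZMod.val_lt a
    have h4 : a.val = 0 := Nat.eq_zero_of_dvd_of_lt h2 h3
    exact hne ((ZMod.val_eq_zero a).mp h4)
  rw [norm_root_sub' (primitive_of_ne (zpw_pow a) h1)] at h
  exact lt_irrefl _ h

instance normal_GK : (GK p).Normal where
  conj_mem h hh g := by
    refine ⟨(normal_II (p := p)).conj_mem h hh.1 g, ?_⟩
    change (g * h * g⁻¹) (wp p) = wp p
    have h1 := wp_div_pow (p := p) g⁻¹
    have h2 : g⁻¹ (wp p) = g⁻¹ (wp p) / wp p * wp p := (div_mul_cancel₀ _ wp_ne_zero).symm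
    rw [AlgEquiv.mul_apply, AlgEquiv.mul_apply, h2, map_mul, II_root ee_coprime hh.1 h1]
    have h3 : h (wp p) = wp p := hh.2
    rw [h3, ← h2]
    exact g.apply_symm_apply _

/-! ### Kummer generators -/

/-- `y` is a Kummer generator of the character `f` of `GK` -/
def KG (f : Gp p → ZMod p) (y : PadicAlgCl p) : Prop :=
  y ≠ 0 ∧ ∀ g ∈ GK p, g y = zpw (f g) * y

variable {f f' : Gp p → ZMod p} {y y' : PadicAlgCl p}

theorem KG.congr (h : KG f y) (hff : ∀ g ∈ GK p, f g = f' g) : KG f' y :=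
  ⟨h.1, fun g hg => by rw [← hff g hg]; exact h.2 g hg⟩

theorem KG.mul (h : KG f y) (h' : KG f' y') : KG (fun g => f g + f' g) (y * y') :=
  ⟨mul_ne_zero h.1 h'.1, fun g hg => by rw [map_mul, h.2 g hg, h'.2 g hg, zpw_add]; ring⟩

theorem KG.div_fixed (h : KG f y) {a : PadicAlgCl p} (ha0 : a ≠ 0) (ha : ∀ g ∈ GK p, g a = a) :
    KG f (y / a) :=
  ⟨div_ne_zero h.1 ha0, fun g hg => by rw [map_div₀, h.2 g hg, ha g hg, mul_div_assoc]⟩

theorem KG.one : KG (fun _ => 0) (1 : PadicAlgCl p) :=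
  ⟨one_ne_zero, fun g _ => by rw [map_one, zpw_zero, one_mul]⟩

theorem KG.quot (h : KG f y) (h' : KG f y') : ∀ g ∈ GK p, g (y / y') = y / y' := fun g hg => by
  rw [map_div₀, h.2 g hg, h'.2 g hg, mul_div_mul_left _ _ (zpw_ne_zero _)]

theorem KG.pow_fixed (h : KG f y) : ∀ g ∈ GK p, g (y ^ p) = y ^ p := fun g hg => by
  rw [map_pow, h.2 g hg, mul_pow, zpw_pow, one_mul]

/-- conjugation of Kummer generators -/
theorem KG.gal (h : KG f y) {g : Gp p} {m : ℕ} (hm : g (zp p) = zp p ^ m)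
    (hf : ∀ u ∈ GK p, f' u = m * f (g⁻¹ * u * g)) : KG f' (g y) := by
  refine ⟨(map_ne_zero g).mpr h.1, fun u hu => ?_⟩
  have h1 : g⁻¹ * u * g ∈ GK p := by
    have := (normal_GK (p := p)).conj_mem u hu g⁻¹
    rwa [inv_inv] at this
  have h2 : u (g y) = g ((g⁻¹ * u * g) y) := by
    rw [AlgEquiv.mul_apply, AlgEquiv.mul_apply]
    exact (g.apply_symm_apply _).symm
  rw [h2, h.2 _ h1, map_mul, hf u hu, zpw_natCast_mul, zpw, map_pow, hm, ← pow_mul, ← pow_mul,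
    mul_comm m]

theorem norm_eq_one_of {i : ℕ} (hi : 0 < i) (h : ‖y - 1‖ ≤ ‖wq p‖ ^ i) : ‖y‖ = 1 := by
  have h1 : ‖y - 1‖ < ‖(1 : PadicAlgCl p)‖ := by
    rw [norm_one]
    exact h.trans_lt (pow_lt_one₀ (norm_nonneg _) norm_wq_lt_one hi.ne')
  have h2 : y = 1 + (y - 1) := by ring
  rw [h2, IsUltrametricDist.norm_add_eq_max_of_norm_ne_norm h1.ne', max_eq_left h1.le, norm_one]

theorem norm_mul_sub_le {r : ℝ} (hy : ‖y‖ ≤ 1) (h : ‖y - 1‖ ≤ r) (h' : ‖y' - 1‖ ≤ r) :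
    ‖y * y' - 1‖ ≤ r := by
  have h1 : y * y' - 1 = y * (y' - 1) + (y - 1) := by ring
  rw [h1]
  refine (IsUltrametricDist.norm_add_le_max _ _).trans (max_le ?_ h)
  rw [norm_mul]
  exact (mul_le_of_le_one_left (norm_nonneg _) hy).trans h'

/-- leading coefficients -/
noncomputable def lc (y : PadicAlgCl p) (i : ℕ) : KK p := rdd ((y - 1) / wq p ^ i)

theorem norm_div_wq_le {z : PadicAlgCl p} {i : ℕ} (h : ‖z‖ ≤ ‖wq p‖ ^ i) :
    ‖z / wq p ^ i‖ ≤ 1 := by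
  rw [norm_div, norm_pow]
  exact div_le_one_of_le₀ h (by positivity)

theorem lc_eq_zero_iff {i : ℕ} (h : ‖y - 1‖ ≤ ‖wq p‖ ^ i) : lc y i = 0 ↔ ‖y - 1‖ < ‖wq p‖ ^ i := by
  rw [lc, rdd_eq_zero_iff (norm_div_wq_le h), norm_div, norm_pow,
    div_lt_one (pow_pos norm_wq_pos _)]

theorem lc_mul {i : ℕ} (hi : 0 < i) (h : ‖y - 1‖ ≤ ‖wq p‖ ^ i) (h' : ‖y' - 1‖ ≤ ‖wq p‖ ^ i) :
    lc (y * y') i = lc y i + lc y' i := by
  have hy := norm_eq_one_of hi h
  rw [lc, lc, lc, ← rdd_add (norm_div_wq_le h) (norm_div_wq_le h'),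
    rdd_eq_iff (norm_div_wq_le (norm_mul_sub_le hy.le h h')) (by
      rw [← add_div]
      exact norm_div_wq_le ((IsUltrametricDist.norm_add_le_max _ _).trans (max_le h h')))]
  have h1 : (y * y' - 1) / wq p ^ i - ((y - 1) / wq p ^ i + (y' - 1) / wq p ^ i) =
      (y - 1) * ((y' - 1) / wq p ^ i) := by
    have := pow_ne_zero i (wq_ne_zero (p := p))
    field_simp
    ring
  rw [h1, norm_mul]
  refine (mul_le_of_le_one_right (norm_nonneg _) (norm_div_wq_le h')).trans_lt ?_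
  exact h.trans_lt (pow_lt_one₀ (norm_nonneg _) norm_wq_lt_one hi.ne')

theorem lc_gal {i : ℕ} (h : ‖y - 1‖ ≤ ‖wq p‖ ^ i) (g : Gp p) :
    lc (g y) i = gbar g (lc y i) * tc (wq p) g ^ i := by
  have h1 : (g y - 1) / wq p ^ i = g ((y - 1) / wq p ^ i) * (g (wq p) / wq p) ^ i := by
    have h2 := pow_ne_zero i (wq_ne_zero (p := p))
    have h3 : g (wq p) ≠ 0 := (map_ne_zero g).mpr wq_ne_zero
    rw [map_div₀, map_sub, map_one, map_pow, div_pow]
    field_simp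
  rw [lc, h1, rdd_mul (by rw [norm_gal]; exact norm_div_wq_le h)
    (by rw [norm_pow, norm_gal_div wq_ne_zero, one_pow]), rdd_gal g (norm_div_wq_le h),
    rdd_pow (norm_gal_div wq_ne_zero g).le]
  rfl

/-- uniqueness of the leading coefficient -/
theorem lc_unique {i : ℕ} (hi : ¬ p ∣ i) (hi0 : 0 < i) (h : KG f y) (h' : KG f y')
    (hy : ‖y - 1‖ ≤ ‖wq p‖ ^ i) (hy' : ‖y' - 1‖ ≤ ‖wq p‖ ^ i) : lc y i = lc y' i := by
  rw [lc, lc, rdd_eq_iff (norm_div_wq_le hy) (norm_div_wq_le hy')]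
  have hn' := norm_eq_one_of hi0 hy'
  have h1 : (y - 1) / wq p ^ i - (y' - 1) / wq p ^ i = (y / y' - 1) * y' / wq p ^ i := by
    have := h'.1
    rw [← sub_div]
    congr 1
    field_simp
    ring
  rw [h1, norm_div, norm_mul, hn', mul_one, norm_pow, div_lt_one (pow_pos norm_wq_pos _)]
  have h2 : ‖y / y' - 1‖ ≤ ‖wq p‖ ^ i := by
    have h3 : y / y' - 1 = ((y - 1) - (y' - 1)) / y' := by
      have := h'.1
      field_simp
      ring
    rw [h3, norm_div, hn', div_one]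
    exact (norm_sub_le_max _ _).trans (max_le hy hy')
  by_cases h0 : y / y' - 1 = 0
  · rw [h0, norm_zero]
    exact pow_pos norm_wq_pos _
  refine lt_of_le_of_ne h2 fun he => hi ?_
  obtain ⟨k, hk⟩ := norm_GK h0 fun g hg => by rw [map_sub, map_one, h.quot h' g hg]
  rw [hk, wp_zpow_eq, ← zpow_natCast] at he
  have h3 := zpow_right_injective₀ norm_wq_pos norm_wq_lt_one.ne he
  rw [← Int.natCast_dvd_natCast]
  exact ⟨k, h3.symm⟩

theorem KG.norm_eq (hp2 : p ≠ 2) (h : KG f y) (h1 : ‖y - 1‖ < 1)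
    (h2 : ‖wp p‖ ^ (p + 1) ≤ ‖y - 1‖) : ∃ k : ℤ, ‖y - 1‖ = ‖wq p‖ ^ k := by
  have h3 : y / 1 - 1 = y - 1 := by rw [div_one]
  obtain ⟨k, hk⟩ := pz hp2 h.pow_fixed (a := 1) (fun g _ => map_one g) (by rwa [h3]) (by rwa [h3])
  rw [h3, wp_zpow_eq, mul_comm, zpow_mul, zpow_natCast] at hk
  exact ⟨k, (pow_left_inj₀ (norm_nonneg _) (zpow_pos norm_wq_pos _).le hp.out.ne_zero).mp hk⟩

theorem KG.next (hp2 : p ≠ 2) (h : KG f y) {i : ℕ} (hi : i < p ^ 2 + p)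
    (h1 : ‖y - 1‖ < ‖wq p‖ ^ i) : ‖y - 1‖ ≤ ‖wq p‖ ^ (i + 1) := by
  have hq := norm_wq_pos (p := p)
  have hq1 := norm_wq_lt_one (p := p)
  by_cases h2 : ‖wp p‖ ^ (p + 1) ≤ ‖y - 1‖
  · obtain ⟨k, hk⟩ := h.norm_eq hp2 (h1.trans_le (pow_le_one₀ hq.le hq1.le)) h2
    rw [hk, ← zpow_natCast, zpow_lt_zpow_iff_right_of_lt_one₀ hq hq1] at h1
    rw [hk, ← zpow_natCast]
    exact zpow_le_zpow_right_of_le_one₀ hq hq1.le (by push_cast; omega)
  · push Not at h2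
    rw [wp_pow_eq] at h2
    refine h2.le.trans (pow_le_pow_of_le_one hq.le hq1.le ?_)
    have : p * (p + 1) = p ^ 2 + p := by ring
    omega

theorem KG.drop (h : KG f y) {i : ℕ} (hi : p ∣ i) (hi0 : 0 < i)
    (h1 : ‖y - 1‖ ≤ ‖wq p‖ ^ i) : ∃ y', KG f y' ∧ ‖y' - 1‖ < ‖wq p‖ ^ i := by
  rcases h1.lt_or_eq with h2 | h2
  · exact ⟨y, h, h2⟩
  obtain ⟨k, hk⟩ := hi
  have hz0 : y - 1 ≠ 0 := by
    rw [← norm_ne_zero_iff, h2]
    exact (pow_pos norm_wq_pos _).ne'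
  have hz1 : ‖y - 1‖ < 1 := by
    rw [h2]
    exact pow_lt_one₀ (norm_nonneg _) norm_wq_lt_one hi0.ne'
  obtain ⟨b, hb0, hb, hb1, hb2⟩ := exists_leading hz0 ⟨k, by
    rw [h2, zpow_natCast, wp_pow_eq, hk]⟩
  have hb3 : ‖1 + b‖ = 1 := by
    have : ‖b‖ < ‖(1 : PadicAlgCl p)‖ := by rw [hb2, norm_one]; exact hz1
    rw [IsUltrametricDist.norm_add_eq_max_of_norm_ne_norm this.ne', max_eq_left this.le,
      norm_one]
  have hb4 : 1 + b ≠ 0 := norm_ne_zero_iff.mp (by rw [hb3]; exact one_ne_zero)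
  refine ⟨y / (1 + b), h.div_fixed hb4 fun g hg => by rw [map_add, map_one, hb g hg], ?_⟩
  have h3 : y / (1 + b) - 1 = (y - 1 - b) / (1 + b) := by
    field_simp
    ring
  rw [h3, norm_div, hb3, div_one, ← h2]
  exact hb1

theorem KG.eq_zero (h : KG f y) (h1 : ‖y - 1‖ < ‖wp p‖ ^ (p + 1)) : ∀ g ∈ GK p, f g = 0 := by
  intro g hg
  apply eq_zero_of_zpw
  have hn : ‖y‖ = 1 := by
    have h2 : ‖y - 1‖ < ‖(1 : PadicAlgCl p)‖ := by
      rw [norm_one]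
      exact h1.trans_le (pow_le_one₀ (norm_nonneg _) norm_wp_lt_one.le)
    have h3 : y = 1 + (y - 1) := by ring
    rw [h3, IsUltrametricDist.norm_add_eq_max_of_norm_ne_norm h2.ne', max_eq_left h2.le, norm_one]
  have h2 : (zpw (f g) - 1) * y = g (y - 1) - (y - 1) := by
    rw [map_sub, map_one, h.2 g hg]
    ring
  have h3 : ‖zpw (f g) - 1‖ = ‖g (y - 1) - (y - 1)‖ := by
    rw [← h2, norm_mul, hn, mul_one]
  rw [h3]
  refine (norm_sub_le_max _ _).trans_lt (max_lt ?_ h1)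
  rw [norm_gal]
  exact h1

/-- the last step -/
theorem KG.eq_zero' (h : KG f y) (h1 : ‖y - 1‖ ≤ ‖wq p‖ ^ (p ^ 2 + p)) :
    ∀ g ∈ GK p, f g = 0 := by
  obtain ⟨y', hy', h2⟩ := h.drop (i := p ^ 2 + p) ⟨p + 1, by ring⟩
    (by have := hp.out.pos; positivity) h1
  refine hy'.eq_zero ?_
  rw [wp_pow_eq, show p * (p + 1) = p ^ 2 + p by ring]
  exact h2

end Fermat.Agent.FB
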