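import Fermat.Agent.FB.Root

/-!
# Convolution algebras over complete rings
-/

set_option autoImplicit false
set_option linter.unusedSectionVars false

namespace Fermat.Agent.FB

open Coalgebra TensorProduct WithConv

variable {S : Type*} [CommRing S] {R : Type*} [CommRing R] [Algebra S R]

section conv

variable {C : Type*} [AddCommGroup C] [Module S C] [Coalgebra S C]

theorem algMap_mul_apply (r : R) (y : WithConv (C →ₗ[S] R)) (c : C) :
    (algebraMap R (WithConv (C →ₗ[S] R)) r * y) c = r * y c := by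
  rw [← Algebra.smul_def]
  rfl

theorem conv_sub_apply (x y : WithConv (C →ₗ[S] R)) (c : C) : (x - y) c = x c - y c := rfl

theorem conv_add_apply (x y : WithConv (C →ₗ[S] R)) (c : C) : (x + y) c = x c + y c := rfl

theorem algMap_pow_mul_apply (r : R) (n : ℕ) (y : WithConv (C →ₗ[S] R)) (c : C) :
    (algebraMap R (WithConv (C →ₗ[S] R)) r ^ n * y) c = r ^ n * y c := by
  rw [← map_pow, algMap_mul_apply]

theorem dvd_apply {r : R} {x : WithConv (C →ₗ[S] R)}
    (h : algebraMap R (WithConv (C →ₗ[S] R)) r ∣ x) (c : C) : r ∣ x c := by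
  obtain ⟨y, rfl⟩ := h
  exact ⟨y c, algMap_mul_apply r y c⟩

theorem dvd_of_basis {ι : Type*} (b : Module.Basis ι S C) {r : R} {x : WithConv (C →ₗ[S] R)}
    (h : ∀ i, r ∣ x (b i)) : algebraMap R (WithConv (C →ₗ[S] R)) r ∣ x := by
  choose y hy using h
  refine ⟨toConv (b.constr S y), ?_⟩
  apply WithConv.ext
  refine b.ext fun i => ?_
  change x (b i) = (algebraMap R (WithConv (C →ₗ[S] R)) r * toConv (b.constr S y)) (b i)
  rw [algMap_mul_apply, hy]
  congr 1
  exact (b.constr_basis S y i).symm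

variable [Module.Free S C]

theorem dvd_of_forall {r : R} {x : WithConv (C →ₗ[S] R)} (h : ∀ c, r ∣ x c) :
    algebraMap R (WithConv (C →ₗ[S] R)) r ∣ x :=
  dvd_of_basis (Module.Free.chooseBasis S C) fun i => h _

variable [IsCocomm S C]

theorem Cpl.conv {ϖ : R} (h : Cpl R ϖ) :
    Cpl (WithConv (C →ₗ[S] R)) (algebraMap R (WithConv (C →ₗ[S] R)) ϖ) where
  haus x hx := by
    apply WithConv.ext
    ext c
    apply h.haus
    intro n
    have := hx n
    rw [← map_pow] at this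
    exact dvd_apply this c
  lim f hf := by
    have b := Module.Free.chooseBasis S C
    have h1 : ∀ i, ∃ l : R, ∀ n, ϖ ^ n ∣ l - f n (b i) := by
      intro i
      refine h.lim (fun n => f n (b i)) fun n => ?_
      have := hf n
      rw [← map_pow] at this
      exact dvd_apply this (b i)
    choose l hl using h1
    refine ⟨toConv (b.constr S l), fun n => ?_⟩
    rw [← map_pow]
    refine dvd_of_basis b fun i => ?_
    rw [conv_sub_apply]
    have : (toConv (b.constr S l) : WithConv (C →ₗ[S] R)) (b i) = l i := b.constr_basis S l i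
    rw [this]
    exact hl i n

omit [Module.Free S C] [IsCocomm S C] in
theorem conv_reg {r : R} (h : ∀ x : R, r * x = 0 → x = 0) (x : WithConv (C →ₗ[S] R))
    (hx : algebraMap R (WithConv (C →ₗ[S] R)) r * x = 0) : x = 0 := by
  apply WithConv.ext
  ext c
  apply h
  rw [← algMap_mul_apply (S := S) (C := C)]
  exact congrArg (fun y : WithConv (C →ₗ[S] R) => y c) hx

end conv

section bialg

variable {H : Type*} [CommRing H] [Bialgebra S H]

/-- composition with the multiplication -/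
noncomputable def M2 (u : WithConv (H →ₗ[S] R)) : WithConv (H ⊗[S] H →ₗ[S] R) :=
  toConv (u.ofConv ∘ₗ LinearMap.mul' S H)

/-- the product of two copies -/
noncomputable def T2 (u : WithConv (H →ₗ[S] R)) : WithConv (H ⊗[S] H →ₗ[S] R) :=
  toConv (LinearMap.mul' S R ∘ₗ TensorProduct.map u.ofConv u.ofConv)

theorem M2_tmul (u : WithConv (H →ₗ[S] R)) (a b : H) : M2 u (a ⊗ₜ b) = u (a * b) := rfl

theorem T2_tmul (u : WithConv (H →ₗ[S] R)) (a b : H) : T2 u (a ⊗ₜ b) = u a * u b := rfl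

theorem M2_mul (u v : WithConv (H →ₗ[S] R)) : M2 (u * v) = M2 u * M2 v := by
  apply WithConv.ofConv_injective
  exact LinearMap.convMul_comp_coalgHom_distrib u v (Bialgebra.mulCoalgHom S H)

theorem T2_mul (u v : WithConv (H →ₗ[S] R)) : T2 (u * v) = T2 u * T2 v := by
  have h1 := TensorProduct.map_convMul_map (f := u) (h := v) (g := u) (k := v)
  have h2 := LinearMap.algHom_comp_convMul_distrib (Algebra.TensorProduct.lmul' S (S := R))
    (toConv (TensorProduct.map u.ofConv u.ofConv)) (toConv (TensorProduct.map v.ofConv v.ofConv))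
  rw [h1] at h2
  apply WithConv.ofConv_injective
  exact h2

theorem M2_one : M2 (1 : WithConv (H →ₗ[S] R)) = 1 := by
  apply WithConv.ext
  ext a b
  change (1 : WithConv (H →ₗ[S] R)) (a * b) = (1 : WithConv (H ⊗[S] H →ₗ[S] R)) (a ⊗ₜ b)
  rw [LinearMap.convOne_apply, LinearMap.convOne_apply]
  simp only [TensorProduct.counit_tmul, smul_eq_mul, map_mul, Bialgebra.counit_mul]
  exact mul_comm _ _

theorem T2_one : T2 (1 : WithConv (H →ₗ[S] R)) = 1 := by
  apply WithConv.ext
  ext a b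
  change (1 : WithConv (H →ₗ[S] R)) a * (1 : WithConv (H →ₗ[S] R)) b =
    (1 : WithConv (H ⊗[S] H →ₗ[S] R)) (a ⊗ₜ b)
  rw [LinearMap.convOne_apply, LinearMap.convOne_apply, LinearMap.convOne_apply]
  simp only [TensorProduct.counit_tmul, smul_eq_mul, map_mul]
  exact mul_comm _ _

theorem M2_pow (u : WithConv (H →ₗ[S] R)) (n : ℕ) : M2 (u ^ n) = M2 u ^ n := by
  induction n with
  | zero => rw [pow_zero, pow_zero, M2_one]
  | succ n ih => rw [pow_succ, pow_succ, M2_mul, ih]

theorem T2_pow (u : WithConv (H →ₗ[S] R)) (n : ℕ) : T2 (u ^ n) = T2 u ^ n := by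
  induction n with
  | zero => rw [pow_zero, pow_zero, T2_one]
  | succ n ih => rw [pow_succ, pow_succ, T2_mul, ih]

variable {ϖ l l' ν : R} {p : ℕ}

theorem reg_conv {C : Type*} [AddCommGroup C] [Module S C] [Coalgebra S C]
    (hreg : ∀ x : R, (p : R) * l * x = 0 → x = 0) (x : WithConv (C →ₗ[S] R))
    (hx : ((p : ℕ) : WithConv (C →ₗ[S] R)) * algebraMap R _ l * x = 0) : x = 0 := by
  refine conv_reg hreg x ?_
  rw [map_mul, map_natCast]
  exact hx

theorem pow_conv {C : Type*} [AddCommGroup C] [Module S C] [Coalgebra S C]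
    (hν : l ^ (p - 1) = p * (ϖ * ν)) :
    (algebraMap R (WithConv (C →ₗ[S] R)) l) ^ (p - 1) = ((p : ℕ) : WithConv (C →ₗ[S] R)) *
      (algebraMap R (WithConv (C →ₗ[S] R)) ϖ * algebraMap R (WithConv (C →ₗ[S] R)) ν) := by
  rw [← map_pow, hν, map_mul, map_mul, map_natCast]

variable [Module.Free S H] [IsCocomm S H]

/-- **Lifting of approximate points.** -/
theorem exists_lift [IsDomain R] (h : Cpl R ϖ) (hp : p.Prime) (hp2 : p ≠ 2)
    (hl : l = ϖ * l')
    (hν : l ^ (p - 1) = p * (ϖ * ν)) (hreg : ∀ x : R, (p : R) * l * x = 0 → x = 0)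
    (u : WithConv (H →ₗ[S] R)) (hu : ∀ a b, (p : R) * l ∣ u (a * b) - u a * u b)
    (hup : ∀ c, (p : R) * l ∣ (u ^ p) c - (1 : WithConv (H →ₗ[S] R)) c) :
    ∃ φ : H →ₐ[S] R, (toConv φ.toLinearMap : WithConv (H →ₗ[S] R)) ^ p = 1 ∧
      ∀ c, l ∣ φ c - u c := by
  have hB : Cpl (WithConv (H →ₗ[S] R)) (algebraMap R (WithConv (H →ₗ[S] R)) ϖ) := h.conv
  have hlA : algebraMap R (WithConv (H →ₗ[S] R)) l = algebraMap R (WithConv (H →ₗ[S] R)) ϖ *
    algebraMap R (WithConv (H →ₗ[S] R)) l' := by rw [hl, map_mul]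
  obtain ⟨c', hc'⟩ := dvd_of_forall (x := u ^ p - 1) (fun c => hup c)
  rw [map_mul, map_natCast] at hc'
  have hunit : IsUnit (u ^ p) := by
    have : u ^ p = 1 + algebraMap R (WithConv (H →ₗ[S] R)) ϖ *
        ((p : WithConv (H →ₗ[S] R)) * algebraMap R (WithConv (H →ₗ[S] R)) l' * c') := by
      rw [← sub_eq_iff_eq_add', hc', hlA]
      ring
    rw [this]
    exact hB.isUnit_one_add _
  obtain ⟨v, hv⟩ := hunit.exists_left_inv
  obtain ⟨x, hx⟩ := hB.exists_root hp hp2 hlA (pow_conv hν) (-(c' * v))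
  have hxv : (1 + algebraMap R (WithConv (H →ₗ[S] R)) l * x) ^ p = v := by
    rw [hx]
    linear_combination v * hc' - hv
  set w : WithConv (H →ₗ[S] R) := u * (1 + algebraMap R (WithConv (H →ₗ[S] R)) l * x) with hw
  have hwp : w ^ p = 1 := by rw [hw, mul_pow, hxv, mul_comm, hv]
  have hwu : ∀ c, l ∣ w c - u c := by
    intro c
    have h1 : w - u = algebraMap R (WithConv (H →ₗ[S] R)) l * (u * x) := by rw [hw]; ring
    rw [← conv_sub_apply, h1]
    exact dvd_apply (Dvd.intro _ rfl) c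
  have hmul : ∀ a b, l ∣ w (a * b) - w a * w b := by
    intro a b
    obtain ⟨k1, h1⟩ := hwu (a * b)
    obtain ⟨k2, h2⟩ := hwu a
    obtain ⟨k3, h3⟩ := hwu b
    obtain ⟨k4, h4⟩ := hu a b
    refine ⟨k1 + p * k4 - w a * k3 - k2 * u b, ?_⟩
    linear_combination h1 + h4 - w a * h3 - u b * h2
  have hBB : Cpl (WithConv (H ⊗[S] H →ₗ[S] R)) (algebraMap R (WithConv (H ⊗[S] H →ₗ[S] R)) ϖ) :=
    h.conv
  have hlAA : algebraMap R (WithConv (H ⊗[S] H →ₗ[S] R)) l =
    algebraMap R (WithConv (H ⊗[S] H →ₗ[S] R)) ϖ *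
    algebraMap R (WithConv (H ⊗[S] H →ₗ[S] R)) l' := by rw [hl, map_mul]
  obtain ⟨e, he⟩ := dvd_of_forall (x := M2 w - T2 w) (r := l) (fun t => by
    induction t with
    | zero => rw [map_zero]; exact dvd_zero _
    | tmul a b => exact hmul a b
    | add s t hs ht => rw [map_add]; exact dvd_add hs ht)
  have hT : T2 w ^ p = 1 := by rw [← T2_pow, hwp, T2_one]
  have hM : M2 w ^ p = 1 := by rw [← M2_pow, hwp, M2_one]
  have hT' : T2 w ^ (p - 1) * T2 w = 1 := by
    rw [← pow_succ, Nat.sub_add_cancel hp.one_le, hT]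
  have hd : M2 w * T2 w ^ (p - 1) = 1 + algebraMap R (WithConv (H ⊗[S] H →ₗ[S] R)) l *
      (e * T2 w ^ (p - 1)) := by
    linear_combination (T2 w ^ (p - 1)) * he + hT'
  have hdp : (1 + algebraMap R (WithConv (H ⊗[S] H →ₗ[S] R)) l *
      (e * T2 w ^ (p - 1))) ^ p = 1 := by
    rw [← hd, mul_pow, hM, ← pow_mul, mul_comm (p - 1) p, pow_mul, hT, one_pow, one_mul]
  have h0 := hBB.eq_one hp hp2 hlAA (pow_conv hν) (reg_conv hreg) hdp
  rw [h0, mul_zero, add_zero] at hd
  have hMT : M2 w = T2 w := by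
    linear_combination (T2 w) * hd - (M2 w) * hT'
  have hww : ∀ a b, w (a * b) = w a * w b := fun a b =>
    congrArg (fun y : WithConv (H ⊗[S] H →ₗ[S] R) => y (a ⊗ₜ b)) hMT
  have hw1 : w 1 = 1 := by
    have h1 : w 1 * w 1 = w 1 := by rw [← hww, mul_one]
    have h1' : w 1 * (w 1 - 1) = 0 := by rw [mul_sub, h1, mul_one, sub_self]
    rcases mul_eq_zero.mp h1' with h2 | h2
    · exfalso
      have h3 : w = 0 := by
        apply WithConv.ext
        ext a
        change w a = 0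
        rw [← mul_one a, hww, h2, mul_zero]
      rw [h3, zero_pow hp.ne_zero] at hwp
      have h4 := congrArg (fun y : WithConv (H →ₗ[S] R) => y 1) hwp
      change (0 : R) = (1 : WithConv (H →ₗ[S] R)) 1 at h4
      rw [LinearMap.convOne_apply, Bialgebra.counit_one, map_one] at h4
      exact zero_ne_one h4
    · exact sub_eq_zero.mp h2
  exact ⟨AlgHom.ofLinearMap w.ofConv hw1 hww, hwp, hwu⟩

/-- **Uniqueness.** -/
theorem algHom_eq (h : Cpl R ϖ) (hp : p.Prime) (hp2 : p ≠ 2) (hl : l = ϖ * l')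
    (hν : l ^ (p - 1) = p * (ϖ * ν)) (hreg : ∀ x : R, (p : R) * l * x = 0 → x = 0)
    (φ ψ : H →ₐ[S] R) (hφ : (toConv φ.toLinearMap : WithConv (H →ₗ[S] R)) ^ p = 1)
    (hψ : (toConv ψ.toLinearMap : WithConv (H →ₗ[S] R)) ^ p = 1)
    (hcongr : ∀ c, l ∣ φ c - ψ c) : φ = ψ := by
  set f : WithConv (H →ₗ[S] R) := toConv φ.toLinearMap with hf
  set g : WithConv (H →ₗ[S] R) := toConv ψ.toLinearMap with hg
  have hB : Cpl (WithConv (H →ₗ[S] R)) (algebraMap R (WithConv (H →ₗ[S] R)) ϖ) := h.conv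
  have hlA : algebraMap R (WithConv (H →ₗ[S] R)) l = algebraMap R (WithConv (H →ₗ[S] R)) ϖ *
    algebraMap R (WithConv (H →ₗ[S] R)) l' := by rw [hl, map_mul]
  obtain ⟨e, he⟩ := dvd_of_forall (x := f - g) (fun c => hcongr c)
  have hg' : g ^ (p - 1) * g = 1 := by
    rw [← pow_succ, Nat.sub_add_cancel hp.one_le, hψ]
  have hd : f * g ^ (p - 1) = 1 + algebraMap R (WithConv (H →ₗ[S] R)) l *
      (e * g ^ (p - 1)) := by
    linear_combination (g ^ (p - 1)) * he + hg'
  have hdp : (1 + algebraMap R (WithConv (H →ₗ[S] R)) l * (e * g ^ (p - 1))) ^ p = 1 := by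
    rw [← hd, mul_pow, hφ, ← pow_mul, mul_comm (p - 1) p, pow_mul, hψ, one_pow, one_mul]
  have h0 := hB.eq_one hp hp2 hlA (pow_conv hν) (reg_conv hreg) hdp
  rw [h0, mul_zero, add_zero] at hd
  have hfg : f = g := by
    linear_combination g * hd - f * hg'
  apply AlgHom.toLinearMap_injective
  exact congrArg WithConv.ofConv hfg

end bialg

end Fermat.Agent.FB
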