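import Fermat.Agent.FB.Deform

/-!
# Products over cosets
-/

set_option autoImplicit false
set_option linter.unusedSectionVars false

namespace Fermat.Agent.FB

open Polynomial

section coset

variable {G : Type*} [Group G] [Fintype G]

open Classical in
/-- products over unions of cosets -/
theorem prod_cosets (K : Subgroup G) (X : Finset G) (hX : ∀ s ∈ X, ∀ h ∈ K, s * h ∈ X)
    (f : G → ℝ) (hf : ∀ s, 0 ≤ f s) {B : ℝ} (hB : ∀ s ∈ X, ∏ h : K, f (s * h) ≤ B) {n : ℕ}
    (hn : n * Nat.card K = X.card) : ∏ s ∈ X, f s ≤ B ^ n := by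
  set mk : G → G ⧸ K := fun s => (s : G ⧸ K) with hmk
  have hfib : ∀ q ∈ X.image mk, ∃ s₀ ∈ X, X.filter (fun s => mk s = q) =
      Finset.univ.map ⟨fun h : K => s₀ * h, fun a b hab => Subtype.ext (mul_left_cancel hab)⟩ := by
    intro q hq
    obtain ⟨s₀, hs₀, rfl⟩ := Finset.mem_image.mp hq
    refine ⟨s₀, hs₀, ?_⟩
    ext s
    rw [Finset.mem_filter, Finset.mem_map]
    constructor
    · rintro ⟨_, h2⟩
      have h3 : s₀⁻¹ * s ∈ K := QuotientGroup.eq.mp h2.symm
      exact ⟨⟨_, h3⟩, Finset.mem_univ _, mul_inv_cancel_left s₀ s⟩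
    · rintro ⟨h, _, rfl⟩
      refine ⟨hX _ hs₀ _ h.2, ?_⟩
      change ((s₀ * h : G) : G ⧸ K) = (s₀ : G ⧸ K)
      rw [QuotientGroup.eq]
      simp
  have h1 : ∏ s ∈ X, f s = ∏ q ∈ X.image mk, ∏ s ∈ X with mk s = q, f s :=
    (Finset.prod_fiberwise_of_maps_to (fun s hs => Finset.mem_image_of_mem _ hs) f).symm
  have h2 : X.card = (X.image mk).card * Nat.card K := by
    rw [Finset.card_eq_sum_card_fiberwise (f := mk) (t := X.image mk)
      (fun s hs => Finset.mem_image_of_mem _ hs)]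
    rw [Finset.sum_congr rfl (g := fun _ => Nat.card K), Finset.sum_const, smul_eq_mul]
    intro q hq
    obtain ⟨s₀, hs₀, he⟩ := hfib q hq
    rw [he, Finset.card_map, Finset.card_univ, Nat.card_eq_fintype_card]
  have h3 : n = (X.image mk).card := by
    rw [h2] at hn
    exact Nat.eq_of_mul_eq_mul_right Nat.card_pos hn
  rw [h1, h3]
  refine (Finset.prod_le_prod (fun q _ => Finset.prod_nonneg fun s _ => hf s)
    (g := fun _ => B) ?_).trans (le_of_eq (by rw [Finset.prod_const]))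
  intro q hq
  obtain ⟨s₀, hs₀, he⟩ := hfib q hq
  rw [he, Finset.prod_map]
  exact hB s₀ hs₀

end coset

section action

variable {L : Type*} [NormedField L] [IsUltrametricDist L]

theorem norm_sub_le_max (x y : L) : ‖x - y‖ ≤ max ‖x‖ ‖y‖ := by
  rw [sub_eq_add_neg]
  have := IsUltrametricDist.norm_add_le_max x (-y)
  rwa [norm_neg] at this

theorem norm_coeff_mul {p q : L[X]} (hp : ∀ i, ‖p.coeff i‖ ≤ 1) (hq : ∀ i, ‖q.coeff i‖ ≤ 1)
    (i : ℕ) : ‖(p * q).coeff i‖ ≤ 1 := by
  rw [coeff_mul]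
  refine IsUltrametricDist.norm_sum_le_of_forall_le_of_nonneg zero_le_one fun x _ => ?_
  rw [norm_mul]
  exact mul_le_one₀ (hp _) (norm_nonneg _) (hq _)

variable {G : Type*} [Group G] [Fintype G] [MulSemiringAction G L]
  (hiso : ∀ (g : G) (x : L), ‖g • x‖ = ‖x‖)

include hiso

open Classical in
theorem prod_coset_le (K : Subgroup G) (σ : G) {α : L} (hα : ‖α‖ ≤ 1) {B : ℝ}
    (hB : ∀ b : L, (∀ h ∈ K, h • b = b) → ‖b‖ ≤ 1 → ‖σ • b - b‖ ≤ B) :
    ∏ h : K, ‖(σ * h) • α - α‖ ≤ B := by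
  have hB0 : 0 ≤ B := by
    have := hB 0 (fun h _ => smul_zero h) (by rw [norm_zero]; exact zero_le_one)
    rwa [smul_zero, sub_zero, norm_zero] at this
  set g : L[X] := ∏ h : K, (X - C ((h : G) • α)) with hg
  have hcoeff : ∀ i, ‖g.coeff i‖ ≤ 1 := by
    rw [hg]
    refine Finset.prod_induction (fun h : K => (X - C ((h : G) • α) : L[X]))
      (fun p => ∀ i, ‖p.coeff i‖ ≤ 1)
      (fun p q hp hq => norm_coeff_mul hp hq) ?_ ?_
    · intro i
      rw [coeff_one]
      split_ifs
      · rw [norm_one]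
      · rw [norm_zero]
        exact zero_le_one
    · intro h _ i
      rw [coeff_sub]
      refine (norm_sub_le_max _ _).trans (max_le ?_ ?_)
      · rw [coeff_X]
        split_ifs
        · rw [norm_one]
        · rw [norm_zero]
          exact zero_le_one
      · rw [coeff_C]
        split_ifs
        · rw [hiso]
          exact hα
        · rw [norm_zero]
          exact zero_le_one
  have hfix : ∀ k ∈ K, ∀ i, k • g.coeff i = g.coeff i := by
    intro k hk i
    have h1 : g.map (MulSemiringAction.toRingHom G L k) = g := by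
      rw [hg, Polynomial.map_prod]
      refine Fintype.prod_equiv (Equiv.mulLeft (⟨k, hk⟩ : K)) _ _ fun h => ?_
      rw [Polynomial.map_sub, map_X, map_C]
      congr 2
      change k • ((h : G) • α) = ((k * h : G)) • α
      rw [mul_smul]
    have h2 := congrArg (fun q => coeff q i) h1
    simp only [coeff_map] at h2
    exact h2
  have hzero : g.eval α = 0 := by
    rw [hg, eval_prod]
    refine Finset.prod_eq_zero (Finset.mem_univ (1 : K)) ?_
    rw [eval_sub, eval_X, eval_C, OneMemClass.coe_one, one_smul, sub_self]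
  have hprod : (g.map (MulSemiringAction.toRingHom G L σ)).eval α =
      ∏ h : K, (α - (σ * h) • α) := by
    rw [hg, Polynomial.map_prod, eval_prod]
    refine Finset.prod_congr rfl fun h _ => ?_
    rw [Polynomial.map_sub, map_X, map_C, eval_sub, eval_X, eval_C]
    change α - σ • ((h : G) • α) = _
    rw [mul_smul]
  have h1 : ∏ h : K, ‖(σ * h) • α - α‖ = ‖(g.map (MulSemiringAction.toRingHom G L σ) - g).eval α‖ := by
    rw [eval_sub, hzero, sub_zero, hprod, norm_prod]
    exact Finset.prod_congr rfl fun h _ => norm_sub_rev _ _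
  rw [h1, eval_eq_sum_range]
  refine IsUltrametricDist.norm_sum_le_of_forall_le_of_nonneg hB0 fun i _ => ?_
  rw [norm_mul, norm_pow, coeff_sub, coeff_map]
  have h2 := hB (g.coeff i) (fun k hk => hfix k hk i) (hcoeff i)
  exact (mul_le_of_le_one_right (norm_nonneg _) (pow_le_one₀ (norm_nonneg _) hα)).trans h2

/-- **The product estimate.** -/
theorem exists_prod_le (C D : Subgroup G) (hDC : D ≤ C) {s₁ : G} (hs₁ : s₁ ∈ C) (hs₁' : s₁ ∉ D)
    {α : L} (hα : ‖α‖ ≤ 1) {A B : ℝ}
    (hA : ∀ σ ∉ C, ∀ b : L, (∀ h ∈ C, h • b = b) → ‖b‖ ≤ 1 → ‖σ • b - b‖ ≤ A)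
    (hB : ∀ σ ∈ C, σ ∉ D → ∀ b : L, (∀ h ∈ D, h • b = b) → ‖b‖ ≤ 1 → ‖σ • b - b‖ ≤ B) :
    ∃ σ : G, σ ≠ 1 ∧ ∏ s : G, max ‖s • α - α‖ ‖σ • α - α‖ ≤
      A ^ (C.index - 1) * B ^ (D.relIndex C) := by
  classical
  set f : G → ℝ := fun s => ‖s • α - α‖ with hf
  have hf0 : ∀ s, 0 ≤ f s := fun s => norm_nonneg _
  have hfmul : ∀ s t, f (s * t) ≤ max (f s) (f t) := by
    intro s t
    have h1 : (s * t) • α - α = s • (t • α - α) + (s • α - α) := by
      rw [smul_sub, mul_smul]
      ring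
    rw [hf]
    simp only
    rw [h1, max_comm]
    refine (IsUltrametricDist.norm_add_le_max _ _).trans (max_le_max ?_ le_rfl)
    rw [hiso]
  have hfinv : ∀ s, f s⁻¹ = f s := by
    intro s
    have h1 : s⁻¹ • α - α = -(s⁻¹ • (s • α - α)) := by
      rw [smul_sub, inv_smul_smul]
      ring
    rw [hf]
    simp only
    rw [h1, norm_neg, hiso]
  have hs₁1 : s₁ ≠ 1 := fun h => hs₁' (h ▸ D.one_mem)
  -- the minimum
  obtain ⟨σ, hσ, hmin⟩ := Finset.exists_min_image (Finset.univ.filter (fun s : G => s ≠ 1)) f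
    ⟨s₁, by simp [hs₁1]⟩
  rw [Finset.mem_filter] at hσ
  refine ⟨σ, hσ.2, ?_⟩
  have hmin' : ∀ s, s ≠ 1 → f σ ≤ f s := fun s hs => hmin s (by simp [hs])
  -- minimum on `C ∖ D`
  set Y : Finset G := Finset.univ.filter (fun s : G => s ∈ C ∧ s ∉ D) with hY
  obtain ⟨s₀, hs₀, hmin₀⟩ := Finset.exists_min_image Y f ⟨s₁, by simp [hY, hs₁, hs₁']⟩
  rw [hY, Finset.mem_filter] at hs₀
  have hBD : ∀ σ ∈ C, σ ∉ D → ∏ h : D, f (σ * h) ≤ B := fun σ h1 h2 =>
    prod_coset_le hiso D σ hα (hB σ h1 h2)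
  have hA0 : 0 ≤ A ∨ C = ⊤ := by
    by_cases hC : ∃ s, s ∉ C
    · obtain ⟨s, hs⟩ := hC
      left
      have := hA s hs 0 (fun h _ => smul_zero h) (by rw [norm_zero]; exact zero_le_one)
      rwa [smul_zero, sub_zero, norm_zero] at this
    · right
      push Not at hC
      exact (Subgroup.eq_top_iff' C).mpr hC
  have hB0 : 0 ≤ B := (Finset.prod_nonneg fun h _ => hf0 _).trans (hBD s₀ hs₀.2.1 hs₀.2.2)
  -- decomposition
  set F : G → ℝ := fun s => max (f s) (f σ) with hF
  have hF0 : ∀ s, 0 ≤ F s := fun s => (hf0 s).trans (le_max_left _ _)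
  have hFf : ∀ s, s ≠ 1 → F s = f s := fun s hs => max_eq_left (hmin' s hs)
  have hsplit : ∏ s : G, F s = (∏ s ∈ Finset.univ.filter (fun s : G => s ∉ C), f s) *
      ((∏ s ∈ Y, f s) * ∏ s ∈ Finset.univ.filter (fun s : G => s ∈ D), F s) := by
    rw [← Finset.prod_filter_mul_prod_filter_not Finset.univ (fun s : G => s ∉ C) F]
    congr 1
    · refine Finset.prod_congr rfl fun s hs => hFf s ?_
      rw [Finset.mem_filter] at hs
      exact fun h => hs.2 (h ▸ C.one_mem)
    · rw [← Finset.prod_filter_mul_prod_filter_not _ (fun s : G => s ∉ D) F, Finset.filter_filter,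
        Finset.filter_filter]
      congr 1
      · have h1 : Finset.univ.filter (fun s : G => ¬ s ∉ C ∧ s ∉ D) = Y := by
          rw [hY]
          refine Finset.filter_congr fun s _ => ?_
          rw [not_not]
        rw [h1]
        refine Finset.prod_congr rfl fun s hs => hFf s ?_
        rw [hY, Finset.mem_filter] at hs
        exact fun h => hs.2.2 (h ▸ D.one_mem)
      · refine Finset.prod_congr (Finset.filter_congr fun s _ => ?_) fun _ _ => rfl
        rw [not_not, not_not]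
        exact ⟨fun h => h.2, fun h => ⟨hDC h, h⟩⟩
  rw [show (∏ s : G, max ‖s • α - α‖ ‖σ • α - α‖) = ∏ s : G, F s from rfl, hsplit]
  have hcardC : Nat.card C * C.index = Nat.card G := Subgroup.card_mul_index C
  have hcardD : Nat.card D * D.relIndex C = Nat.card C := by
    rw [mul_comm]
    have := Subgroup.card_mul_index (D.subgroupOf C)
    rw [Subgroup.relIndex, ← this, mul_comm]
    congr 1
    exact (Nat.card_congr (Subgroup.subgroupOfEquivOfLe hDC).toEquiv).symm
  have hcC : (Finset.univ.filter (fun s : G => s ∈ C)).card = Nat.card C := by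
    rw [Nat.card_eq_fintype_card, Fintype.card_subtype]
  have hcD : (Finset.univ.filter (fun s : G => s ∈ D)).card = Nat.card D := by
    rw [Nat.card_eq_fintype_card, Fintype.card_subtype]
  have h1 : ∏ s ∈ Finset.univ.filter (fun s : G => s ∉ C), f s ≤ A ^ (C.index - 1) := by
    refine prod_cosets C _ ?_ f hf0 ?_ ?_
    · intro s hs h hh
      rw [Finset.mem_filter] at hs ⊢
      exact ⟨Finset.mem_univ _, fun h' => hs.2 ((C.mul_mem_cancel_right hh).mp h')⟩
    · intro s hs
      rw [Finset.mem_filter] at hs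
      exact prod_coset_le hiso C s hα (hA s hs.2)
    · rw [Nat.sub_mul, one_mul, mul_comm, hcardC, ← hcC, Nat.card_eq_fintype_card,
        ← Finset.card_univ, ← Finset.card_filter_add_card_filter_not (s := Finset.univ)
          (fun s : G => s ∈ C), Nat.add_sub_cancel_left]
  have h2 : ∏ s ∈ Y, f s ≤ B ^ (D.relIndex C - 1) := by
    refine prod_cosets D _ ?_ f hf0 ?_ ?_
    · intro s hs h hh
      rw [hY, Finset.mem_filter] at hs ⊢
      exact ⟨Finset.mem_univ _, C.mul_mem hs.2.1 (hDC hh), fun h' =>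
        hs.2.2 ((D.mul_mem_cancel_right hh).mp h')⟩
    · intro s hs
      rw [hY, Finset.mem_filter] at hs
      exact hBD s hs.2.1 hs.2.2
    · rw [Nat.sub_mul, one_mul, mul_comm, hcardD, ← hcC, ← hcD,
        ← Finset.card_filter_add_card_filter_not (s := Finset.univ.filter (fun s : G => s ∈ C))
          (fun s : G => s ∈ D), Finset.filter_filter, Finset.filter_filter]
      have h3 : Finset.univ.filter (fun s : G => s ∈ C ∧ s ∈ D) =
          Finset.univ.filter (fun s : G => s ∈ D) :=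
        Finset.filter_congr fun s _ => ⟨fun h => h.2, fun h => ⟨hDC h, h⟩⟩
      rw [h3, Nat.add_sub_cancel_left]
  have h3 : ∏ s ∈ Finset.univ.filter (fun s : G => s ∈ D), F s ≤ B := by
    refine le_trans ?_ (hBD s₀ hs₀.2.1 hs₀.2.2)
    have h4 : ∏ s ∈ Finset.univ.filter (fun s : G => s ∈ D), F s = ∏ h : D, F h := by
      rw [← Finset.prod_subtype (Finset.univ.filter (fun s : G => s ∈ D)) (fun s => by simp) F]
    rw [h4]
    refine Finset.prod_le_prod (fun h _ => hF0 _) fun h _ => ?_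
    have h5 : s₀ * h ∈ C := C.mul_mem hs₀.2.1 (hDC h.2)
    have h6 : s₀ * h ∉ D := fun h' => hs₀.2.2 ((D.mul_mem_cancel_right h.2).mp h')
    have h7 : f s₀ ≤ f (s₀ * h) := hmin₀ _ (by
      rw [hY, Finset.mem_filter]
      exact ⟨Finset.mem_univ _, h5, h6⟩)
    refine max_le ?_ (hmin' _ fun h8 => h6 (h8 ▸ D.one_mem))
    have h8 := hfmul s₀⁻¹ (s₀ * h)
    rw [inv_mul_cancel_left, hfinv, max_eq_right h7] at h8
    exact h8
  have hrel : D.relIndex C ≠ 0 := by
    intro h0
    rw [h0, mul_zero] at hcardD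
    exact Nat.card_pos.ne hcardD
  have h4 : (∏ s ∈ Y, f s) * ∏ s ∈ Finset.univ.filter (fun s : G => s ∈ D), F s ≤
      B ^ (D.relIndex C) := by
    calc _ ≤ B ^ (D.relIndex C - 1) * B := mul_le_mul h2 h3 (Finset.prod_nonneg fun s _ => hF0 s)
          (pow_nonneg hB0 _)
      _ = B ^ (D.relIndex C) := by rw [← pow_succ, Nat.sub_add_cancel (Nat.pos_of_ne_zero hrel)]
  refine mul_le_mul h1 h4 (mul_nonneg (Finset.prod_nonneg fun s _ => hf0 s)
    (Finset.prod_nonneg fun s _ => hF0 s)) ?_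
  rcases hA0 with h | h
  · exact pow_nonneg h _
  · rw [h, Subgroup.index_top]
    simp

end action

end Fermat.Agent.FB
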