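import Fermat.Agent.FB.Conv

/-!
# Points over rings of power series: Fontaine's bound, abstract form
-/

set_option autoImplicit false
set_option linter.unusedSectionVars false

namespace Fermat.Agent.FB

open Coalgebra TensorProduct WithConv Polynomial

section pow

variable {O : Type*} [CommRing O]

theorem Cpl.powerSeries {ϖ : O} (h : Cpl O ϖ) : Cpl (PowerSeries O) (PowerSeries.C ϖ) where
  haus x hx := by
    ext m
    apply h.haus
    intro n
    obtain ⟨y, hy⟩ := hx n
    refine ⟨PowerSeries.coeff m y, ?_⟩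
    rw [hy, ← map_pow, PowerSeries.coeff_C_mul]
  lim f hf := by
    have h1 : ∀ m, ∃ l : O, ∀ n, ϖ ^ n ∣ l - PowerSeries.coeff m (f n) := by
      intro m
      refine h.lim (fun n => PowerSeries.coeff m (f n)) fun n => ?_
      obtain ⟨y, hy⟩ := hf n
      refine ⟨PowerSeries.coeff m y, ?_⟩
      rw [← map_sub, hy, ← map_pow, PowerSeries.coeff_C_mul]
    choose l hl using h1
    choose y hy using hl
    refine ⟨PowerSeries.mk l, fun n => ⟨PowerSeries.mk fun m => y m n, ?_⟩⟩
    ext m
    rw [map_sub, PowerSeries.coeff_mk, hy, ← map_pow, PowerSeries.coeff_C_mul,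
      PowerSeries.coeff_mk]

theorem C_dvd_coeff {r : O} {x : PowerSeries O} (h : PowerSeries.C r ∣ x) (m : ℕ) :
    r ∣ PowerSeries.coeff m x := by
  obtain ⟨y, rfl⟩ := h
  rw [PowerSeries.coeff_C_mul]
  exact dvd_mul_right _ _

/-- algebraic power series without constant term vanish -/
theorem eq_zero_of_algebraic [IsDomain O] {f : PowerSeries O} (hf : PowerSeries.constantCoeff f = 0)
    (n : ℕ) (q : O[X]) (hq : q ≠ 0) (hn : q.natDegree ≤ n)
    (h : q.eval₂ (PowerSeries.C (R := O)) f = 0) : f = 0 := by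
  induction n generalizing q with
  | zero =>
    exfalso
    rw [eq_C_of_natDegree_le_zero hn, eval₂_C] at h
    apply hq
    have h1 := congrArg PowerSeries.constantCoeff h
    rw [PowerSeries.constantCoeff_C, map_zero] at h1
    rw [eq_C_of_natDegree_le_zero hn, h1, C_0]
  | succ n ih =>
    have h0 : q.coeff 0 = 0 := by
      have h1 := congrArg PowerSeries.constantCoeff h
      rw [← divX_mul_X_add q, eval₂_add, eval₂_mul, eval₂_X, eval₂_C, map_add, map_mul, hf,
        mul_zero, zero_add, PowerSeries.constantCoeff_C, map_zero] at h1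
      exact h1
    have h2 : q = q.divX * X := by
      conv_lhs => rw [← divX_mul_X_add q, h0, C_0, add_zero]
    have h3 : q.divX ≠ 0 := fun h => hq (by rw [h2, h, zero_mul])
    rw [h2, eval₂_mul, eval₂_X] at h
    rcases mul_eq_zero.mp h with h4 | h4
    · refine ih q.divX h3 ?_ h4
      rw [natDegree_divX_eq_natDegree_tsub_one]
      omega
    · exact h4

end pow

section push

variable {S : Type*} [CommRing S] {R R' : Type*} [CommRing R] [Algebra S R] [CommRing R']
  [Algebra S R'] {C : Type*} [AddCommGroup C] [Module S C] [Coalgebra S C]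

theorem push_one (π : R →ₐ[S] R') :
    (toConv (π.toLinearMap ∘ₗ (1 : WithConv (C →ₗ[S] R)).ofConv) : WithConv (C →ₗ[S] R')) = 1 := by
  apply WithConv.ext
  ext c
  change π ((1 : WithConv (C →ₗ[S] R)) c) = (1 : WithConv (C →ₗ[S] R')) c
  rw [LinearMap.convOne_apply, LinearMap.convOne_apply, AlgHom.commutes]

theorem push_pow (π : R →ₐ[S] R') (u : WithConv (C →ₗ[S] R)) (n : ℕ) :
    (toConv (π.toLinearMap ∘ₗ (u ^ n).ofConv) : WithConv (C →ₗ[S] R')) =
      (toConv (π.toLinearMap ∘ₗ u.ofConv)) ^ n := by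
  induction n with
  | zero => rw [pow_zero, pow_zero, push_one]
  | succ n ih =>
    rw [pow_succ, pow_succ, ← ih]
    exact congrArg toConv (LinearMap.algHom_comp_convMul_distrib π (u ^ n) u)

theorem push_pow_eq_one (π : R →ₐ[S] R') {u : WithConv (C →ₗ[S] R)} {n : ℕ} (h : u ^ n = 1) :
    (toConv (π.toLinearMap ∘ₗ u.ofConv) : WithConv (C →ₗ[S] R')) ^ n = 1 := by
  rw [← push_pow, h, push_one]

end push

section main

variable {S : Type*} [CommRing S] {O : Type*} [CommRing O] [IsDomain O] [Algebra S O]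
  (A₀ : Subring O) {ι : Type*} [Fintype ι] (s : ι → (O →+* O)) (α : O)

/-- polynomials vanishing at `α` are divisible by the product over the conjugates -/
theorem prod_dvd (hs : ∀ i, ∀ a ∈ A₀, s i a = a) (hinj : Function.Injective fun i => s i α)
    (g : A₀[X]) (hg : (g.map A₀.subtype).eval α = 0) :
    ∏ i, (X - C (s i α)) ∣ g.map A₀.subtype := by
  classical
  by_cases h0 : g.map A₀.subtype = 0
  · rw [h0]; exact dvd_zero _
  have h1 : (Finset.univ.val.map fun i => s i α) ≤ (g.map A₀.subtype).roots := by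
    rw [Multiset.le_iff_subset ((Multiset.nodup_map_iff_of_injective hinj).mpr
      Finset.univ.nodup)]
    intro x hx
    obtain ⟨i, -, rfl⟩ := Multiset.mem_map.mp hx
    rw [mem_roots h0, IsRoot.def]
    have h2 := congrArg (s i) hg
    rw [map_zero, ← eval₂_id, hom_eval₂, eval₂_map] at h2
    rw [eval_map]
    rw [← h2]
    congr 1
    ext a
    exact (hs i a a.2).symm
  have h2 := (Multiset.prod_X_sub_C_dvd_iff_le_roots h0 _).mpr h1
  rw [Multiset.map_map] at h2
  exact h2

/-- the deformed evaluation -/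
noncomputable def evB (ξ : O) : A₀[X] →+* PowerSeries O :=
  (Polynomial.coeToPowerSeries.ringHom (R := O)).comp
    ((Polynomial.compRingHom (C α + C ξ * X)).comp (Polynomial.mapRingHom A₀.subtype))

theorem evB_apply (ξ : O) (g : A₀[X]) :
    evB A₀ α ξ g = (((g.map A₀.subtype).comp (C α + C ξ * X) : O[X]) : PowerSeries O) := rfl

theorem evB_dvd (hs : ∀ i, ∀ a ∈ A₀, s i a = a) (hinj : Function.Injective fun i => s i α)
    {ξ : O} {c d e : ι → O} (hd : ∀ i, α - s i α = c i * d i) (he : ∀ i, ξ = c i * e i)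
    (g : A₀[X]) (hg : (g.map A₀.subtype).eval α = 0) :
    PowerSeries.C (∏ i, c i) ∣ evB A₀ α ξ g := by
  obtain ⟨q, hq⟩ := prod_dvd A₀ s α hs hinj g hg
  rw [evB_apply, hq, mul_comp, Polynomial.prod_comp, Polynomial.coe_mul]
  apply Dvd.dvd.mul_right
  have h1 : ∀ i, (X - C (s i α)).comp (C α + C ξ * X) = C (c i) * (C (d i) + C (e i) * X) := by
    intro i
    rw [sub_comp, X_comp, C_comp, mul_add, ← C_mul, ← hd, C_sub, ← mul_assoc, ← C_mul, ← he]
    ring
  rw [Finset.prod_congr rfl fun i _ => h1 i, Finset.prod_mul_distrib, Polynomial.coe_mul,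
    ← map_prod, Polynomial.coe_C]
  exact dvd_mul_right _ _

variable {H : Type*} [CommRing H] [Bialgebra S H] [Module.Free S H] [IsCocomm S H]
  [Module.Finite S H]

/-- a homomorphism into power series is constant -/
theorem algHom_const (φ : H →ₐ[S] PowerSeries O) (c : H) : φ c = PowerSeries.C (PowerSeries.constantCoeff (φ c)) := by
  have h1 : IsIntegral S c := Algebra.IsIntegral.isIntegral c
  obtain ⟨q, hq, hqc⟩ := h1
  set r := PowerSeries.constantCoeff (φ c) with hr
  rw [← sub_eq_zero]
  have hq' : ((q.map (algebraMap S O)).comp (X + C r)).eval₂ (PowerSeries.C (R := O))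
      (φ c - PowerSeries.C r) = 0 := by
    rw [eval₂_comp, eval₂_add, eval₂_X, eval₂_C, sub_add_cancel, eval₂_map]
    have h2 := congrArg (φ : H →+* PowerSeries O) hqc
    rw [map_zero, hom_eval₂] at h2
    rw [← h2]
    congr 1
    ext1 x
    change PowerSeries.C (algebraMap S O x) = φ (algebraMap S H x)
    rw [AlgHom.commutes, PowerSeries.algebraMap_apply]
  refine eq_zero_of_algebraic (n := ((q.map (algebraMap S O)).comp (X + C r)).natDegree)
    ?_ _ ?_ le_rfl hq'
  · rw [map_sub, PowerSeries.constantCoeff_C, hr, sub_self]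
  · exact ((hq.map (algebraMap S O)).comp (monic_X_add_C r) (by
      rw [natDegree_X_add_C]; exact one_ne_zero)).ne_zero

/-- **Fontaine's bound, abstract form.** -/
theorem fontaine {ϖ l l' ν : O} {p : ℕ} (hO : Cpl O ϖ) (hp : p.Prime) (hp2 : p ≠ 2)
    (hp0 : (p : O) ≠ 0) (hl0 : l ≠ 0)
    (hl : l = ϖ * l') (hν : l ^ (p - 1) = p * (ϖ * ν))
    (hSA : ∀ x : S, algebraMap S O x ∈ A₀)
    (hgen : ∀ y : O, ∃ g : A₀[X], (g.map A₀.subtype).eval α = y)
    (hs : ∀ i, ∀ a ∈ A₀, s i a = a) (hinj : Function.Injective fun i => s i α)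
    (σ : O →+* O) (hσ : ∀ a ∈ A₀, σ a = a) {ξ : O} (hξ : σ α = α + ξ)
    {c d e : ι → O} (hd : ∀ i, α - s i α = c i * d i) (he : ∀ i, ξ = c i * e i)
    (hc : ∏ i, c i = p * l)
    (P : H →ₐ[S] O) (hP : (toConv P.toLinearMap : WithConv (H →ₗ[S] O)) ^ p = 1) (h : H) :
    σ (P h) = P h := by
  have hregO : ∀ x : O, (p : O) * l * x = 0 → x = 0 := fun x hx =>
    (mul_eq_zero.mp hx).resolve_left (mul_ne_zero hp0 hl0)
  -- the evaluation
  let evA : A₀[X] →+* O := (Polynomial.evalRingHom α).comp (Polynomial.mapRingHom A₀.subtype)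
  have hevA : ∀ g, evA g = (g.map A₀.subtype).eval α := fun g => rfl
  have hsurj : Function.Surjective evA := hgen
  set I : Ideal (PowerSeries O) := Ideal.span {PowerSeries.C (p * l)} with hI
  let mk := Ideal.Quotient.mkₐ S I
  have hmk : ∀ x y, mk x = mk y ↔ PowerSeries.C (p * l) ∣ x - y := fun x y => by
    rw [← Ideal.mem_span_singleton]
    exact Ideal.Quotient.eq
  have hker : RingHom.ker evA ≤ RingHom.ker ((mk : PowerSeries O →+* (PowerSeries O ⧸ I)).comp (evB A₀ α ξ)) := by
    intro g hg
    rw [RingHom.mem_ker] at hg ⊢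
    have h1 := evB_dvd A₀ s α hs hinj hd he g hg
    rw [hc] at h1
    change mk (evB A₀ α ξ g) = 0
    rw [← map_zero mk, hmk, sub_zero]
    exact h1
  let η₀ : O →+* (PowerSeries O ⧸ I) := RingHom.liftOfSurjective evA hsurj ⟨_, hker⟩
  have hη₀ : ∀ g, η₀ (evA g) = mk (evB A₀ α ξ g) := fun g =>
    RingHom.liftOfRightInverse_comp_apply evA _ (Function.rightInverse_surjInv hsurj) ⟨_, hker⟩ g
  let η : O →ₐ[S] (PowerSeries O ⧸ I) :=
    { η₀ with
      commutes' := fun x => by
        have h1 : evA (C (⟨algebraMap S O x, hSA x⟩ : A₀)) = algebraMap S O x := by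
          rw [hevA, map_C, eval_C]
          rfl
        change η₀ (algebraMap S O x) = _
        rw [← h1, hη₀, evB_apply, map_C, C_comp, Polynomial.coe_C, ← mk.commutes,
          PowerSeries.algebraMap_apply]
        rfl }
  have hη : ∀ g, η (evA g) = mk (evB A₀ α ξ g) := hη₀
  -- the approximate point
  obtain ⟨u, hu⟩ := Module.projective_lifting_property mk.toLinearMap (η.comp P).toLinearMap
    (Ideal.Quotient.mkₐ_surjective S I)
  have hu' : ∀ x, mk (u x) = η (P x) := fun x => congrArg (fun f : H →ₗ[S] _ => f x) hu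
  have hRp : Cpl (PowerSeries O) (PowerSeries.C ϖ) := hO.powerSeries
  have hregR : ∀ x : PowerSeries O, (p : PowerSeries O) * PowerSeries.C l * x = 0 → x = 0 := by
    intro x hx
    refine (mul_eq_zero.mp hx).resolve_left (mul_ne_zero ?_ ?_)
    · rw [← map_natCast (PowerSeries.C (R := O)), Ne, ← map_zero (PowerSeries.C (R := O)),
        PowerSeries.C_injective.eq_iff]
      exact hp0
    · rw [Ne, ← map_zero (PowerSeries.C (R := O)), PowerSeries.C_injective.eq_iff]
      exact hl0
  have hCpl : PowerSeries.C (p * l) = (p : PowerSeries O) * PowerSeries.C l := by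
    rw [map_mul, map_natCast]
  obtain ⟨φ, hφp, hφ⟩ := exists_lift hRp hp hp2 (l := PowerSeries.C l) (l' := PowerSeries.C l')
    (ν := PowerSeries.C ν) (by rw [hl, map_mul])
    (by rw [← map_pow, hν, map_mul, map_mul, map_natCast]) hregR (toConv u) (fun a b => by
      rw [← hCpl, ← hmk]
      change mk (u (a * b)) = mk (u a * u b)
      rw [map_mul mk, hu', hu', hu', map_mul, map_mul]) (fun x => by
      rw [← hCpl, ← hmk]
      have h1 := push_pow mk (toConv u) p
      have h2 := push_one (C := H) mk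
      have h3 : (toConv (mk.toLinearMap ∘ₗ (toConv u).ofConv) :
          WithConv (H →ₗ[S] (PowerSeries O ⧸ I))) = toConv (η.toLinearMap ∘ₗ P.toLinearMap) := by
        rw [show (toConv u).ofConv = u from rfl, hu]
        rfl
      have h4 := push_pow_eq_one η hP
      rw [h3, show (toConv (η.toLinearMap ∘ₗ P.toLinearMap) :
        WithConv (H →ₗ[S] (PowerSeries O ⧸ I))) ^ p = 1 from h4, ← h2] at h1
      exact congrArg (fun f : WithConv (H →ₗ[S] (PowerSeries O ⧸ I)) => f x) h1)
  -- it is constant
  let cc : PowerSeries O →ₐ[S] O :=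
    { PowerSeries.constantCoeff (R := O) with
      commutes' := fun x => by
        change PowerSeries.constantCoeff (algebraMap S (PowerSeries O) x) = _
        rfl }
  have hcc : ∀ x, cc x = PowerSeries.constantCoeff x := fun _ => rfl
  have hφ0 : cc.comp φ = P := by
    refine algHom_eq hO hp hp2 hl hν hregO (cc.comp φ) P (push_pow_eq_one cc hφp) hP fun x => ?_
    obtain ⟨g, hg⟩ := hgen (P x)
    have h1 := C_dvd_coeff (hφ x) 0
    have h2 : mk (u x) = mk (evB A₀ α ξ g) := by
      rw [hu', ← hη, hevA, hg]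
    rw [hmk, hCpl] at h2
    have h3 := C_dvd_coeff ((Dvd.intro_left _ rfl).trans h2) 0
    rw [map_sub, PowerSeries.coeff_zero_eq_constantCoeff_apply,
      PowerSeries.coeff_zero_eq_constantCoeff_apply] at h1 h3
    have h4 : PowerSeries.constantCoeff (evB A₀ α ξ g) = P x := by
      rw [evB_apply, ← PowerSeries.coeff_zero_eq_constantCoeff_apply, Polynomial.coeff_coe,
        coeff_zero_eq_eval_zero, eval_comp]
      simp [hg]
    rw [h4] at h3
    have h5 := dvd_add h1 h3
    rw [show PowerSeries.constantCoeff (φ x) - PowerSeries.constantCoeff ((toConv u).ofConv x) +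
      (PowerSeries.constantCoeff (u x) - P x) = PowerSeries.constantCoeff (φ x) - P x by
        change _ - PowerSeries.constantCoeff (u x) + _ = _
        ring] at h5
    exact h5
  have hφC : ∀ x, φ x = PowerSeries.C (P x) := by
    intro x
    rw [algHom_const φ x, ← hcc]
    exact congrArg PowerSeries.C (congrArg (fun f : H →ₐ[S] O => f x) hφ0)
  -- conclusion
  let σS : O →ₐ[S] O := { σ with commutes' := fun x => hσ _ (hSA x) }
  have hfin : σS.comp P = P := by
    refine algHom_eq hO hp hp2 hl hν hregO (σS.comp P) P (push_pow_eq_one σS hP) hP fun x => ?_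
    obtain ⟨g, hg⟩ := hgen (P x)
    have h2 : mk (u x) = mk (evB A₀ α ξ g) := by
      rw [hu', ← hη, hevA, hg]
    rw [hmk, hCpl] at h2
    have h3 := (Dvd.intro_left _ rfl).trans h2
    have h4 := dvd_add (hφ x) h3
    rw [show φ x - (toConv u).ofConv x + (u x - evB A₀ α ξ g) = φ x - evB A₀ α ξ g by
      change φ x - u x + _ = _
      ring, hφC, evB_apply] at h4
    set Q : O[X] := C (P x) - (g.map A₀.subtype).comp (C α + C ξ * X) with hQ
    have h5 : PowerSeries.C (P x) - (((g.map A₀.subtype).comp (C α + C ξ * X) : O[X]) :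
        PowerSeries O) = (Q : PowerSeries O) := by
      rw [hQ, Polynomial.coe_sub, Polynomial.coe_C]
    rw [h5] at h4
    have h6 : l ∣ Q.eval 1 := by
      rw [eval_eq_sum_range]
      refine Finset.dvd_sum fun i _ => ?_
      rw [one_pow, mul_one]
      have := C_dvd_coeff h4 i
      rwa [Polynomial.coeff_coe] at this
    rw [hQ, eval_sub, eval_C, eval_comp, eval_add, eval_mul, eval_C, eval_C, eval_X, mul_one,
      ← hξ] at h6
    have h7 : (g.map A₀.subtype).eval (σ α) = σ (P x) := by
      rw [← hg, ← eval₂_id (p := g.map A₀.subtype) (x := α), hom_eval₂, eval₂_map, eval_map]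
      congr 1
      ext a
      exact (hσ a a.2).symm
    rw [h7] at h6
    change l ∣ σ (P x) - P x
    rw [← dvd_neg, neg_sub]
    exact h6
  exact congrArg (fun f : H →ₐ[S] O => f h) hfin

end main

end Fermat.Agent.FB
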