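import Fermat.Agent.FB.Dim

/-!
# Dimension count for flat cocycles, II: cocycles
-/

set_option autoImplicit false
set_option linter.unusedSectionVars false

namespace Fermat.Agent.FB

open Fermat.Agent.Coh Fermat.Agent.GalD Fermat.Agent.LocalCFT Module IntermediateField

variable {p : ℕ} [hp : Fact p.Prime]

section coc

variable {E : Type*} [Field E]

/-- cocycles of flat type -/
structure Cc (ρ : Gp p →* Matrix (Fin 2) (Fin 2) E) (c : Gp p → Matrix (Fin 2) (Fin 2) E) :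
    Prop where
  coc : ∀ g h, c (g * h) = c g + ρ g * c h * ρ g⁻¹
  tr : ∀ g, c g 1 1 = - c g 0 0
  cont : ∃ U : Subgroup (Gp p), IsOpen (U : Set (Gp p)) ∧ ∀ u ∈ U, c u = 0
  good : ∀ (a b : Fin 2) (Λ : E →+ ZMod p), ∃ y, KG (fun g => Λ (c g a b)) y ∧
    ‖y - 1‖ ≤ ‖wq p‖ ^ (p ^ 2 - 1)

variable {ρ : Gp p →* Matrix (Fin 2) (Fin 2) E} {c c' : Gp p → Matrix (Fin 2) (Fin 2) E}

theorem Cc.zero : Cc ρ (0 : Gp p → Matrix (Fin 2) (Fin 2) E) where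
  coc g h := by simp
  tr g := by simp
  cont := ⟨⊤, isOpen_univ, fun _ _ => rfl⟩
  good a b Λ := ⟨1, KG.one.congr fun g _ => by simp, by
    rw [sub_self, norm_zero]
    positivity⟩

theorem Cc.add (h : Cc ρ c) (h' : Cc ρ c') : Cc ρ (c + c') where
  coc g k := by
    rw [Pi.add_apply, Pi.add_apply, Pi.add_apply, h.coc, h'.coc, mul_add, add_mul]
    abel
  tr g := by
    rw [Pi.add_apply, Matrix.add_apply, Matrix.add_apply, h.tr, h'.tr, neg_add]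
  cont := by
    obtain ⟨U, hU, hU'⟩ := h.cont
    obtain ⟨V, hV, hV'⟩ := h'.cont
    exact ⟨U ⊓ V, hU.inter hV, fun u hu => by
      rw [Pi.add_apply, hU' u hu.1, hV' u hu.2, add_zero]⟩
  good a b Λ := by
    obtain ⟨y, hy, hy1⟩ := h.good a b Λ
    obtain ⟨y', hy', hy'1⟩ := h'.good a b Λ
    exact ⟨y * y', (hy.mul hy').congr fun g _ => by
      rw [Pi.add_apply, Matrix.add_apply, map_add],
      norm_mul_sub_le (norm_eq_one_of ee_pos hy1).le hy1 hy'1⟩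

theorem Cc.smul (h : Cc ρ c) (x : E) : Cc ρ (x • c) where
  coc g k := by
    rw [Pi.smul_apply, Pi.smul_apply, Pi.smul_apply, h.coc, smul_add, mul_smul_comm,
      smul_mul_assoc]
  tr g := by
    rw [Pi.smul_apply, Matrix.smul_apply, Matrix.smul_apply, h.tr, smul_neg]
  cont := by
    obtain ⟨U, hU, hU'⟩ := h.cont
    exact ⟨U, hU, fun u hu => by rw [Pi.smul_apply, hU' u hu, smul_zero]⟩
  good a b Λ := h.good a b (Λ.comp (AddMonoidHom.mulLeft x))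

theorem rho_inv_mul (g : Gp p) : ρ g⁻¹ * ρ g = 1 := by rw [← map_mul, inv_mul_cancel, map_one]

theorem rho_mul_inv (g : Gp p) : ρ g * ρ g⁻¹ = 1 := by rw [← map_mul, mul_inv_cancel, map_one]

theorem Cc.one (h : Cc ρ c) : c 1 = 0 := by
  have h1 := h.coc 1 1
  rw [mul_one, inv_one, map_one, one_mul, mul_one] at h1
  exact left_eq_add.mp h1

theorem Cc.inv (h : Cc ρ c) (g : Gp p) : c g⁻¹ + ρ g⁻¹ * c g * ρ g = 0 := by
  have h1 := h.coc g⁻¹ g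
  rw [inv_mul_cancel, h.one, inv_inv] at h1
  exact h1.symm

theorem Cc.conj (h : Cc ρ c) {u : Gp p} (hu : ρ u = 1) (g : Gp p) :
    c (g⁻¹ * u * g) = ρ g⁻¹ * c u * ρ g := by
  have hu' : ρ u⁻¹ = 1 := by
    have := rho_mul_inv (ρ := ρ) u
    rwa [hu, one_mul] at this
  rw [mul_assoc, h.coc, h.coc, hu, hu', one_mul, mul_one, inv_inv, mul_add, add_mul,
    add_left_comm, h.inv, add_zero]

end coc

section main

variable {E : Type*} [Field E] [Finite E] (ι : E →+* KK p)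
  (ρ : Gp p →* Matrix (Fin 2) (Fin 2) E) (th : Gp p → E)
  (hth : ∀ τ ∈ II p, ι (th τ) = tc (wp p) τ)
  (hρ : ∀ τ ∈ II p, ρ τ = !![th τ, 0; 0, th τ ^ p])

variable {c : Gp p → Matrix (Fin 2) (Fin 2) E}

include hth hρ in
theorem rho_GK {u : Gp p} (hu : u ∈ GK p) : ρ u = 1 := by
  have h1 : th u = 1 := by
    apply ι.injective
    rw [hth u hu.1, map_one]
    exact th_eq_one_iff.mpr hu.2
  rw [hρ u hu.1, h1, one_pow]
  ext i j
  fin_cases i <;> fin_cases j <;> simp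

include hth in
theorem th_ne_zero {τ : Gp p} (hτ : τ ∈ II p) : th τ ≠ 0 := by
  intro h
  have h1 := hth τ hτ
  rw [h, map_zero] at h1
  exact tc_ne_zero wp_ne_zero τ h1.symm

include hth in
theorem th_mul {τ τ' : Gp p} (hτ : τ ∈ II p) (hτ' : τ' ∈ II p) : th (τ * τ') = th τ * th τ' := by
  apply ι.injective
  rw [hth _ ((II p).mul_mem hτ hτ'), tc_mul wp_ne_zero hτ, map_mul, hth τ hτ, hth τ' hτ']

include hth in
theorem th_inv {τ : Gp p} (hτ : τ ∈ II p) : th τ⁻¹ = (th τ)⁻¹ := by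
  apply eq_inv_of_mul_eq_one_left
  apply ι.injective
  rw [← th_mul ι th hth ((II p).inv_mem hτ) hτ, inv_mul_cancel, map_one,
    hth 1 (II p).one_mem, tc_one wp_ne_zero]

include hth in
theorem cast_cyc {τ : Gp p} (hτ : τ ∈ II p) {m : ℕ} (hm : τ (zp p) = zp p ^ m) :
    (m : E) = th τ ^ (p + 1) := by
  apply ι.injective
  rw [map_natCast, map_pow, hth τ hτ, th_pow_cyc zp_prim hτ hm]

include hth hρ in
theorem conj_entry {τ : Gp p} (hτ : τ ∈ II p) (X : Matrix (Fin 2) (Fin 2) E) :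
    (ρ τ⁻¹ * X * ρ τ) 0 0 = X 0 0 ∧ (ρ τ⁻¹ * X * ρ τ) 1 0 = (th τ)⁻¹ ^ p * X 1 0 * th τ := by
  have h0 := th_ne_zero ι th hth hτ
  rw [hρ τ hτ, hρ τ⁻¹ ((II p).inv_mem hτ), th_inv ι th hth hτ]
  have h1 : X 0 0 = !![X 0 0, X 0 1; X 1 0, X 1 1] 0 0 := rfl
  have h2 : X 1 0 = !![X 0 0, X 0 1; X 1 0, X 1 1] 1 0 := rfl
  rw [Matrix.eta_fin_two X, Matrix.mul_fin_two, Matrix.mul_fin_two]
  constructor
  · change ((th τ)⁻¹ * X 0 0 + 0 * X 1 0) * th τ + ((th τ)⁻¹ * X 0 1 + 0 * X 1 1) * 0 = X 0 0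
    field_simp
    ring
  · change (0 * X 0 0 + (th τ)⁻¹ ^ p * X 1 0) * th τ + (0 * X 0 1 + (th τ)⁻¹ ^ p * X 1 1) * 0 =
      (th τ)⁻¹ ^ p * X 1 0 * th τ
    ring

include hth hρ in
theorem c_zero_zero (hp2 : p ≠ 2) {Λ₀ : E →+ ZMod p} (hΛ₀ : ∀ e : E, (∀ x, Λ₀ (x * e) = 0) → e = 0)
    {τ : Gp p} (hτ : τ ∈ II p)
    (hprim : IsPrimitiveRoot (tc (wp p) τ) (p ^ 2 - 1)) (hc : Cc ρ c) {u : Gp p}
    (hu : u ∈ GK p) : c u 0 0 = 0 := by
  apply hΛ₀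
  intro x
  obtain ⟨y, hy, hy1⟩ := hc.good 0 0 (Λ₀.comp (AddMonoidHom.mulLeft x))
  exact hy.inv_zero hp2 hτ hprim (fun u hu => by
    rw [hc.conj (rho_GK ι ρ th hth hρ hu), (conj_entry ι ρ th hth hρ hτ _).1]) hy1 u hu

/-- the family of characters attached to the lower left entry -/
def FF21 (Λ₀ : E →+ ZMod p) (c : Gp p → Matrix (Fin 2) (Fin 2) E) (x : E) (g : Gp p) : ZMod p :=
  Λ₀ (x * c g 1 0)

theorem FF21_add (Λ₀ : E →+ ZMod p) (c : Gp p → Matrix (Fin 2) (Fin 2) E) (x x' : E) (g : Gp p) :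
    FF21 Λ₀ c (x + x') g = FF21 Λ₀ c x g + FF21 Λ₀ c x' g := by
  rw [FF21, add_mul, map_add]
  rfl

include hth hρ in
theorem FF21_conj (Λ₀ : E →+ ZMod p) (hc : Cc ρ c) {τ : Gp p} (hτ : τ ∈ II p)
    (m : ℕ) (hm : τ (zp p) = zp p ^ m) (x : E) (u : Gp p) (hu : u ∈ GK p) :
    FF21 Λ₀ c (th τ ^ 2 * x) u = m * FF21 Λ₀ c x (τ⁻¹ * u * τ) := by
  have h0 := th_ne_zero ι th hth hτ
  rw [FF21, FF21, hc.conj (rho_GK ι ρ th hth hρ hu), (conj_entry ι ρ th hth hρ hτ _).2,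
    ← nsmul_eq_mul, ← map_nsmul, nsmul_eq_mul, cast_cyc ι th hth hτ hm]
  congr 1
  have h1 : th τ ^ (p + 1) * (th τ)⁻¹ ^ p = th τ := by
    rw [inv_pow, pow_succ]
    field_simp
  linear_combination -(x * c u 1 0 * th τ) * h1

include hth hρ in
/-- the leading coefficients of the lower left entry -/
theorem exists_U21 (hp2 : p ≠ 2) (Λ₀ : E →+ ZMod p)
    (hΛ₀ : ∀ e : E, (∀ x, Λ₀ (x * e) = 0) → e = 0)
    {τ : Gp p} (hτ : τ ∈ II p) (hprim : IsPrimitiveRoot (tc (wp p) τ) (p ^ 2 - 1))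
    {φ : Gp p} (hφ : φ (wp p) = wp p) (hφ' : ∀ y : KK p, gbar φ y = y ^ p)
    (hφρ : ∃ r : E, ρ (φ * φ) = r • (1 : Matrix (Fin 2) (Fin 2) E)) (hc : Cc ρ c) :
    ∃ U : E →+ KK p,
      (∀ x y, KG (FF21 Λ₀ c x) y → ‖y - 1‖ ≤ ‖wq p‖ ^ (p ^ 2 + 1) → U x = lc y (p ^ 2 + 1)) ∧
      (∀ x, ∃ y, KG (FF21 Λ₀ c x) y ∧ ‖y - 1‖ ≤ ‖wq p‖ ^ (p ^ 2 + 1)) ∧
      (∀ x, U (th τ ^ 2 * x) = (ι (th τ) ^ 2) ^ p * U x) ∧ (∀ x, U x ^ (p ^ 2) = U x) ∧
      ((∀ x, U x = 0) → ∀ u ∈ GK p, c u 1 0 = 0) := by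
  have hp3 : 3 ≤ p := by
    have := hp.out.two_le
    omega
  have h1 : 1 ≤ p ^ 2 := Nat.one_le_pow 2 p hp.out.pos
  have hF := FF21_add Λ₀ c
  have hFτ := fun m hm x u hu => FF21_conj ι ρ th hth hρ Λ₀ hc hτ m hm x u hu
  have hlev0 : ∀ x, ∃ y, KG (FF21 Λ₀ c x) y ∧ ‖y - 1‖ ≤ ‖wq p‖ ^ (p ^ 2 - 1) := fun x =>
    hc.good 1 0 (Λ₀.comp (AddMonoidHom.mulLeft x))
  have hlev1 : ∀ x, ∃ y, KG (FF21 Λ₀ c x) y ∧ ‖y - 1‖ ≤ ‖wq p‖ ^ (p ^ 2) := by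
    have := step_fam hp2 ι hF hτ hprim (hth τ hτ) hFτ (i := p ^ 2 - 1) le_rfl
      (show p ^ 2 - 1 < p ^ 2 + p by omega) hlev0 (fun h => absurd h (by omega))
    rwa [Nat.sub_add_cancel h1] at this
  have hlev2 : ∀ x, ∃ y, KG (FF21 Λ₀ c x) y ∧ ‖y - 1‖ ≤ ‖wq p‖ ^ (p ^ 2 + 1) :=
    step_fam hp2 ι hF hτ hprim (hth τ hτ) hFτ (i := p ^ 2) (by omega)
      (show p ^ 2 < p ^ 2 + p by omega) hlev1 (fun h => absurd h (by omega))
  have hpi : ¬ p ∣ p ^ 2 + 1 := by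
    intro h
    have h3 : p ∣ 1 := (Nat.dvd_add_right (dvd_pow_self p two_ne_zero)).mp h
    exact hp.out.one_lt.ne' (Nat.dvd_one.mp h3)
  obtain ⟨U, hU⟩ := exists_U hF hpi (Nat.succ_pos _) hlev2
  refine ⟨U, hU, hlev2, ?_, ?_, ?_⟩
  · intro x
    obtain ⟨y, hy, hy1⟩ := hlev2 x
    obtain ⟨m, hm⟩ := exists_cyc (zp_prim (p := p)) τ
    rw [hU x y hy hy1, hU (th τ ^ 2 * x) (τ y) (hy.gal hm fun u hu => hFτ m hm x u hu)
      (by rw [norm_gal_sub_one]; exact hy1), lc_gal hy1, hτ, tc_wq, ← pow_mul, mul_comm,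
      hth τ hτ, ← pow_mul]
    congr 1
    rw [pow_eq_pow_mod (p * (p ^ 2 + 1)) hprim.pow_eq_one, num4,
      ← pow_eq_pow_mod (2 * p) hprim.pow_eq_one]
  · intro x
    obtain ⟨y, hy, hy1⟩ := hlev2 x
    obtain ⟨r, hr⟩ := hφρ
    have hz : (φ * φ) (zp p) = zp p ^ 1 := by
      have h2 := frob_root hp2 (zp_prim (p := p)) hφ hφ'
      rw [AlgEquiv.mul_apply, h2, h2, pow_one]
    have hr1 : ρ (φ * φ)⁻¹ * r • (1 : Matrix (Fin 2) (Fin 2) E) = 1 := by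
      rw [← hr]
      exact rho_inv_mul _
    have hy' : KG (FF21 Λ₀ c x) ((φ * φ) y) := hy.gal hz fun u hu => by
      rw [Nat.cast_one, one_mul, FF21, FF21, hc.conj (rho_GK ι ρ th hth hρ hu), hr]
      congr 2
      have h3 : ρ (φ * φ)⁻¹ * c u * r • (1 : Matrix (Fin 2) (Fin 2) E) = c u := by
        rw [mul_smul_comm, mul_one, ← smul_mul_assoc]
        have h4 : r • ρ (φ * φ)⁻¹ = 1 := by
          rw [mul_smul_comm, mul_one] at hr1
          exact hr1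
        rw [h4, one_mul]
      rw [h3]
    have h3 : tc (wq p) (φ * φ) = 1 := by
      rw [tc_wq, th_eq_one_iff.mpr (by rw [AlgEquiv.mul_apply, hφ, hφ]), one_pow]
    have h4 := hU x _ hy' (by rw [norm_gal_sub_one]; exact hy1)
    rw [lc_gal hy1, h3, one_pow, mul_one, gbar_mul, hφ', hφ', ← pow_mul, ← pow_two,
      ← hU x y hy hy1] at h4
    exact h4.symm
  · intro hU0
    have key : ∀ r, r ≤ p - 1 → ∀ x, ∃ y, KG (FF21 Λ₀ c x) y ∧
        ‖y - 1‖ ≤ ‖wq p‖ ^ (p ^ 2 + 1 + r) := by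
      intro r
      induction r with
      | zero => intro _; exact hlev2
      | succ r ih =>
        intro hr
        exact step_fam hp2 ι hF hτ hprim (hth τ hτ) hFτ (i := p ^ 2 + 1 + r) (by omega)
          (show p ^ 2 + 1 + r < p ^ 2 + p by omega) (ih (by omega)) (fun h x y hy hy1 => by
            have hr0 : r = 0 := by omega
            subst hr0
            rw [add_zero] at hy1 ⊢
            rw [← hU x y hy hy1, hU0])
    intro u hu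
    apply hΛ₀
    intro x
    obtain ⟨y, hy, hy1⟩ := key (p - 1) le_rfl x
    refine hy.eq_zero' ?_ u hu
    have : p ^ 2 + 1 + (p - 1) = p ^ 2 + p := by omega
    rwa [this] at hy1

end main

end Fermat.Agent.FB
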