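import Fermat.Agent.FB.Dim2

/-!
# Dimension count for flat cocycles, III: four evaluations
-/

set_option autoImplicit false
set_option linter.unusedSectionVars false

namespace Fermat.Agent.FB

open Fermat.Agent.Coh Fermat.Agent.GalD Fermat.Agent.LocalCFT Module IntermediateField

variable {p : ℕ} [hp : Fact p.Prime]

theorem gbar_pow {φ : Gp p} (hφ' : ∀ y : KK p, gbar φ y = y ^ p) (n : ℕ) (y : KK p) :
    gbar (φ ^ n) y = y ^ (p ^ n) := by
  induction n with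
  | zero => rw [pow_zero, pow_zero, pow_one]; exact (II p).one_mem y
  | succ n ih => rw [pow_succ', gbar_mul, ih, hφ', ← pow_mul, pow_succ]

section main

variable {E : Type*} [Field E] [Finite E] (ι : E →+* KK p)
  (ρ : Gp p →* Matrix (Fin 2) (Fin 2) E) (th : Gp p → E)
  (hth : ∀ τ ∈ II p, ι (th τ) = tc (wp p) τ)
  (hρ : ∀ τ ∈ II p, ρ τ = !![th τ, 0; 0, th τ ^ p])

include hth in
theorem th_ne_pow (hp2 : p ≠ 2) {τ : Gp p} (hτ : τ ∈ II p)
    (hprim : IsPrimitiveRoot (tc (wp p) τ) (p ^ 2 - 1)) (k : ℕ) (hk0 : 0 < k) (hk : k ≤ 2) :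
    th τ ^ k ≠ (th τ ^ k) ^ p := by
  have hp3 : 3 ≤ p := by
    have := hp.out.two_le
    omega
  have hpp : p ^ 2 = p * p := pow_two p
  have hlt : 3 * p ≤ p * p := Nat.mul_le_mul_right p hp3
  intro h
  have h1 := congrArg ι h
  rw [map_pow, map_pow, map_pow, hth τ hτ, ← pow_mul] at h1
  have h2 := pow_modEq hprim ee_pos h1
  have h3 : k * p ≤ 2 * p := Nat.mul_le_mul_right p hk
  rw [Nat.mod_eq_of_lt (by omega), Nat.mod_eq_of_lt (by omega)] at h2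
  have h4 : k * 1 < k * p := Nat.mul_lt_mul_of_pos_left (by omega) hk0
  omega

variable {c c' : Gp p → Matrix (Fin 2) (Fin 2) E}

/-- the elements fixed by the square of Frobenius -/
noncomputable def F2 (ι : E →+* KK p) : Subfield E where
  carrier := {x | ι x ∈ FF' p 2}
  mul_mem' := fun {a b} ha hb => by
    change ι (a * b) ∈ FF' p 2
    rw [map_mul]
    exact mul_mem ha hb
  one_mem' := by
    change ι 1 ∈ FF' p 2
    rw [map_one]
    exact one_mem _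
  add_mem' := fun {a b} ha hb => by
    change ι (a + b) ∈ FF' p 2
    rw [map_add]
    exact add_mem ha hb
  zero_mem' := by
    change ι 0 ∈ FF' p 2
    rw [map_zero]
    exact zero_mem _
  neg_mem' := fun {a} ha => by
    change ι (-a) ∈ FF' p 2
    rw [map_neg]
    exact neg_mem ha
  inv_mem' := fun a ha => by
    change ι a⁻¹ ∈ FF' p 2
    rw [map_inv₀]
    exact inv_mem ha

theorem mem_F2 {x : E} : x ∈ F2 ι ↔ x ^ (p ^ 2) = x := by
  change ι x ∈ FF' p 2 ↔ _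
  rw [mem_FF', ← map_pow, ι.injective.eq_iff]

include hth in
theorem exists_F2 {τ : Gp p} (hτ : τ ∈ II p)
    (hprim : IsPrimitiveRoot (tc (wp p) τ) (p ^ 2 - 1)) {w : KK p} (hw : w ^ (p ^ 2) = w) :
    ∃ x : F2 ι, ι x = w := by
  by_cases h0 : w = 0
  · exact ⟨0, by rw [h0]; exact map_zero ι⟩
  have h1 : w ^ (p ^ 2 - 1) = 1 := by
    apply mul_right_cancel₀ h0
    rw [← pow_succ, Nat.sub_add_cancel (Nat.one_le_pow 2 p hp.out.pos), hw, one_mul]
  have : NeZero (p ^ 2 - 1) := ⟨(ee_pos (p := p)).ne'⟩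
  obtain ⟨k, _, hk⟩ := hprim.eq_pow_of_pow_eq_one h1
  have h2 : ι (th τ ^ k) = w := by rw [map_pow, hth τ hτ, hk]
  refine ⟨⟨th τ ^ k, ?_⟩, h2⟩
  change ι _ ∈ FF' p 2
  rw [h2]
  exact mem_FF'.mpr hw

include hth in
/-- the linear functional attached to leading coefficients -/
theorem exists_v (hp2 : p ≠ 2) {τ : Gp p} (hτ : τ ∈ II p)
    (hprim : IsPrimitiveRoot (tc (wp p) τ) (p ^ 2 - 1)) {U : E →+ KK p}
    (h1 : ∀ x, U (th τ ^ 2 * x) = (ι (th τ) ^ 2) ^ p * U x) (h2 : ∀ x, U x ^ (p ^ 2) = U x) :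
    ∃ v : E →ₗ[F2 ι] F2 ι, ∀ x, ι (v x) = U x ^ p := by
  have hchar : CharP E p := charP_of ι
  have h3 : ∀ x, ∃ w : F2 ι, ι w = U x ^ p := fun x =>
    exists_F2 ι th hth hτ hprim (by rw [← pow_mul, mul_comm, pow_mul, h2])
  choose v hv using h3
  have hinj : ∀ a b : F2 ι, ι (a : E) = ι (b : E) → a = b := fun a b h => Subtype.ext (ι.injective h)
  -- the scalars
  obtain ⟨β, hβdef⟩ : ∃ β, β = th τ ^ 2 := ⟨_, rfl⟩
  have hβ : β ^ (p ^ 2) = β := by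
    apply ι.injective
    rw [hβdef, map_pow, map_pow, hth τ hτ, ← pow_mul, mul_comm, pow_mul, mem_FF'.mp (th_mem τ)]
  have hβ' : ι β ^ (p ^ 2) = ι β := by rw [← map_pow, hβ]
  have hβne : β - β ^ p ≠ 0 := by
    rw [sub_ne_zero, hβdef]
    exact th_ne_pow ι th hth hp2 hτ hprim 2 two_pos le_rfl
  have hUβ : ∀ x, U (β * x) ^ p = ι β * U x ^ p := by
    intro x
    have h4 : ι (th τ) ^ 2 = ι β := by rw [hβdef, map_pow]
    rw [hβdef, h1, h4, mul_pow, ← pow_mul, ← pow_two, hβ', ← hβdef]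
  have hUn : ∀ (n : ℕ) x, U (n * x) ^ p = n * U x ^ p := by
    intro n x
    rw [← nsmul_eq_mul, map_nsmul, nsmul_eq_mul, mul_pow]
    congr 1
    rw [← frobenius_def, map_natCast]
  have hlin : ∀ f ∈ F2 ι, ∀ x, U (f * x) ^ p = ι f * U x ^ p := by
    intro f hf x
    rw [mem_F2] at hf
    have hsub : ∀ a b : E, (a - b) ^ p = a ^ p - b ^ p := fun a b => sub_pow_char a b
    have e1 : (f - f ^ p) ^ p = f ^ p - f := by
      rw [hsub, ← pow_mul, ← pow_two, hf]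
    have e2 : (β - β ^ p) ^ p = β ^ p - β := by
      rw [hsub, ← pow_mul, ← pow_two, hβ]
    obtain ⟨t, ht⟩ := exists_natCast_of_pow (p := p) (z := (f - f ^ p) / (β - β ^ p)) (by
      rw [div_pow, e1, e2, ← neg_sub f, ← neg_sub β, neg_div_neg_eq])
    have ht' : (t : E) ^ p = t := by rw [← frobenius_def, map_natCast]
    have e3 : (t : E) * (β - β ^ p) = f - f ^ p := by rw [ht, div_mul_cancel₀ _ hβne]
    obtain ⟨s, hs⟩ := exists_natCast_of_pow (p := p) (z := f - t * β) (by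
      rw [hsub, mul_pow, ht']
      linear_combination e3)
    have hf' : f = s + t * β := by rw [hs]; ring
    rw [hf', add_mul, map_add, add_pow_char, mul_assoc, hUn, hUn, hUβ, map_add, map_mul,
      map_natCast, map_natCast]
    ring
  refine ⟨{ toFun := v, map_add' := fun x y => ?_, map_smul' := fun f x => ?_ }, hv⟩
  · apply hinj
    rw [Subfield.coe_add, map_add, hv, hv, hv, map_add, add_pow_char]
  · apply hinj
    rw [hv]
    change U ((f : E) * x) ^ p = ι ((f : E) * (v x : E))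
    rw [hlin f f.2, map_mul, hv]

include hth hρ in
/-- the lower left entries span at most a line -/
theorem dim_one (hp2 : p ≠ 2) (Λ₀ : E →+ ZMod p)
    (hΛ₀ : ∀ e : E, (∀ x, Λ₀ (x * e) = 0) → e = 0)
    {τ : Gp p} (hτ : τ ∈ II p) (hprim : IsPrimitiveRoot (tc (wp p) τ) (p ^ 2 - 1))
    {φ : Gp p} (hφ : φ (wp p) = wp p) (hφ' : ∀ y : KK p, gbar φ y = y ^ p)
    (hφρ : ∃ r : E, ρ (φ * φ) = r • (1 : Matrix (Fin 2) (Fin 2) E)) (hc : Cc ρ c) (hc' : Cc ρ c')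
    {h₀ h₁ : Gp p} (hh₀ : h₀ ∈ GK p) (hh₁ : h₁ ∈ GK p) (e1 : c h₀ 1 0 ≠ 0) (e2 : c' h₀ 1 0 = 0)
    (e3 : c' h₁ 1 0 ≠ 0) : False := by
  obtain ⟨U₁, hU₁, hg₁, ha₁, hb₁, _⟩ := exists_U21 ι ρ th hth hρ hp2 Λ₀ hΛ₀ hτ hprim hφ hφ' hφρ hc
  obtain ⟨U₂, hU₂, hg₂, ha₂, hb₂, _⟩ := exists_U21 ι ρ th hth hρ hp2 Λ₀ hΛ₀ hτ hprim hφ hφ' hφρ hc'
  obtain ⟨v₁, hv₁⟩ := exists_v ι th hth hp2 hτ hprim ha₁ hb₁
  obtain ⟨v₂, hv₂⟩ := exists_v ι th hth hp2 hτ hprim ha₂ hb₂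
  let Φ : E × E → (E →ₗ[F2 ι] F2 ι) := fun x =>
    v₁ ∘ₗ LinearMap.mulLeft (F2 ι) x.1 + v₂ ∘ₗ LinearMap.mulLeft (F2 ι) x.2
  have hcard : Nat.card (E →ₗ[F2 ι] F2 ι) = Nat.card E := by
    have h1 := Module.natCard_eq_pow_finrank (K := F2 ι) (V := Module.Dual (F2 ι) E)
    have h2 := Module.natCard_eq_pow_finrank (K := F2 ι) (V := E)
    rw [Subspace.dual_finrank_eq] at h1
    rw [h2]
    exact h1
  have hni : ¬ Function.Injective Φ := by
    intro hi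
    have : Finite (E →ₗ[F2 ι] F2 ι) := Nat.finite_of_card_ne_zero (by
      rw [hcard]
      exact Nat.card_pos.ne')
    have h1 := Nat.card_le_card_of_injective Φ hi
    rw [Nat.card_prod, hcard] at h1
    have h2 : 1 < Nat.card E := Finite.one_lt_card
    nlinarith
  simp only [Function.Injective] at hni
  push Not at hni
  obtain ⟨a, b, hab, hne⟩ := hni
  set x₁ := a.1 - b.1 with hx₁
  set x₂ := a.2 - b.2 with hx₂
  have hz : ∀ z, U₁ (x₁ * z) + U₂ (x₂ * z) = 0 := by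
    intro z
    have h1 := congrArg (fun F : E →ₗ[F2 ι] F2 ι => F z) hab
    have h2 : v₁ (a.1 * z) + v₂ (a.2 * z) = v₁ (b.1 * z) + v₂ (b.2 * z) := h1
    have h3 : v₁ (x₁ * z) + v₂ (x₂ * z) = 0 := by
      rw [hx₁, hx₂, sub_mul, sub_mul, map_sub, map_sub]
      linear_combination h2
    have h4 : ι ((v₁ (x₁ * z) + v₂ (x₂ * z) : F2 ι) : E) = 0 := by
      rw [h3]
      exact map_zero ι
    rw [Subfield.coe_add, map_add, hv₁, hv₂, ← add_pow_char] at h4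
    exact eq_zero_of_pow_eq_zero h4
  have hcc : Cc ρ (x₁ • c + x₂ • c') := (hc.smul x₁).add (hc'.smul x₂)
  obtain ⟨U, hU, _, _, _, hU0⟩ :=
    exists_U21 ι ρ th hth hρ hp2 Λ₀ hΛ₀ hτ hprim hφ hφ' hφρ hcc
  have hUz : ∀ z, U z = 0 := by
    intro z
    obtain ⟨y₁, hy₁, hy₁'⟩ := hg₁ (x₁ * z)
    obtain ⟨y₂, hy₂, hy₂'⟩ := hg₂ (x₂ * z)
    have h1 : KG (FF21 Λ₀ (x₁ • c + x₂ • c') z) (y₁ * y₂) := (hy₁.mul hy₂).congr fun g _ => by
      rw [FF21, FF21, FF21, ← map_add]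
      congr 1
      change _ = z * (x₁ * c g 1 0 + x₂ * c' g 1 0)
      ring
    rw [hU z _ h1 (norm_mul_sub_le (norm_eq_one_of (Nat.succ_pos _) hy₁').le hy₁' hy₂'),
      lc_mul (Nat.succ_pos _) hy₁' hy₂', ← hU₁ _ _ hy₁ hy₁', ← hU₂ _ _ hy₂ hy₂', hz]
  have h1 := hU0 hUz
  have h2 : x₁ = 0 := by
    have h3 := h1 h₀ hh₀
    change x₁ * c h₀ 1 0 + x₂ * c' h₀ 1 0 = 0 at h3
    rw [e2, mul_zero, add_zero] at h3
    exact (mul_eq_zero.mp h3).resolve_right e1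
  have h4 : x₂ = 0 := by
    have h3 := h1 h₁ hh₁
    change x₁ * c h₁ 1 0 + x₂ * c' h₁ 1 0 = 0 at h3
    rw [h2, zero_mul, zero_add] at h3
    exact (mul_eq_zero.mp h3).resolve_right e3
  exact hne (Prod.ext (sub_eq_zero.mp h2) (sub_eq_zero.mp h4))

include hth hρ in
theorem rho_frob (hp2 : p ≠ 2) {τ : Gp p} (hτ : τ ∈ II p)
    (hprim : IsPrimitiveRoot (tc (wp p) τ) (p ^ 2 - 1))
    {φ : Gp p} (hφ : φ (wp p) = wp p) (hφ' : ∀ y : KK p, gbar φ y = y ^ p) :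
    ρ φ 0 0 = 0 ∧ ρ φ 1 1 = 0 := by
  have hτ' : φ * τ * φ⁻¹ ∈ II p := (normal_II (p := p)).conj_mem τ hτ φ
  have h1 : th (φ * τ * φ⁻¹) = th τ ^ p := by
    apply ι.injective
    rw [hth _ hτ', th_conj hφ hφ' hτ, map_pow, hth τ hτ]
  have h2 : ρ φ * ρ τ = ρ (φ * τ * φ⁻¹) * ρ φ := by
    rw [← map_mul, ← map_mul, inv_mul_cancel_right]
  rw [hρ _ hτ', hρ τ hτ, h1] at h2
  have hpp : (th τ ^ p) ^ p = th τ := by
    apply ι.injective
    rw [map_pow, map_pow, hth τ hτ, ← pow_mul, ← pow_two, mem_FF'.mp (th_mem τ)]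
  have hne := th_ne_pow ι th hth hp2 hτ hprim 1 one_pos one_le_two
  rw [pow_one] at hne
  rw [Matrix.eta_fin_two (ρ φ), Matrix.mul_fin_two, Matrix.mul_fin_two, hpp] at h2
  have h3 := congrFun (congrFun h2 0) 0
  have h4 := congrFun (congrFun h2 1) 1
  change ρ φ 0 0 * th τ + ρ φ 0 1 * 0 = th τ ^ p * ρ φ 0 0 + 0 * ρ φ 1 0 at h3
  change ρ φ 1 0 * 0 + ρ φ 1 1 * th τ ^ p = 0 * ρ φ 0 1 + th τ * ρ φ 1 1 at h4
  have h5 : (th τ - th τ ^ p) * ρ φ 0 0 = 0 := by linear_combination h3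
  have h6 : (th τ - th τ ^ p) * ρ φ 1 1 = 0 := by linear_combination -h4
  exact ⟨(mul_eq_zero.mp h5).resolve_left (sub_ne_zero.mpr hne),
    (mul_eq_zero.mp h6).resolve_left (sub_ne_zero.mpr hne)⟩

include hth hρ in
/-- a cocycle of flat type vanishing on the inertia group of the tame extension is determined by
three values -/
theorem eq_zero_of_GK (hp2 : p ≠ 2) {τ : Gp p} (hτ : τ ∈ II p)
    (hprim : IsPrimitiveRoot (tc (wp p) τ) (p ^ 2 - 1))
    {φ : Gp p} (hφ' : ∀ y : KK p, gbar φ y = y ^ p)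
    (hc : Cc ρ c) (hGK : ∀ u ∈ GK p, c u = 0) (e1 : c τ 1 0 = 0) (e2 : c τ 0 1 = 0)
    (e3 : c φ 0 0 = 0) : c = 0 := by
  have hchar : CharP E p := charP_of ι
  -- the diagonal entry on inertia
  have h00 : ∀ σ ∈ II p, ∀ σ' ∈ II p, c (σ * σ') 0 0 = c σ 0 0 + c σ' 0 0 := by
    intro σ hσ σ' hσ'
    have h1 := (conj_entry ι ρ th hth hρ ((II p).inv_mem hσ) (c σ')).1
    rw [inv_inv] at h1
    rw [hc.coc, Matrix.add_apply, h1]
  have hpow : ∀ n : ℕ, c (τ ^ n) 0 0 = n * c τ 0 0 := by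
    intro n
    induction n with
    | zero => rw [pow_zero, hc.one, Nat.cast_zero, zero_mul]; rfl
    | succ n ih => rw [pow_succ, h00 _ ((II p).pow_mem hτ n) _ hτ, ih, Nat.cast_succ]; ring
  have hτn : τ ^ (p ^ 2 - 1) ∈ GK p := ⟨(II p).pow_mem hτ _, by
    change (τ ^ (p ^ 2 - 1)) (wp p) = wp p
    rw [← th_eq_one_iff, tc_pow_left wp_ne_zero hτ, hprim.pow_eq_one]⟩
  have hτ00 : c τ 0 0 = 0 := by
    have h1 := hpow (p ^ 2 - 1)
    rw [hGK _ hτn, Nat.cast_sub (Nat.one_le_pow 2 p hp.out.pos), Nat.cast_pow,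
      CharP.cast_eq_zero E p, zero_pow two_ne_zero, Nat.cast_one, zero_sub, neg_one_mul] at h1
    exact (neg_eq_zero.mp h1.symm)
  have hτ0 : c τ = 0 := by
    ext i j
    fin_cases i <;> fin_cases j
    · exact hτ00
    · exact e2
    · exact e1
    · change c τ 1 1 = 0
      rw [hc.tr, hτ00, neg_zero]
  have hmul : ∀ g h, c g = 0 → c h = 0 → c (g * h) = 0 := fun g h hg hh => by
    rw [hc.coc, hg, hh, mul_zero, zero_mul, add_zero]
  have hpw : ∀ g, c g = 0 → ∀ n : ℕ, c (g ^ n) = 0 := by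
    intro g hg n
    induction n with
    | zero => rw [pow_zero, hc.one]
    | succ n ih => rw [pow_succ]; exact hmul _ _ ih hg
  have hII : ∀ σ ∈ II p, c σ = 0 := by
    intro σ hσ
    have : NeZero (p ^ 2 - 1) := ⟨(ee_pos (p := p)).ne'⟩
    obtain ⟨n, _, hn⟩ := hprim.eq_pow_of_pow_eq_one (th_pow σ)
    have h1 : (τ ^ n)⁻¹ * σ ∈ GK p := by
      refine ⟨(II p).mul_mem ((II p).inv_mem ((II p).pow_mem hτ n)) hσ, ?_⟩
      change ((τ ^ n)⁻¹ * σ) (wp p) = wp p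
      rw [← th_eq_one_iff]
      have h2 : tc (wp p) ((τ ^ n) * ((τ ^ n)⁻¹ * σ)) = tc (wp p) σ := by
        rw [mul_inv_cancel_left]
      rw [tc_mul wp_ne_zero ((II p).pow_mem hτ n), tc_pow_left wp_ne_zero hτ, hn] at h2
      exact mul_left_cancel₀ (tc_ne_zero wp_ne_zero σ) (by rw [h2, mul_one])
    have h2 : σ = τ ^ n * ((τ ^ n)⁻¹ * σ) := (mul_inv_cancel_left _ _).symm
    rw [h2]
    exact hmul _ _ (hpw τ hτ0 n) (hGK _ h1)
  -- the value at Frobenius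
  have hφ0 : c φ = 0 := by
    have h1 : φ⁻¹ * τ * φ ∈ II p := by
      have := (normal_II (p := p)).conj_mem τ hτ φ⁻¹
      rwa [inv_inv] at this
    have h2 : ρ τ * c φ * ρ τ⁻¹ = c φ := by
      have h3 : c (τ * φ) = c (φ * (φ⁻¹ * τ * φ)) := by
        congr 1
        group
      rw [hc.coc, hc.coc, hII τ hτ, hII _ h1, zero_add, mul_zero, zero_mul, add_zero] at h3
      exact h3
    have h3 : ρ τ * c φ = c φ * ρ τ := by
      have h4 : ρ τ * c φ * ρ τ⁻¹ * ρ τ = c φ * ρ τ := by rw [h2]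
      rwa [mul_assoc, rho_inv_mul, mul_one] at h4
    rw [hρ τ hτ] at h3
    have hne := th_ne_pow ι th hth hp2 hτ hprim 1 one_pos one_le_two
    rw [pow_one] at hne
    rw [Matrix.eta_fin_two (c φ), Matrix.mul_fin_two, Matrix.mul_fin_two] at h3
    have h4 := congrFun (congrFun h3 0) 1
    have h5 := congrFun (congrFun h3 1) 0
    change th τ * c φ 0 1 + 0 * c φ 1 1 = c φ 0 0 * 0 + c φ 0 1 * th τ ^ p at h4
    change 0 * c φ 0 0 + th τ ^ p * c φ 1 0 = c φ 1 0 * th τ + c φ 1 1 * 0 at h5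
    have h6 : (th τ - th τ ^ p) * c φ 0 1 = 0 := by linear_combination h4
    have h7 : (th τ - th τ ^ p) * c φ 1 0 = 0 := by linear_combination -h5
    ext i j
    fin_cases i <;> fin_cases j
    · exact e3
    · exact (mul_eq_zero.mp h6).resolve_left (sub_ne_zero.mpr hne)
    · exact (mul_eq_zero.mp h7).resolve_left (sub_ne_zero.mpr hne)
    · change c φ 1 1 = 0
      rw [hc.tr, e3, neg_zero]
  -- density
  obtain ⟨U, hU, hU'⟩ := hc.cont
  obtain ⟨m, hm, hm'⟩ := cpt (C := ⊤) isClosed_univ (S := U ⊔ II p)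
    (Subgroup.isOpen_mono (le_sup_left : U ≤ U ⊔ II p) hU) (fun g hg => Subgroup.mem_sup_right hg.2)
  funext g
  have h1 : (φ ^ fexp hm g)⁻¹ * g ∈ TT p m := by
    intro y hy
    rw [gbar_mul, fexp_spec hm g hy, ← gbar_pow hφ']
    have := gbar_inv_cancel (φ ^ fexp hm g)⁻¹ y
    rwa [inv_inv] at this
  obtain ⟨u, hu, i, hi, hui⟩ := Subgroup.mem_sup_of_normal_right.mp (hm' ⟨trivial, h1⟩)
  have h2 : g = φ ^ fexp hm g * (u * i) := by rw [hui, mul_inv_cancel_left]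
  rw [h2]
  exact hmul _ _ (hpw φ hφ0 _) (hmul _ _ (hU' u hu) (hII i hi))

include hth hρ in
/-- **Flat cocycles are determined by four values.** -/
theorem exists_four (hp2 : p ≠ 2) :
    ∃ τ ∈ II p, ∃ φ : Gp p, ∃ h₀ : Gp p, ∀ c : Gp p → Matrix (Fin 2) (Fin 2) E, Cc ρ c →
      c τ 1 0 = 0 → c τ 0 1 = 0 → c φ 0 0 = 0 → c h₀ 1 0 = 0 → c = 0 := by
  obtain ⟨τ, hτ, hprim⟩ := exists_tau (p := p)
  obtain ⟨φ, hφ, hφ'⟩ := exists_frob (p := p)
  have hchar : CharP E p := charP_of ι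
  let _ : Algebra (ZMod p) E := ZMod.algebra E p
  obtain ⟨Λ₁, hΛ₁⟩ : ∃ Λ : Module.Dual (ZMod p) E, Λ 1 ≠ 0 := by
    by_contra hne
    push Not at hne
    exact one_ne_zero ((Module.forall_dual_apply_eq_zero_iff (ZMod p) (1 : E)).mp hne)
  let Λ₀ : E →+ ZMod p := Λ₁.toAddMonoidHom
  have hΛ₀ : ∀ e : E, (∀ x, Λ₀ (x * e) = 0) → e = 0 := by
    intro e he
    by_contra hne
    apply hΛ₁
    have := he e⁻¹
    rw [inv_mul_cancel₀ hne] at this
    exact this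
  obtain ⟨hφ0, hφ1⟩ := rho_frob ι ρ th hth hρ hp2 hτ hprim hφ hφ'
  have hφρ : ∃ r : E, ρ (φ * φ) = r • (1 : Matrix (Fin 2) (Fin 2) E) := by
    refine ⟨ρ φ 0 1 * ρ φ 1 0, ?_⟩
    rw [map_mul]
    ext i j
    rw [Matrix.mul_apply, Fin.sum_univ_two]
    fin_cases i <;> fin_cases j <;> simp [hφ0, hφ1, mul_comm]
  -- the reduction to the vanishing on `GK`
  have hred : ∀ c, Cc ρ c → c τ 1 0 = 0 → c τ 0 1 = 0 → c φ 0 0 = 0 →
      (∀ u ∈ GK p, c u 1 0 = 0) → c = 0 := by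
    intro c hc e1 e2 e3 e4
    refine eq_zero_of_GK ι ρ th hth hρ hp2 hτ hprim hφ' hc (fun u hu => ?_) e1 e2 e3
    have h00 := c_zero_zero ι ρ th hth hρ hp2 hΛ₀ hτ hprim hc hu
    have h01 : c u 0 1 = 0 := by
      have hu' : φ * u * φ⁻¹ ∈ GK p := (normal_GK (p := p)).conj_mem u hu φ
      have h1 := hc.conj (rho_GK ι ρ th hth hρ hu) φ⁻¹
      rw [inv_inv] at h1
      have h2 : c (φ * u * φ⁻¹) * ρ φ = ρ φ * c u := by
        rw [h1, mul_assoc, rho_inv_mul, mul_one]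
      have h3 := congrFun (congrFun h2 1) 1
      rw [Matrix.mul_apply, Matrix.mul_apply, Fin.sum_univ_two, Fin.sum_univ_two, e4 _ hu',
        hφ1, zero_mul, mul_zero, zero_mul, add_zero, add_zero] at h3
      refine (mul_eq_zero.mp h3.symm).resolve_left fun h4 => ?_
      have h5 := rho_mul_inv (ρ := ρ) φ
      have h6 := congrFun (congrFun h5 1) 1
      rw [Matrix.mul_apply, Fin.sum_univ_two, h4, hφ1, zero_mul, zero_mul, add_zero] at h6
      exact zero_ne_one h6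
    ext i j
    fin_cases i <;> fin_cases j
    · exact h00
    · exact h01
    · exact e4 u hu
    · change c u 1 1 = 0
      rw [hc.tr, h00, neg_zero]
  by_cases hall : ∀ c, Cc ρ c → ∀ u ∈ GK p, c u 1 0 = 0
  · exact ⟨τ, hτ, φ, 1, fun c hc e1 e2 e3 _ => hred c hc e1 e2 e3 (hall c hc)⟩
  · push Not at hall
    obtain ⟨c₁, hc₁, h₀, hh₀, hne⟩ := hall
    refine ⟨τ, hτ, φ, h₀, fun c hc e1 e2 e3 e4 => hred c hc e1 e2 e3 fun u hu => ?_⟩
    by_contra hcu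
    exact dim_one ι ρ th hth hρ hp2 Λ₀ hΛ₀ hτ hprim hφ hφ' hφρ hc₁ hc hh₀ hu hne e4 hcu

end main

end Fermat.Agent.FB
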