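import Fermat.Agent.FB.Flat2
import Fermat.Agent.Flat.Pkg
import Fermat.Agent.Flat.Unram4
import Fermat.Agent.Flat.LocZ2
import Fermat.Agent.GCFT.Mod

/-!
# Flat cocycles, III: flat group schemes over `ℤ_(p)`
-/

set_option autoImplicit false
set_option linter.unusedSectionVars false

namespace Fermat.Agent.FB

open Fermat.Agent.Coh Fermat.Agent.GalD Fermat.Agent.LocalCFT Fermat.Agent.GCFT Module WithConv
  Coalgebra Polynomial Matrix Fermat.Agent.Flat

/-- The field of algebraic numbers. -/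
local notation "Qb" => AlgebraicClosure ℚ
/-- The absolute Galois group. -/
local notation "GQ" => (AlgebraicClosure ℚ ≃ₐ[ℚ] AlgebraicClosure ℚ)

/-- the local ring of `ℤ` at `p` -/
local notation "Zl" p => GaloisRep.ratLocalizedAt p

variable {p : Nat.Primes}

theorem algebraMap_Zl (s : Zl (p : ℕ)) : algebraMap (Zl (p : ℕ)) (PadicAlgCl p) s =
    algebraMap ℚ_[p] (PadicAlgCl p) ((s : ℚ) : ℚ_[p]) := by
  change algebraMap ℚ (PadicAlgCl p) (s : ℚ) = _
  rw [eq_ratCast, map_ratCast]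

theorem norm_Zl (s : Zl (p : ℕ)) : ‖algebraMap (Zl (p : ℕ)) (PadicAlgCl p) s‖ ≤ 1 := by
  rw [algebraMap_Zl, norm_algebraMap']
  apply Padic.norm_rat_le_one
  have h1 : (s : ℚ).den.Coprime p := s.2
  intro h2
  have h3 := Nat.dvd_gcd h2 (dvd_refl (p : ℕ))
  rw [h1] at h3
  exact p.2.one_lt.ne' (Nat.dvd_one.mp h3)

theorem gal_Zl (g : Gp (p : ℕ)) (s : Zl (p : ℕ)) :
    g (algebraMap (Zl (p : ℕ)) (PadicAlgCl p) s) = algebraMap (Zl (p : ℕ)) (PadicAlgCl p) s := by
  rw [algebraMap_Zl, AlgEquiv.commutes]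

variable {k : Type*} [Field k] [Finite k]

/-- **Flat deformations.** -/
theorem flC_of_isFlat {ρ : Gp (p : ℕ) →* Matrix (Fin 2) (Fin 2) k}
    {c : Gp (p : ℕ) → Matrix (Fin 2) (Fin 2) k} {V : Type} [AddCommGroup V]
    [DistribMulAction GQ V] (hV : IsFlat (Zl (p : ℕ)) GQ V Qb)
    (e : V ≃+ (Fin 2 → k) × (Fin 2 → k))
    (he : ∀ (g : Gl p) (x : V), e (rl p g • x) =
      (ρ g *ᵥ (e x).1, (c g * ρ g) *ᵥ (e x).1 + ρ g *ᵥ (e x).2)) :
    FlC (Zl (p : ℕ)) ρ c := by
  have hdvr := isDVR_rat p.2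
  have hfinV : Finite V := Finite.of_equiv _ e.symm.toEquiv
  obtain ⟨H, _, _, hfin, hflat, hcc, e', hadd, hgal⟩ := hV.exists_hopf (desc_rat p)
  have hfree : Module.Free (Zl (p : ℕ)) H := Module.free_of_flat_of_isLocalRing
  let ilS : Qb →ₐ[Zl (p : ℕ)] PadicAlgCl p :=
    { (il p : Qb →+* PadicAlgCl p) with
      commutes' := fun s => (il p).commutes (s : ℚ) }
  let P : ((Fin 2 → k) × (Fin 2 → k)) → (H →ₐ[Zl (p : ℕ)] PadicAlgCl p) :=
    fun x => ilS.comp (e'.symm (e.symm x)).ofConv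
  have hP1 : ∀ x h, P x h = il p ((e'.symm (e.symm x)).ofConv h) := fun _ _ => rfl
  have he1 : e' 1 = 0 := by
    have h1 := hadd 1 1
    rw [mul_one] at h1
    exact left_eq_add.mp h1
  have he2 : ∀ x y, e'.symm (x + y) = e'.symm x * e'.symm y := by
    intro x y
    rw [Equiv.symm_apply_eq, hadd, Equiv.apply_symm_apply, Equiv.apply_symm_apply]
  have hP : PtsOf P :=
    { zero := by
        have h1 : e'.symm (e.symm 0) = 1 := by rw [Equiv.symm_apply_eq, map_zero, he1]
        change cv (ilS.comp (e'.symm (e.symm 0)).ofConv) = 1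
        rw [h1]
        apply WithConv.ext
        ext h
        exact (il p).commutes ((counit (R := Zl (p : ℕ)) h : Zl (p : ℕ)) : ℚ)
      add := fun v w => by
        change cv (ilS.comp (e'.symm (e.symm (v + w))).ofConv) = _
        rw [map_add, he2, AlgHom.comp_convMul_distrib]
        rfl
      inj := fun v w hvw => by
        apply e.symm.injective
        apply e'.symm.injective
        apply WithConv.ofConv_injective
        ext h
        apply (il p).injective
        exact DFunLike.congr_fun hvw h }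
  refine ⟨H, _, _, hfree, hfin, hcc, P, hP, fun g v w h => ?_⟩
  have h1 := hgal (rl p g) (e'.symm (e.symm (v, w)))
    (toConv ((((rl p g : GQ) : Qb →ₐ[ℚ] Qb).restrictScalars (Zl (p : ℕ))).comp
      (e'.symm (e.symm (v, w))).ofConv)) (fun h => rfl)
  rw [Equiv.apply_symm_apply] at h1
  have h2 : e.symm (ρ g *ᵥ v, (c g * ρ g) *ᵥ v + ρ g *ᵥ w) = rl p g • e.symm (v, w) := by
    rw [AddEquiv.symm_apply_eq, he, AddEquiv.apply_symm_apply]
  rw [hP1, hP1, h2, ← h1, Equiv.symm_apply_apply, ← il_rl]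
  rfl

end Fermat.Agent.FB
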