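import Fermat.Agent.FB.Fin1
import Fermat.Agent.Conn.Level
import Fermat.Agent.RT.FramedSt

/-!
# Flat cocycles, IV: framed deformations
-/

set_option autoImplicit false
set_option linter.unusedSectionVars false

namespace Fermat.Agent.FB

open Fermat.Agent.Coh Fermat.Agent.GalD Fermat.Agent.LocalCFT Fermat.Agent.GCFT Module
  Matrix Fermat.Agent.Flat Fermat.Agent.RT Fermat.Agent.Conn IsLocalRing

/-- The field of algebraic numbers. -/
local notation "Qb" => AlgebraicClosure ℚ
/-- The absolute Galois group. -/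
local notation "GQ" => (AlgebraicClosure ℚ ≃ₐ[ℚ] AlgebraicClosure ℚ)

/-- the local ring of `ℤ` at `p` -/
local notation "Zl" p => GaloisRep.ratLocalizedAt p

section MatMod

variable {Γ A : Type*} [Group Γ] [CommRing A]

/-- the module attached to a matrix representation -/
def MatMod (_r : Γ →* GL (Fin 2) A) : Type _ := Fin 2 → A

variable (r : Γ →* GL (Fin 2) A)

instance : AddCommGroup (MatMod r) := inferInstanceAs (AddCommGroup (Fin 2 → A))

instance [Finite A] : Finite (MatMod r) := inferInstanceAs (Finite (Fin 2 → A))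

instance : DistribMulAction Γ (MatMod r) where
  smul g x := (r g).val *ᵥ (show Fin 2 → A from x)
  one_smul x := by
    change (r 1).val *ᵥ _ = x
    rw [map_one, Units.val_one, one_mulVec]
  mul_smul g h x := by
    change (r (g * h)).val *ᵥ _ = (r g).val *ᵥ ((r h).val *ᵥ _)
    rw [map_mul, Units.val_mul, mulVec_mulVec]
  smul_zero g := mulVec_zero _
  smul_add g x y := mulVec_add _ _ _

theorem matMod_smul (g : Γ) (x : Fin 2 → A) :
    (g • (show MatMod r from x)) = (r g).val *ᵥ x := rfl

end MatMod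

/-- flatness of a matrix representation -/
def MFlat (p : ℕ) {T : Type} [CommRing T] (ρ : GQ →* GL (Fin 2) T) : Prop :=
  ∀ I : Ideal T, Finite (T ⧸ I) →
    IsFlat (Zl p) GQ (MatMod ((GeneralLinearGroup.map (Ideal.Quotient.mk I)).comp ρ)) Qb

theorem mflat_of_isFlatAt {p : ℕ} {T : Type} [CommRing T] [IsLocalRing T] (R : GaloisRepAdic T)
    (b : Basis (Fin 2) T R.V) {ρ : GQ →* GL (Fin 2) T}
    (hρ : ∀ g, LinearMap.toMatrix b b (R.ρ g) = (ρ g).val) (h : R.IsFlatAt p) : MFlat p ρ := by
  intro I hI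
  have h1 := isFlat_lev R I h hI
  let φ₀ : R.V →ₗ[T] (Fin 2 → T ⧸ I) :=
    { toFun := fun y i => Ideal.Quotient.mk I (b.repr y i)
      map_add' := fun x y => by
        funext i
        rw [map_add, Finsupp.add_apply, map_add]
        rfl
      map_smul' := fun t x => by
        funext i
        rw [map_smul, Finsupp.smul_apply, smul_eq_mul, map_mul]
        rfl }
  have hker : I • (⊤ : Submodule T R.V) ≤ LinearMap.ker φ₀ := by
    refine Submodule.smul_le.mpr fun t ht y _ => ?_
    rw [LinearMap.mem_ker, map_smul]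
    funext i
    rw [Pi.smul_apply, Algebra.smul_def, Ideal.Quotient.algebraMap_eq,
      Ideal.Quotient.eq_zero_iff_mem.mpr ht, zero_mul, Pi.zero_apply]
  let φ : Lev R I →+ MatMod ((GeneralLinearGroup.map (Ideal.Quotient.mk I)).comp ρ) :=
    ((I • (⊤ : Submodule T R.V)).liftQ φ₀ hker).toAddMonoidHom
  have hφ : ∀ y, φ (toLev R I y) = φ₀ y := fun y => rfl
  have hinj : Function.Injective φ := by
    rw [injective_iff_map_eq_zero]
    intro x hx
    obtain ⟨y, rfl⟩ := toLev_surjective R I x
    rw [hφ] at hx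
    rw [toLev_eq_zero, ← b.sum_repr y]
    refine Submodule.sum_mem _ fun i _ => Submodule.smul_mem_smul ?_ Submodule.mem_top
    exact Ideal.Quotient.eq_zero_iff_mem.mp (congrFun hx i)
  have hsurj : Function.Surjective φ := by
    intro x
    let x' : Fin 2 → T ⧸ I := x
    choose t ht using fun i => Ideal.Quotient.mk_surjective (x' i)
    refine ⟨toLev R I (∑ i, t i • b i), ?_⟩
    rw [hφ]
    funext i
    change Ideal.Quotient.mk I (b.repr (∑ i, t i • b i) i) = x' i
    rw [b.repr_sum_self, ht]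
  have hequiv : ∀ (g : GQ) (x : Lev R I), φ (g • x) = g • φ x := by
    intro g x
    obtain ⟨y, rfl⟩ := toLev_surjective R I x
    rw [smul_toLev, hφ, hφ]
    funext i
    change Ideal.Quotient.mk I (b.repr (R.ρ g y) i) =
      (((ρ g).val.map (Ideal.Quotient.mk I)) *ᵥ (fun j => Ideal.Quotient.mk I (b.repr y j))) i
    have h2 : b.repr (R.ρ g y) i = ((ρ g).val *ᵥ (b.repr y)) i := by
      rw [← hρ, LinearMap.toMatrix_mulVec_repr]
    rw [h2]
    simp [Matrix.mulVec, dotProduct]
  refine h1.congr (AddEquiv.ofBijective φ ⟨hinj, hsurj⟩).symm fun g v => ?_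
  rw [AddEquiv.symm_apply_eq]
  change g • v = φ (g • _)
  rw [hequiv]
  congr 1
  exact ((AddEquiv.ofBijective φ ⟨hinj, hsurj⟩).apply_symm_apply v).symm

/-! ### dual numbers -/

section Dual

variable {O T k : Type} [CommRing O] [CommRing T] [Field k] {φ : O →+* T} {π : T →+* k}

instance [Finite k] : Finite (DualNumber k) := inferInstanceAs (Finite (k × k))

theorem finite_quot_ker {A B : Type*} [CommRing A] [CommRing B] [Finite B] (f : A →+* B) :
    Finite (A ⧸ RingHom.ker f) :=
  Finite.of_injective _ (RingHom.kerLift_injective f)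

/-- the matrix representation over the dual numbers is flat -/
theorem isFlat_dual {p : ℕ} [hp : Fact p.Prime] [Finite k] (hπs : Function.Surjective π)
    {ρ : GQ →* GL (Fin 2) T} (hflat : MFlat p ρ) (D : DerSp φ π)
    {r : GQ →* GL (Fin 2) (DualNumber k)} (F : GL (Fin 2) (DualNumber k))
    (hr : ∀ g, (r g).val = F.val * ((ρ g).val.map (dualOf D)) * (F⁻¹).val) :
    IsFlat (Zl p) GQ (MatMod r) Qb := by
  have hdvr := isDVR_rat hp.out
  have hJ := finite_quot_ker (dualOf D)
  have hK := finite_quot_ker π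
  have h1 := (hflat _ hJ).prod (hflat _ hK)
  let J := RingHom.ker (dualOf D)
  let K := RingHom.ker π
  let ψ : T ⧸ J →+* DualNumber k := RingHom.kerLift (dualOf D)
  let κ : T ⧸ K →+* k := RingHom.kerLift π
  have hψ : ∀ t, ψ (Ideal.Quotient.mk J t) = dualOf D t := fun t => rfl
  have hκ : ∀ t, κ (Ideal.Quotient.mk K t) = π t := fun t => rfl
  let Φ : (MatMod ((GeneralLinearGroup.map (Ideal.Quotient.mk J)).comp ρ) ×
      MatMod ((GeneralLinearGroup.map (Ideal.Quotient.mk K)).comp ρ)) →+ MatMod r :=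
    { toFun := fun x => F.val *ᵥ (fun i => ψ ((show Fin 2 → T ⧸ J from x.1) i) +
        TrivSqZeroExt.inr (κ ((show Fin 2 → T ⧸ K from x.2) i)))
      map_zero' := by
        change F.val *ᵥ (fun i => ψ 0 + TrivSqZeroExt.inr (κ 0)) = 0
        rw [map_zero, map_zero, TrivSqZeroExt.inr_zero, add_zero]
        exact mulVec_zero _
      map_add' := fun x y => by
        change F.val *ᵥ (fun i => ψ ((show Fin 2 → T ⧸ J from x.1) i +
          (show Fin 2 → T ⧸ J from y.1) i) + TrivSqZeroExt.inr (κ
          ((show Fin 2 → T ⧸ K from x.2) i + (show Fin 2 → T ⧸ K from y.2) i))) =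
          F.val *ᵥ _ + F.val *ᵥ _
        rw [← mulVec_add]
        congr 1
        funext i
        rw [map_add, map_add, TrivSqZeroExt.inr_add, Pi.add_apply]
        abel }
  have hΦ : ∀ (x : Fin 2 → T ⧸ J) (y : Fin 2 → T ⧸ K), Φ (x, y) =
      F.val *ᵥ (fun i => ψ (x i) + TrivSqZeroExt.inr (κ (y i))) := fun _ _ => rfl
  refine h1.of_surjective (desc_rat p) Φ ?_ ?_
  · intro z
    let z' : Fin 2 → DualNumber k := (F⁻¹).val *ᵥ (show Fin 2 → DualNumber k from z)
    choose t ht using fun i => hπs (z' i).fst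
    choose s hs using fun i => hπs ((z' i).snd - D.1 (t i))
    refine ⟨(fun i => Ideal.Quotient.mk J (t i), fun i => Ideal.Quotient.mk K (s i)), ?_⟩
    rw [hΦ]
    have h2 : (fun i => ψ (Ideal.Quotient.mk J (t i)) +
        TrivSqZeroExt.inr (κ (Ideal.Quotient.mk K (s i)))) = z' := by
      funext i
      rw [hψ, hκ]
      apply TrivSqZeroExt.ext
      · rw [TrivSqZeroExt.fst_add, dualOf_fst, TrivSqZeroExt.fst_inr, add_zero, ht]
      · rw [TrivSqZeroExt.snd_add, dualOf_snd, TrivSqZeroExt.snd_inr, hs, add_sub_cancel]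
    rw [h2]
    change F.val *ᵥ ((F⁻¹).val *ᵥ _) = _
    rw [mulVec_mulVec, ← Units.val_mul, mul_inv_cancel, Units.val_one, one_mulVec]
  · have key : ∀ (g : GQ) (x : Fin 2 → T ⧸ J) (y : Fin 2 → T ⧸ K),
        F.val *ᵥ (fun i => ψ (((ρ g).val.map (Ideal.Quotient.mk J) *ᵥ x) i) +
          TrivSqZeroExt.inr (κ (((ρ g).val.map (Ideal.Quotient.mk K) *ᵥ y) i))) =
        (r g).val *ᵥ (F.val *ᵥ (fun i => ψ (x i) + TrivSqZeroExt.inr (κ (y i)))) := by
      intro g x y
      rw [hr, mulVec_mulVec, mul_assoc (F.val * _), ← Units.val_mul, inv_mul_cancel,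
        Units.val_one, mul_one, ← mulVec_mulVec]
      congr 1
      funext i
      simp only [mulVec, dotProduct, Fin.sum_univ_two, Matrix.map_apply]
      rw [map_add, map_mul, map_mul, map_add, map_mul, map_mul, hψ, hψ, hκ, hκ]
      apply TrivSqZeroExt.ext
      · simp [dualOf_fst]
      · simp [dualOf_fst, dualOf_snd]
        ring
    rintro g ⟨x, y⟩
    exact key g x y

end Dual

end Fermat.Agent.FB
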