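import Fermat.Agent.FB.Fin2

/-!
# Flat cocycles, V: four functionals for flat deformations
-/

set_option autoImplicit false
set_option linter.unusedSectionVars false

namespace Fermat.Agent.FB

open Fermat.Agent.Coh Fermat.Agent.GalD Fermat.Agent.LocalCFT Fermat.Agent.GCFT Module
  Matrix Fermat.Agent.Flat Fermat.Agent.RT Fermat.Agent.Conn IsLocalRing

/-- The field of algebraic numbers. -/
local notation "Qb" => AlgebraicClosure ℚ
/-- The absolute Galois group. -/
local notation "GQ" => (AlgebraicClosure ℚ ≃ₐ[ℚ] AlgebraicClosure ℚ)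

/-- the local ring of `ℤ` at `p` -/
local notation "Zl" p => GaloisRep.ratLocalizedAt p

variable {p : Nat.Primes} {k : Type} [Field k] [Finite k]

theorem cyc_glob {g : Gl p} {m : ℕ} (hm : g (zp p) = zp p ^ m) {μ : Qb} (hμ : μ ^ (p : ℕ) = 1) :
    rl p g μ = μ ^ m := by
  suffices h0 : il p (rl p g μ) = il p (μ ^ m) from (il p).injective h0
  rw [il_rl, map_pow]
  have h1 : (il p μ) ^ (p : ℕ) = 1 := by rw [← map_pow, hμ, map_one]
  obtain ⟨i, -, hi⟩ := (zp_prim (p := p)).eq_pow_of_pow_eq_one h1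
  rw [← hi, map_pow, hm, ← pow_mul, ← pow_mul, mul_comm]

/-- the coordinates of the dual numbers -/
def dualCoord (r : GQ →* GL (Fin 2) (DualNumber k)) :
    MatMod r ≃+ (Fin 2 → k) × (Fin 2 → k) where
  toFun x := (fun i => ((show Fin 2 → DualNumber k from x) i).fst,
    fun i => ((show Fin 2 → DualNumber k from x) i).snd)
  invFun y := show Fin 2 → DualNumber k from
    fun i => TrivSqZeroExt.inl (y.1 i) + TrivSqZeroExt.inr (y.2 i)
  left_inv x := by
    funext i
    exact TrivSqZeroExt.inl_fst_add_inr_snd_eq _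
  right_inv y := by
    ext i
    · simp
    · simp
  map_add' x y := rfl

/-- **Four functionals for flat deformations to the dual numbers.** -/
theorem dual_functionals (hp2 : (p : ℕ) ≠ 2) (hchar : ((p : ℕ) : k) = 0)
    (ρb : GQ →* GL (Fin 2) k)
    (hcyc : ∀ (g : GQ) (m : ℕ), (∀ μ : Qb, μ ^ (p : ℕ) = 1 → g μ = μ ^ m) →
      (ρb g).val.det = m)
    (hirr : ∀ W : Submodule k (Fin 2 → k),
      (∀ δ : Gl p, ∀ x ∈ W, (ρb (rl p δ)).val *ᵥ x ∈ W) → W = ⊥ ∨ W = ⊤) :
    ∃ (σ : Fin 4 → Gl p) (i j : Fin 4 → Fin 2), ∀ r : GQ →* GL (Fin 2) (DualNumber k),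
      (∀ g, (r g).val.map TrivSqZeroExt.fst = (ρb g).val) →
      (∀ g, (r g).val.det.snd = 0) → IsFlat (Zl (p : ℕ)) GQ (MatMod r) Qb →
      (∀ l, ((r (rl p (σ l))).val.map TrivSqZeroExt.snd * (ρb (rl p (σ l))⁻¹).val)
        (i l) (j l) = 0) →
      ∀ δ : Gl p, (r (rl p δ)).val.map TrivSqZeroExt.snd = 0 := by
  have hcp : CharP k p := by
    have h1 : ringChar k ∣ p := (ringChar.spec k p).mp hchar
    rcases (Nat.dvd_prime p.2).mp h1 with h2 | h2
    · have h3 : ((ringChar k : ℕ) : k) = 0 := ringChar.Nat.cast_ringChar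
      rw [h2, Nat.cast_one] at h3
      exact absurd h3 one_ne_zero
    · rw [← h2]
      exact ringChar.charP k
  let ρ₀ : Gp (p : ℕ) →* Matrix (Fin 2) (Fin 2) k := (Units.coeHom _).comp (ρb.comp (rl p))
  have hρ₀ : ∀ g, ρ₀ g = (ρb (rl p g)).val := fun g => rfl
  obtain ⟨σ, i, j, h⟩ := exists_functionals (S := Zl (p : ℕ)) hp2 norm_Zl gal_Zl ρ₀ hirr
    (fun g m hm => hcyc _ m fun μ hμ => cyc_glob hm hμ)
  refine ⟨σ, i, j, fun r hr1 hr2 hflat hr3 => ?_⟩
  set N : Gp (p : ℕ) → Matrix (Fin 2) (Fin 2) k :=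
    fun δ => (r (rl p δ)).val.map TrivSqZeroExt.snd with hN
  have hfst : ∀ (g : GQ) (a b : Fin 2), ((r g).val a b).fst = (ρb g).val a b := fun g a b =>
    congrFun (congrFun (hr1 g) a) b
  have hmulN : ∀ g h, N (g * h) = N g * ρ₀ h + ρ₀ g * N h := by
    intro g h
    ext a b
    have h1 : ∀ a b, N (g * h) a b =
        (((r (rl p g)).val * (r (rl p h)).val) a b).snd := by
      intro a b
      rw [← Units.val_mul, ← map_mul, ← map_mul]
      rfl
    rw [h1, Matrix.add_apply, Matrix.mul_apply, Matrix.mul_apply, Matrix.mul_apply,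
      Fin.sum_univ_two, Fin.sum_univ_two, Fin.sum_univ_two, TrivSqZeroExt.snd_add,
      TrivSqZeroExt.snd_mul, TrivSqZeroExt.snd_mul, hfst, hfst, hfst, hfst]
    simp only [hN, hρ₀, Matrix.map_apply, smul_eq_mul, MulOpposite.smul_eq_mul_unop,
      MulOpposite.unop_op]
    ring
  have hinv : ∀ g, ρ₀ g * ρ₀ g⁻¹ = 1 := fun g => by rw [← map_mul, mul_inv_cancel, map_one]
  have hinv' : ∀ g, ρ₀ g⁻¹ * ρ₀ g = 1 := fun g => by rw [← map_mul, inv_mul_cancel, map_one]
  have hc0 := h (fun δ => N δ * ρ₀ δ⁻¹) ?_ ?_ ?_ ?_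
  · intro δ
    have h1 := congrFun hc0 δ
    change N δ * ρ₀ δ⁻¹ = 0 at h1
    calc N δ = N δ * ρ₀ δ⁻¹ * ρ₀ δ := by rw [mul_assoc, hinv', mul_one]
      _ = 0 := by rw [h1, zero_mul]
  · intro g g'
    rw [hmulN, _root_.mul_inv_rev, map_mul, add_mul]
    congr 1
    · rw [mul_assoc (N g), ← mul_assoc (ρ₀ g'), hinv, one_mul]
    · simp only [mul_assoc]
  · intro g
    have h1 := hr2 (rl p g)
    have hdet : (ρ₀ g).det ≠ 0 := by
      intro h0
      have h2 := congrArg Matrix.det (hinv g)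
      rw [det_mul, h0, zero_mul, det_one] at h2
      exact zero_ne_one h2
    have h2 : ρ₀ g⁻¹ = (ρ₀ g).det⁻¹ • (ρ₀ g).adjugate := by
      calc ρ₀ g⁻¹ = ((ρ₀ g).det⁻¹ • ((ρ₀ g).adjugate * ρ₀ g)) * ρ₀ g⁻¹ := by
            rw [adjugate_mul, smul_smul, inv_mul_cancel₀ hdet, one_smul, one_mul]
        _ = _ := by rw [smul_mul_assoc, mul_assoc, hinv, mul_one]
    rw [det_fin_two, TrivSqZeroExt.snd_sub, TrivSqZeroExt.snd_mul, TrivSqZeroExt.snd_mul, hfst,
      hfst, hfst, hfst] at h1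
    simp only [smul_eq_mul, MulOpposite.smul_eq_mul_unop, MulOpposite.unop_op] at h1
    rw [h2, adjugate_fin_two, eq_neg_iff_add_eq_zero, mul_smul_comm, Matrix.smul_apply,
      Matrix.smul_apply, ← smul_add]
    have h3 : (N g * !![ρ₀ g 1 1, -ρ₀ g 0 1; -ρ₀ g 1 0, ρ₀ g 0 0]) 1 1 +
        (N g * !![ρ₀ g 1 1, -ρ₀ g 0 1; -ρ₀ g 1 0, ρ₀ g 0 0]) 0 0 = 0 := by
      rw [Matrix.mul_apply, Matrix.mul_apply, Fin.sum_univ_two, Fin.sum_univ_two, ← h1]
      simp only [hN, hρ₀, Matrix.map_apply, Matrix.of_apply, Matrix.cons_val_zero,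
        Matrix.cons_val_one, Matrix.cons_val', Matrix.cons_val_fin_one]
      ring
    rw [h3, smul_zero]
  · refine flC_of_isFlat hflat (dualCoord r) fun g x => ?_
    have hcN : N g * ρ₀ g⁻¹ * ρ₀ g = N g := by rw [mul_assoc, hinv', mul_one]
    rw [hcN]
    have key : ∀ x : Fin 2 → DualNumber k,
        ((fun i => (((r (rl p g)).val *ᵥ x) i).fst, fun i => (((r (rl p g)).val *ᵥ x) i).snd) :
          (Fin 2 → k) × (Fin 2 → k)) =
        (ρ₀ g *ᵥ (fun i => (x i).fst), N g *ᵥ (fun i => (x i).fst) +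
          ρ₀ g *ᵥ (fun i => (x i).snd)) := by
      intro x
      ext a
      · simp only [mulVec, dotProduct, Fin.sum_univ_two, TrivSqZeroExt.fst_add,
          TrivSqZeroExt.fst_mul, hfst, hρ₀]
      · simp only [mulVec, dotProduct, Fin.sum_univ_two, TrivSqZeroExt.snd_add,
          TrivSqZeroExt.snd_mul, hfst, hρ₀, Pi.add_apply, hN, Matrix.map_apply, smul_eq_mul,
          MulOpposite.smul_eq_mul_unop, MulOpposite.unop_op]
        ring
    exact key x
  · intro l
    change (N (σ l) * (ρb (rl p (σ l)⁻¹)).val) _ _ = 0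
    rw [map_inv (rl p)]
    exact hr3 l

/-! ### derivations of the framed ring -/

section Framed

variable {O T : Type} [CommRing O] [CommRing T] [IsLocalRing T] {φ : O →+* T} {π : T →+* k}
  {ρ : GQ →* GL (Fin 2) T} {V : Type} [Fintype V]

/-- the framed representation -/
noncomputable def frRep (ρ : GQ →* GL (Fin 2) T) (v : V) :
    GQ →* GL (Fin 2) (MvPowerSeries (V × Fin 3) T) :=
  (MulAut.conj (frm T v)).toMonoidHom.comp
    ((GeneralLinearGroup.map (MvPowerSeries.C : T →+* MvPowerSeries (V × Fin 3) T)).comp ρ)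

theorem frRep_val (v : V) (g : GQ) : (frRep ρ v g).val = frMat ρ v g := rfl

theorem dualOf_C (D : DerSp (frφ φ V) (frπ π V)) (t : T) :
    dualOf D (MvPowerSeries.C t) = dualOf (derRes φ π V D) t := by
  apply TrivSqZeroExt.ext
  · rw [dualOf_fst, dualOf_fst]
    change π (MvPowerSeries.constantCoeff (MvPowerSeries.C t)) = π t
    rw [MvPowerSeries.constantCoeff_C]
  · rw [dualOf_snd, dualOf_snd, derRes_coe]

/-- **Four functionals for framed flat deformations.** -/
theorem fl_functionals (hp2 : (p : ℕ) ≠ 2) (hπs : Function.Surjective π)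
    (hchar : ((p : ℕ) : k) = 0) (hdet : ∀ g, ∃ o, (ρ g).val.det = φ o)
    (hcyc : ∀ (g : GQ) (m : ℕ), (∀ μ : Qb, μ ^ (p : ℕ) = 1 → g μ = μ ^ m) →
      (resRep π ρ g).val.det = m)
    (hirr : ∀ W : Submodule k (Fin 2 → k),
      (∀ δ : Gl p, ∀ x ∈ W, (resRep π ρ (rl p δ)).val *ᵥ x ∈ W) → W = ⊥ ∨ W = ⊤)
    (hflat : MFlat p ρ) (v : V) :
    ∃ θ : DerSp (frφ φ V) (frπ π V) →ₗ[k] (Fin 4 → k), ∀ D, θ D = 0 →
      ∀ δ : Gl p, (frMat ρ v (rl p δ)).map D.1 = 0 := by
  obtain ⟨σ, i, j, h⟩ := dual_functionals hp2 hchar (resRep π ρ) hcyc hirr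
  let R : Fin 4 → Matrix (Fin 2) (Fin 2) k := fun l => (resRep π ρ (rl p (σ l))⁻¹).val
  let A : Fin 4 → Matrix (Fin 2) (Fin 2) (MvPowerSeries (V × Fin 3) T) :=
    fun l => frMat ρ v (rl p (σ l))
  refine ⟨{
    toFun := fun D l => ((A l).map D.1 * R l) (i l) (j l)
    map_add' := fun D E => by
      funext l
      have h1 : (A l).map (D.1 + E.1) * R l = (A l).map D.1 * R l + (A l).map E.1 * R l := by
        rw [← add_mul]
        rfl
      exact congrFun (congrFun h1 (i l)) (j l)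
    map_smul' := fun c D => by
      funext l
      have h1 : (A l).map (c • D.1) * R l = c • ((A l).map D.1 * R l) := by
        rw [← smul_mul_assoc]
        rfl
      exact congrFun (congrFun h1 (i l)) (j l) }, fun D hD => ?_⟩
  let r : GQ →* GL (Fin 2) (DualNumber k) :=
    (GeneralLinearGroup.map (dualOf D)).comp (frRep ρ v)
  have hr : ∀ g, (r g).val = (frMat ρ v g).map (dualOf D) := fun g => rfl
  have hsnd : ∀ g, (r g).val.map TrivSqZeroExt.snd = (frMat ρ v g).map D.1 := by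
    intro g
    ext a b
    rw [hr, Matrix.map_apply, Matrix.map_apply, Matrix.map_apply, dualOf_snd]
  have key := h r ?_ ?_ ?_ ?_
  · intro δ
    rw [← hsnd]
    exact key δ
  · intro g
    ext a b
    rw [hr, Matrix.map_apply, Matrix.map_apply, dualOf_fst]
    change π (MvPowerSeries.constantCoeff (frMat ρ v g a b)) = π ((ρ g).val a b)
    rw [frMat_constantCoeff]
  · intro g
    obtain ⟨o, ho⟩ := hdet g
    have h1 : (frMat ρ v g).det = frφ φ V o := by
      have h2 : (frm T v).val.det * ((frm T v)⁻¹).val.det = 1 := by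
        rw [← det_mul, ← Units.val_mul, mul_inv_cancel, Units.val_one, det_one]
      have h3 : ((ρ g).val.map (MvPowerSeries.C : T →+* MvPowerSeries (V × Fin 3) T)).det =
          MvPowerSeries.C (ρ g).val.det :=
        ((MvPowerSeries.C : T →+* MvPowerSeries (V × Fin 3) T).map_det (ρ g).val).symm
      rw [frMat, det_mul, det_mul, mul_right_comm, h2, one_mul, h3, ho]
      rfl
    have h2 : (r g).val.det = dualOf D (frMat ρ v g).det := ((dualOf D).map_det _).symm
    rw [h2, h1, dualOf_snd, der_cst D.2]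
  · refine isFlat_dual hπs hflat (derRes φ π V D)
      (GeneralLinearGroup.map (dualOf D) (frm T v)) fun g => ?_
    have h1 : ((ρ g).val.map (MvPowerSeries.C : T →+* MvPowerSeries (V × Fin 3) T)).map
        (dualOf D) = (ρ g).val.map (dualOf (derRes φ π V D)) := by
      ext1 a b
      rw [Matrix.map_apply, Matrix.map_apply, Matrix.map_apply, dualOf_C]
    rw [hr, frMat, Matrix.map_mul, Matrix.map_mul, h1]
    rfl
  · intro l
    rw [hsnd]
    exact congrFun hD l

end Framed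

end Fermat.Agent.FB
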