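import Fermat.Agent.FB.Kum
import Fermat.Agent.FB.Bound

/-!
# The slope bound for Kummer classes of finite flat group schemes
-/

set_option autoImplicit false
set_option linter.unusedSectionVars false
set_option linter.style.haveILetI false

namespace Fermat.Agent.FB

open Fermat.Agent.Coh Fermat.Agent.GalD Fermat.Agent.LocalCFT Module IntermediateField WithConv
  Coalgebra

variable {p : ℕ} [hp : Fact p.Prime]

theorem fdeg_eq {N : Subgroup (Gp p)} (hN : IsOpen (N : Set (Gp p))) {m : ℕ} (hm : m ≠ 0)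
    (h1 : N ≤ TT p m) (h2 : TT p m ≤ N ⊔ II p) : fdeg N = m := by
  have hU : (LF p).IsOpen N := isOpen_iff.mpr hN
  have h3 : kap N = FF' p m := by
    apply le_antisymm
    · intro y hy
      have hU2 : (LF p).IsOpen (TT p m) := isOpen_iff.mpr (isOpen_TT hm)
      rw [← (index_TT (p := p) hm).2, ← kap_eq hU2]
      obtain ⟨n, hn, hyn⟩ := exists_mem_FF' y
      refine mem_kap_of_gbar hn hyn fun u hu => ?_
      obtain ⟨d, hd, i, hi, rfl⟩ := Subgroup.mem_sup_of_normal_right.mp (h2 hu)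
      rw [gbar_mul, hi, gbar_of_mem_kap hd hy]
    · intro y hy
      exact mem_kap_of_gbar hm hy fun u hu => h1 hu y hy
  have h4 : p ^ fdeg N = p ^ m := by rw [← card_kap hU, h3, card_FF' hm]
  exact Nat.pow_right_injective hp.out.two_le h4

variable {S : Type*} [CommRing S] [Algebra S (PadicAlgCl p)]
  (hS1 : ∀ s : S, ‖algebraMap S (PadicAlgCl p) s‖ ≤ 1)
  (hS2 : ∀ (g : Gp p) (s : S), g (algebraMap S (PadicAlgCl p) s) = algebraMap S (PadicAlgCl p) s)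
  {H : Type*} [CommRing H] [Bialgebra S H] [Module.Free S H] [IsCocomm S H]
  [Module.Finite S H]

open Polynomial in
include hS1 hS2 in
theorem core (hp2 : p ≠ 2) {ι : Type*} (P : ι → (H →ₐ[S] PadicAlgCl p))
    (hP : ∀ i, (toConv (P i).toLinearMap : WithConv (H →ₗ[S] PadicAlgCl p)) ^ p = 1)
    {D : Subgroup (Gp p)} (hDo : IsOpen (D : Set (Gp p))) [hDn : D.Normal]
    (hD : ∀ g, g ∈ D ↔ ∀ i h, g (P i h) = P i h)
    (hDw : ∀ g ∈ D, g ∈ II p → g (wp p) = wp p)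
    {y : PadicAlgCl p} (hy0 : y ≠ 0) (hyp : ∀ g ∈ GK p, g (y ^ p) = y ^ p)
    (hDy : ∀ g ∈ D, g ∈ II p → g y = y)
    {c : PadicAlgCl p} (hc : ∀ g : Gp p, g c = c) (hz0 : y - c ≠ 0) (hz1 : ¬ IsV (y - c))
    (hz2 : ∃ k : ℤ, ‖y - c‖ ^ p = ‖wp p‖ ^ k) :
    ‖(p : PadicAlgCl p)‖ ≤ (‖wp p‖ ^ (p + 1) * ‖y‖ / ‖y - c‖) ^ (p * (p - 1)) := by
  classical
  have hq := norm_wp_pos (p := p)
  have hq1 := norm_wp_lt_one (p := p)
  have hpp := norm_p_pos (p := p)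
  have hp1 : ‖(p : PadicAlgCl p)‖ < 1 := norm_natCast_l
  set z := y - c with hz
  set κ : ℝ := ‖wp p‖ ^ (p + 1) * ‖y‖ / ‖z‖ with hκ
  have hκ0 : 0 ≤ κ := by positivity
  have hp2' := hp.out.two_le
  by_cases hκ1 : 1 ≤ κ
  · exact hp1.le.trans (one_le_pow₀ hκ1)
  push Not at hκ1
  -- a nontrivial element
  obtain ⟨g₁, hg₁, hg₁y⟩ : ∃ g₁ ∈ GK p, g₁ y ≠ y := by
    by_contra hne
    push Not at hne
    exact hz1 (norm_GK hz0 fun g hg => by rw [hz, map_sub, hne g hg, hc])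
  have hκg : ∀ g ∈ GK p, g y ≠ y → ‖g z - z‖ / ‖z‖ = κ := by
    intro g hg hgy
    have h1 : g z - z = (g y / y - 1) * y := by
      rw [hz, map_sub, hc]
      field_simp
      ring
    have h2 : IsPrimitiveRoot (g y / y) p := primitive_of_ne (by
      rw [div_pow, ← map_pow, hyp g hg, div_self (pow_ne_zero _ hy0)])
      fun h => hgy ((div_eq_one_iff_eq hy0).mp h)
    rw [h1, norm_mul, norm_root_sub' h2, hκ]
  -- choice of `m`
  obtain ⟨m₁, hm₁, hm₁'⟩ := cpt (C := D) (Subgroup.isClosed_of_isOpen _ hDo)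
    (S := stb (wp p) ⊓ stb y) ((isOpen_stb _).inter (isOpen_stb _))
    (fun g hg => ⟨hDw g hg.1 hg.2, hDy g hg.1 hg.2⟩)
  obtain ⟨m₂, hm₂, hm₂'⟩ := cpt (C := ⊤) isClosed_univ (S := D ⊔ II p)
    (Subgroup.isOpen_mono (le_sup_left : D ≤ D ⊔ II p) hDo) (fun g hg => Subgroup.mem_sup_right hg.2)
  obtain ⟨m, hm, hmm⟩ : ∃ m, m = m₁ * m₂ ∧ m ≠ 0 := ⟨_, rfl, mul_ne_zero hm₁ hm₂⟩
  have hT1 : TT p m ≤ TT p m₁ := TT_anti (hm ▸ dvd_mul_right _ _)
  have hT2 : TT p m ≤ D ⊔ II p := fun g hg => hm₂' ⟨trivial, TT_anti (hm ▸ dvd_mul_left _ _) hg⟩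
  obtain ⟨N, hN⟩ : ∃ N : Subgroup (Gp p), N = D ⊓ TT p m := ⟨_, rfl⟩
  have hNo : IsOpen (N : Set (Gp p)) := by
    rw [hN]
    exact hDo.inter (isOpen_TT hmm)
  have hNn : N.Normal := by
    rw [hN]
    infer_instance
  have hNT : N ≤ TT p m := hN ▸ inf_le_right
  have hND : N ≤ D := hN ▸ inf_le_left
  have hNS : ∀ g ∈ N, g (wp p) = wp p ∧ g y = y := fun g hg => hm₁' ⟨hND hg, hT1 (hNT hg)⟩
  have hTN : ∀ g ∈ TT p m, ∃ d ∈ N, ∃ i ∈ II p, d * i = g := by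
    intro g hg
    obtain ⟨d, hd, i, hi, rfl⟩ := Subgroup.mem_sup_of_normal_right.mp (hT2 hg)
    refine ⟨d, ?_, i, hi, rfl⟩
    rw [hN]
    exact ⟨hd, ((TT p m).mul_mem_cancel_right (II_le_TT m hi)).mp hg⟩
  have hTN' : TT p m ≤ N ⊔ II p := fun g hg => Subgroup.mem_sup_of_normal_right.mpr (hTN g hg)
  have hU : (LF p).IsOpen N := isOpen_iff.mpr hNo
  -- the field
  obtain ⟨L, hL⟩ : ∃ L : IntermediateField ℚ_[p] (PadicAlgCl p), L = fld N := ⟨_, rfl⟩
  have hLfix : L.fixingSubgroup = N := by rw [hL, fixingSubgroup_fld hU]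
  have hLfin : FiniteDimensional ℚ_[p] L := by rw [hL]; exact finiteDimensional_fld hU
  have hLgal : IsGalois ℚ_[p] L := by
    rw [← InfiniteGalois.normal_iff_isGalois, hLfix]
    exact hNn
  have hLmem : ∀ x : PadicAlgCl p, x ∈ L ↔ ∀ g ∈ N, g x = x := fun x => by rw [hL, mem_fld]
  have hLc : CompleteSpace L := FiniteDimensional.complete ℚ_[p] L
  let r := AlgEquiv.restrictNormalHom (F := ℚ_[p]) (K₁ := PadicAlgCl p) L
  have hr : ∀ (σ : Gp p) (x : L), ((r σ x : L) : PadicAlgCl p) = σ x := fun σ x =>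
    AlgEquiv.restrictNormalHom_apply L σ x
  let G : Subgroup Gal(L/ℚ_[p]) := (TT p m).map r
  have hGfin : Fintype G := Fintype.ofFinite _
  have hGII : ∀ σ : G, ∃ τ ∈ II p, ∀ x : L, ((σ • x : L) : PadicAlgCl p) = τ x := by
    rintro ⟨_, τ, hτ, rfl⟩
    obtain ⟨d, hd, i, hi, rfl⟩ := hTN τ hτ
    refine ⟨i, hi, fun x => ?_⟩
    change ((r (d * i) x : L) : PadicAlgCl p) = i x
    rw [hr, AlgEquiv.mul_apply]
    have h1 : i (x : PadicAlgCl p) = ((r i x : L) : PadicAlgCl p) := (hr i x).symm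
    rw [h1]
    exact (hLmem _).mp (r i x).2 d hd
  have hGT : ∀ τ ∈ TT p m, ∃ σ : G, ∀ x : L, ((σ • x : L) : PadicAlgCl p) = τ x := fun τ hτ =>
    ⟨⟨r τ, ⟨τ, hτ, rfl⟩⟩, fun x => hr τ x⟩
  have hiso : ∀ (σ : G) (x : L), ‖σ • x‖ = ‖x‖ := by
    intro σ x
    obtain ⟨τ, _, h⟩ := hGII σ
    change ‖((σ • x : L) : PadicAlgCl p)‖ = ‖(x : PadicAlgCl p)‖
    rw [h, norm_gal]
  -- the order of `G`
  have hker : r.ker ≤ TT p m := by
    intro g hg
    apply hNT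
    rw [← hLfix, IntermediateField.mem_fixingSubgroup_iff]
    intro x hx
    have h1 := hr g ⟨x, hx⟩
    rw [MonoidHom.mem_ker.mp hg] at h1
    exact h1.symm
  have hGcard : N.index = Fintype.card G * m := by
    have h1 : Nat.card Gal(L/ℚ_[p]) = N.index := by
      rw [IsGalois.card_aut_eq_finrank, finrank_eq_fixingSubgroup_index, hLfix]
    have h2 : G.index = m := by
      rw [← (index_TT (p := p) hmm).1]
      exact Subgroup.index_map_eq _ (AlgEquiv.restrictNormalHom_surjective (PadicAlgCl p)) hker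
    rw [← h1, ← Subgroup.card_mul_index G, h2, Nat.card_eq_fintype_card]
  -- the uniformizer
  obtain ⟨hf0, ⟨a, ha⟩, _⟩ := exists_unif_fdeg hU
  rw [fdeg_eq hNo hmm hNT hTN'] at ha
  have hαL : uval (a : Additive (PadicAlgCl p)ˣ) ∈ L := by rw [hL]; exact mem_FF_iff.mp a.2
  let α : L := ⟨_, hαL⟩
  have hα : ‖α‖ ^ Fintype.card G = ‖(p : PadicAlgCl p)‖ := by
    have h1 := VU_spec hU a
    rw [ha, hGcard, pow_mul, zpow_neg, zpow_natCast, ← inv_pow, ← norm_l] at h1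
    exact (pow_left_inj₀ (by positivity) hpp.le hmm).mp h1
  have hα1 : ‖α‖ ≤ 1 := by
    by_contra hlt
    push Not at hlt
    have := one_lt_pow₀ hlt (n := Fintype.card G) Fintype.card_ne_zero
    rw [hα] at this
    exact lt_asymm this hp1
  have hF : ∀ a : L, (∀ g : G, g • a = a) → a ≠ 0 → ∃ k : ℤ, ‖a‖ = ‖(p : PadicAlgCl p)‖ ^ k := by
    intro a ha ha0
    refine norm_TT hmm (x := (a : PadicAlgCl p)) (fun h => ha0 (Subtype.ext h)) fun τ hτ => ?_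
    obtain ⟨σ, hσ⟩ := hGT τ hτ
    rw [← hσ, ha]
  -- algebra structure and points
  have hSL : ∀ s : S, algebraMap S (PadicAlgCl p) s ∈ L := fun s => (hLmem _).mpr fun g _ => hS2 g s
  letI : Algebra S L := (RingHom.codRestrict (algebraMap S (PadicAlgCl p)) L.toSubfield hSL).toAlgebra
  have halg : ∀ s : S, ((algebraMap S L s : L) : PadicAlgCl p) = algebraMap S (PadicAlgCl p) s :=
    fun s => rfl
  let inc : L →ₐ[S] PadicAlgCl p := { L.val with commutes' := fun s => rfl }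
  have hPL : ∀ i h, P i h ∈ L := fun i h => (hLmem _).mpr fun g hg => (hD g).mp (hND hg) i h
  let P' : ι → (H →ₐ[S] L) := fun i =>
    { RingHom.codRestrict (P i : H →+* PadicAlgCl p) L.toSubfield (hPL i) with
      commutes' := fun s => Subtype.ext ((P i).commutes s) }
  have hP'P : ∀ i h, ((P' i h : L) : PadicAlgCl p) = P i h := fun _ _ => rfl
  have hP' : ∀ i, (toConv (P' i).toLinearMap : WithConv (H →ₗ[S] L)) ^ p = 1 := by
    intro i
    have h1 := push_pow inc (toConv (P' i).toLinearMap) p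
    have h2 := push_one (C := H) inc
    have h3 : (toConv (inc.toLinearMap ∘ₗ (toConv (P' i).toLinearMap).ofConv) :
        WithConv (H →ₗ[S] PadicAlgCl p)) = toConv (P i).toLinearMap := rfl
    rw [h3, hP i, ← h2] at h1
    apply WithConv.ext
    ext x
    exact congrArg (fun f : WithConv (H →ₗ[S] PadicAlgCl p) => f x) h1
  have hfaith : ∀ σ : G, (∀ i h, σ • (P' i h) = P' i h) → σ = 1 := by
    intro σ hσ
    obtain ⟨_, τ, hτ, rfl⟩ := σ
    have h1 : τ ∈ N := by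
      rw [hN]
      refine ⟨(hD τ).mpr fun i h => ?_, hτ⟩
      have h2 := congrArg Subtype.val (hσ i h)
      rw [hP'P] at h2
      rw [← hP'P, ← hr τ (P' i h)]
      exact h2
    apply Subtype.ext
    change r τ = 1
    ext x
    rw [hr]
    exact (hLmem _).mp x.2 τ h1
  -- the subgroups
  have hwL : wp p ∈ L := (hLmem _).mpr fun g hg => (hNS g hg).1
  have hyL : y ∈ L := (hLmem _).mpr fun g hg => (hNS g hg).2
  have hcL : c ∈ L := (hLmem _).mpr fun g _ => hc g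
  let w' : L := ⟨wp p, hwL⟩
  let y' : L := ⟨y, hyL⟩
  let z' : L := ⟨z, sub_mem hyL hcL⟩
  let C : Subgroup G := MulAction.stabilizer G w'
  let D' : Subgroup G := C ⊓ MulAction.stabilizer G y'
  have hmemC : ∀ σ : G, σ ∈ C ↔ σ • w' = w' := fun σ => Iff.rfl
  have hmemD : ∀ σ : G, σ ∈ D' ↔ σ • w' = w' ∧ σ • y' = y' := fun σ => Iff.rfl
  have hsm : ∀ (σ : G) (τ : Gp p), (∀ x : L, ((σ • x : L) : PadicAlgCl p) = τ x) → ∀ x : L,
      σ • x = x ↔ τ (x : PadicAlgCl p) = x := fun σ τ h x => by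
    rw [← h x]
    exact ⟨fun h => congrArg Subtype.val h, fun h => Subtype.ext h⟩
  obtain ⟨s₁, hs₁⟩ := hGT g₁ (II_le_TT m hg₁.1)
  have hs₁C : s₁ ∈ C := (hsm s₁ g₁ hs₁ w').mpr hg₁.2
  have hs₁D : s₁ ∉ D' := fun h => hg₁y ((hsm s₁ g₁ hs₁ y').mp h.2)
  -- elements fixed by `C` and `D'`
  have hfixC : ∀ b : L, (∀ h ∈ C, h • b = b) → ∀ g ∈ GK p, g (b : PadicAlgCl p) = b := by
    intro b hb g hg
    obtain ⟨s, hs⟩ := hGT g (II_le_TT m hg.1)
    exact (hsm s g hs b).mp (hb s ((hsm s g hs w').mpr hg.2))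
  have hfixD : ∀ b : L, (∀ h ∈ D', h • b = b) → ∀ g ∈ GK p, g y = y → g (b : PadicAlgCl p) = b := by
    intro b hb g hg hgy
    obtain ⟨s, hs⟩ := hGT g (II_le_TT m hg.1)
    exact (hsm s g hs b).mp (hb s ⟨(hsm s g hs w').mpr hg.2, (hsm s g hs y').mpr hgy⟩)
  have hA : ∀ σ ∉ C, ∀ b : L, (∀ h ∈ C, h • b = b) → ‖b‖ ≤ 1 → ‖σ • b - b‖ ≤ ‖wp p‖ := by
    intro σ _ b hb hb1
    obtain ⟨τ, hτ, h⟩ := hGII σ
    change ‖((σ • b : L) : PadicAlgCl p) - b‖ ≤ _
    rw [h]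
    exact norm_sub_le_GK (hfixC b hb) hb1 hτ
  obtain ⟨B, hB0, hBp⟩ : ∃ B : ℝ, 0 ≤ B ∧ B ^ p = κ ^ p * ‖wp p‖ := by
    refine ⟨(κ ^ p * ‖wp p‖) ^ ((p : ℝ)⁻¹), by positivity, ?_⟩
    exact Real.rpow_inv_natCast_pow (by positivity) hp.out.ne_zero
  have hB1 : B ≤ 1 := by
    by_contra hlt
    push Not at hlt
    have h1 := one_lt_pow₀ hlt hp.out.ne_zero
    rw [hBp] at h1
    have h2 : κ ^ p * ‖wp p‖ ≤ 1 := mul_le_one₀ (pow_le_one₀ hκ0 hκ1.le) hq.le hq1.le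
    linarith
  have hB : ∀ σ ∈ C, σ ∉ D' → ∀ b : L, (∀ h ∈ D', h • b = b) → ‖b‖ ≤ 1 → ‖σ • b - b‖ ≤ B := by
    intro σ hσ hσD b hb hb1
    obtain ⟨τ, hτ, h⟩ := hGII σ
    have hτG : τ ∈ GK p := ⟨hτ, (hsm σ τ h w').mp hσ⟩
    have hτy : τ y ≠ y := fun h' => hσD ⟨hσ, (hsm σ τ h y').mpr h'⟩
    obtain ⟨Q₀, hQ1, hQ2, hQ3⟩ := exists_poly hy0 hyp hg₁ hg₁y (hfixD b hb)
    have hQ3' : (Q₀.comp (X + Polynomial.C c)).eval z = b := by
      rw [eval_comp, eval_add, eval_X, eval_C, hz, sub_add_cancel, hQ3]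
    have h1 := norm_gal_sub_pow_le hz0 hz1 hz2 (Q := Q₀.comp (X + Polynomial.C c)) (by
      intro g hg i
      have h2 : (Q₀.comp (X + Polynomial.C c)).map (g : PadicAlgCl p →+* PadicAlgCl p) =
          Q₀.comp (X + Polynomial.C c) := by
        rw [map_comp]
        congr 1
        · ext i
          rw [coeff_map]
          exact hQ1 g hg i
        · rw [Polynomial.map_add, map_X, map_C]
          congr 2
          exact hc g
      have h3 := congrArg (fun q => coeff q i) h2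
      simp only [coeff_map] at h3
      exact h3) (by rw [natDegree_comp, natDegree_X_add_C, mul_one]; exact hQ2)
      (by rw [hQ3']; exact hb1) hτG
    rw [hQ3', hκg τ hτG hτy, ← hBp] at h1
    change ‖((σ • b : L) : PadicAlgCl p) - b‖ ≤ _
    rw [h]
    exact (pow_le_pow_iff_left₀ (norm_nonneg _) hB0 hp.out.ne_zero).mp h1
  -- indices
  have hCi : p ^ 2 - 1 ≤ C.index := by
    obtain ⟨M, hM0, hM, hMn⟩ := exists_orbit_norm hiso (x := w')
      (fun h => wp_ne_zero (congrArg Subtype.val h)) (Set.finite_range _)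
    obtain ⟨k, hk⟩ := hF M hM hM0
    rw [hMn, norm_p_zpow] at hk
    have h1 : ‖w'‖ = ‖wp p‖ := rfl
    rw [h1, ← zpow_natCast] at hk
    have h2 := zpow_wp_inj hk
    have h3 : (p ^ 2 - 1 : ℕ) ∣ (MulAction.orbit G w').ncard := by
      rw [← Int.natCast_dvd_natCast]
      exact ⟨k, h2⟩
    rw [MulAction.index_stabilizer]
    refine Nat.le_of_dvd ?_ h3
    exact (Set.ncard_pos (s := MulAction.orbit G w') (Set.finite_range _)).mpr
      (MulAction.nonempty_orbit _)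
  have hDi : p ≤ D'.relIndex C := by
    have hisoC : ∀ (σ : C) (x : L), ‖σ • x‖ = ‖x‖ := fun σ x => hiso (σ : G) x
    have h0 : D'.subgroupOf C = MulAction.stabilizer C z' := by
      ext σ
      rw [Subgroup.mem_subgroupOf, MulAction.mem_stabilizer_iff]
      obtain ⟨τ, hτ, h⟩ := hGII (σ : G)
      have h1 : (σ : G) ∈ D' ↔ τ y = y := by
        rw [hmemD, hsm _ τ h y']
        exact ⟨fun h => h.2, fun h => ⟨σ.2, h⟩⟩
      rw [h1]
      change _ ↔ (σ : G) • z' = z'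
      rw [hsm _ τ h z']
      change _ ↔ τ z = z
      rw [hz, map_sub, hc, sub_left_inj]
    obtain ⟨M, hM0, hM, hMn⟩ := exists_orbit_norm hisoC (x := z')
      (fun h => hz0 (congrArg Subtype.val h)) (Set.finite_range _)
    obtain ⟨k, hk⟩ := norm_GK (x := (M : PadicAlgCl p)) (fun h => hM0 (Subtype.ext h))
      (hfixC M fun h hh => hM ⟨h, hh⟩)
    have h1 : ‖M‖ = ‖(M : PadicAlgCl p)‖ := rfl
    rw [← h1, hMn] at hk
    obtain ⟨l, hl⟩ := hz2
    rw [Subgroup.relIndex, h0, MulAction.index_stabilizer]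
    refine Nat.le_of_dvd ?_ ?_
    · exact (Set.ncard_pos (s := MulAction.orbit C z') (Set.finite_range _)).mpr
        (MulAction.nonempty_orbit _)
    · by_contra hnd
      exact hz1 (bez hz0 ((Nat.Prime.coprime_iff_not_dvd hp.out).mpr hnd).symm (a := k) (b := l)
        hk hl)
  -- the bound
  have hpL : ‖((p : ℕ) : L)‖ = ‖(p : PadicAlgCl p)‖ := by
    change ‖((((p : ℕ) : L)) : PadicAlgCl p)‖ = _
    push_cast
    rfl
  have hfin := bound hiso (fun s => hS1 s) (fun g s => by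
      obtain ⟨τ, _, h⟩ := hGII g
      rw [hsm g τ h, halg]
      exact hS2 τ s) hp.out hp2 (by
      intro h
      rw [h, norm_zero] at hpL
      exact hpp.ne hpL) (by rw [hpL]; exact hp1) hα1 (fun y hy => exists_gen hpp hp1 hα hF y hy)
      P' hP' hfaith C D' inf_le_left hs₁C hs₁D hA hB
  rw [hpL] at hfin
  have h1 : ‖wp p‖ ^ (C.index - 1) * B ^ (D'.relIndex C) ≤ ‖(p : PadicAlgCl p)‖ * κ ^ p := by
    have h2 : ‖wp p‖ ^ (C.index - 1) ≤ ‖wp p‖ ^ (p ^ 2 - 1 - 1) :=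
      pow_le_pow_of_le_one hq.le hq1.le (by omega)
    have h3 : B ^ (D'.relIndex C) ≤ B ^ p := pow_le_pow_of_le_one hB0 hB1 hDi
    calc _ ≤ ‖wp p‖ ^ (p ^ 2 - 1 - 1) * B ^ p := mul_le_mul h2 h3 (by positivity) (by positivity)
      _ = ‖wp p‖ ^ (p ^ 2 - 1) * κ ^ p := by
          rw [hBp]
          have h4 : ‖wp p‖ ^ (p ^ 2 - 1) = ‖wp p‖ ^ (p ^ 2 - 1 - 1) * ‖wp p‖ := by
            rw [← pow_succ, Nat.sub_add_cancel ee_pos]
          rw [h4]
          ring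
      _ = _ := by rw [norm_wp_pow]
  have h2 := hfin.trans (pow_le_pow_left₀ (by positivity) h1 (p - 1))
  rw [mul_pow, ← pow_mul] at h2
  have h3 : ‖(p : PadicAlgCl p)‖ ^ p = ‖(p : PadicAlgCl p)‖ ^ (p - 1) * ‖(p : PadicAlgCl p)‖ := by
    rw [← pow_succ, Nat.sub_add_cancel hp.out.pos]
  rw [h3] at h2
  exact le_of_mul_le_mul_left h2 (pow_pos hpp _)

include hS1 hS2 in
/-- **The slope bound.** -/
theorem slope (hp2 : p ≠ 2) {ι : Type*} (P : ι → (H →ₐ[S] PadicAlgCl p))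
    (hP : ∀ i, (toConv (P i).toLinearMap : WithConv (H →ₗ[S] PadicAlgCl p)) ^ p = 1)
    {D : Subgroup (Gp p)} (hDo : IsOpen (D : Set (Gp p))) (hDn : D.Normal)
    (hD : ∀ g, g ∈ D ↔ ∀ i h, g (P i h) = P i h)
    (hDw : ∀ g ∈ D, g ∈ II p → g (wp p) = wp p)
    {y : PadicAlgCl p} (hy0 : y ≠ 0) (hyp : ∀ g ∈ GK p, g (y ^ p) = y ^ p)
    (hDy : ∀ g ∈ D, g ∈ II p → g y = y) :
    ∃ a : PadicAlgCl p, a ≠ 0 ∧ (∀ g ∈ GK p, g a = a) ∧
      ‖y / a - 1‖ ^ p ≤ ‖(p : PadicAlgCl p)‖ := by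
  have hq := norm_wp_pos (p := p)
  have hq1 := norm_wp_lt_one (p := p)
  have hpp := norm_p_pos (p := p)
  have hp1 : ‖(p : PadicAlgCl p)‖ < 1 := norm_natCast_l
  have hp2' := hp.out.two_le
  have hqe : ‖wp p‖ ^ ((p + 1) * (p - 1)) = ‖(p : PadicAlgCl p)‖ := by rw [← ee_eq, norm_wp_pow]
  rcases normal_form hp2 hy0 hyp with h | ⟨a, ha0, ha, h1, h2, h3⟩ | ⟨a, ha0, ha, h1⟩
  · exfalso
    have h1 := core hS1 hS2 hp2 P hP hDo hD hDw hy0 hyp hDy (c := 0) (fun g => map_zero g)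
      (by rwa [sub_zero]) (by rwa [sub_zero]) (by
        rw [sub_zero, ← norm_pow]
        exact norm_GK (pow_ne_zero _ hy0) hyp)
    rw [sub_zero, mul_div_assoc, div_self (norm_ne_zero_iff.mpr hy0), mul_one, ← pow_mul,
      show (p + 1) * (p * (p - 1)) = (p + 1) * (p - 1) * p by ring, pow_mul, hqe] at h1
    have h4 : ‖(p : PadicAlgCl p)‖ ^ p < ‖(p : PadicAlgCl p)‖ := by
      conv_rhs => rw [← pow_one ‖(p : PadicAlgCl p)‖]
      exact pow_lt_pow_right_of_lt_one₀ hpp hp1 (by omega)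
    linarith
  · refine ⟨a, ha0, ha, ?_⟩
    have hy1 : ‖y / a‖ = 1 := by
      have h4 : y / a = 1 + (y / a - 1) := by ring
      have h5 : ‖y / a - 1‖ < ‖(1 : PadicAlgCl p)‖ := by rwa [norm_one]
      rw [h4, IsUltrametricDist.norm_add_eq_max_of_norm_ne_norm h5.ne', max_eq_left h5.le,
        norm_one]
    have hz : 0 < ‖y / a - 1‖ := (pow_pos hq _).trans h2
    have h4 := core hS1 hS2 hp2 P hP hDo hD hDw (y := y / a) (div_ne_zero hy0 ha0)
      (fun g hg => by rw [div_pow, map_div₀, hyp g hg, map_pow, ha g hg])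
      (fun g hg hg' => by rw [map_div₀, hDy g hg hg', ha g ⟨hg', hDw g hg hg'⟩])
      (c := 1) (fun g => map_one g) (norm_pos_iff.mp hz) h3 (pz hp2 hyp ha h1 h2.le)
    rw [hy1, mul_one, div_pow, ← pow_mul,
      show (p + 1) * (p * (p - 1)) = (p + 1) * (p - 1) * p by ring, pow_mul, hqe,
      le_div_iff₀ (pow_pos hz _)] at h4
    have h5 : ‖(p : PadicAlgCl p)‖ ^ p = ‖(p : PadicAlgCl p)‖ * ‖(p : PadicAlgCl p)‖ ^ (p - 1) := by
      rw [← pow_succ', Nat.sub_add_cancel hp.out.pos]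
    rw [h5, pow_mul] at h4
    have h6 := le_of_mul_le_mul_left h4 hpp
    exact (pow_le_pow_iff_left₀ (by positivity) hpp.le (by omega)).mp h6
  · refine ⟨a, ha0, ha, ?_⟩
    rw [← hqe, mul_comm, pow_mul]
    calc ‖y / a - 1‖ ^ p ≤ (‖wp p‖ ^ (p + 1)) ^ p := pow_le_pow_left₀ (norm_nonneg _) h1.le p
      _ = ‖wp p‖ ^ ((p + 1) * p) := (pow_mul _ _ _).symm
      _ ≤ ‖wp p‖ ^ ((p - 1) * (p + 1)) := pow_le_pow_of_le_one hq.le hq1.le (by
          rw [mul_comm]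
          exact Nat.mul_le_mul_left _ (Nat.sub_le _ _))
      _ = _ := pow_mul _ _ _

end Fermat.Agent.FB
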