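import Fermat.Agent.FB.TStr
import Fermat.Agent.FB.Slope
import Fermat.Agent.FB.Dim3
import Fermat.Agent.GCFT.Basic

/-!
# Flat cocycles
-/

set_option autoImplicit false
set_option linter.unusedSectionVars false

namespace Fermat.Agent.FB

open Fermat.Agent.Coh Fermat.Agent.GalD Fermat.Agent.LocalCFT Fermat.Agent.GCFT Module WithConv
  Coalgebra Polynomial Matrix

variable {p : ℕ} [hp : Fact p.Prime]

/-- **Kummer theory.** -/
theorem exists_kummer {U : Subgroup (Gp p)}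
    (hz : ∀ g ∈ U, g (zp p) = zp p) {f : Gp p → ZMod p}
    (hadd : ∀ g ∈ U, ∀ h ∈ U, f (g * h) = f g + f h)
    {V : Subgroup (Gp p)} (hV : IsOpen (V : Set (Gp p))) (hcont : ∀ v ∈ V, v ∈ U → f v = 0) :
    ∃ y : PadicAlgCl p, y ≠ 0 ∧ ∀ g ∈ U, g y = zpw (f g) * y := by
  obtain ⟨W, hW, hWV⟩ := isOpen_iff.mpr hV
  let a : U →* (PadicAlgCl p ≃+* PadicAlgCl p) :=
    { toFun := fun g => ((g : Gp p) : PadicAlgCl p ≃+* PadicAlgCl p)
      map_one' := rfl
      map_mul' := fun _ _ => rfl }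
  obtain ⟨b, hb⟩ := h90 ((LF p).res U) a (by
    rintro _ ⟨W', ⟨L, hL1, hL2, rfl⟩, rfl⟩ g hg
    intro x
    exact hg x fun w hw => hw x) (fun g => Units.mk0 (zpw (f g)) (zpw_ne_zero _)) (by
      refine ⟨_, ⟨W, hW, rfl⟩, fun g u hu => ?_⟩
      apply Units.ext
      change zpw (f ((g : Gp p) * u)) = zpw (f g)
      rw [hadd _ g.2 _ u.2, hcont (u : Gp p) (hWV hu) u.2, add_zero]) (by
      intro g h
      change zpw (f ((g : Gp p) * h)) = (g : Gp p) (zpw (f h)) * zpw (f g)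
      rw [hadd _ g.2 _ h.2, zpw_add, mul_comm]
      congr 1
      rw [zpw, map_pow, hz _ g.2])
  refine ⟨b, b.ne_zero, fun g hg => ?_⟩
  have h1 := hb ⟨g, hg⟩
  change zpw (f g) = g b / b at h1
  rw [h1, div_mul_cancel₀ _ b.ne_zero]

section main

variable {k : Type*} [Field k] [Finite k] [CharP k p]

variable {S : Type*} [CommRing S] [Algebra S (PadicAlgCl p)]
  (hS1 : ∀ s : S, ‖algebraMap S (PadicAlgCl p) s‖ ≤ 1)
  (hS2 : ∀ (g : Gp p) (s : S), g (algebraMap S (PadicAlgCl p) s) = algebraMap S (PadicAlgCl p) s)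
  {H : Type*} [CommRing H] [HopfAlgebra S H] [Module.Free S H] [IsCocomm S H]
  [Module.Finite S H]
  {ρ : Gp p →* Matrix (Fin 2) (Fin 2) k} {c : Gp p → Matrix (Fin 2) (Fin 2) k}
  {P : ((Fin 2 → k) × (Fin 2 → k)) → (H →ₐ[S] PadicAlgCl p)}

include hS2 in
theorem exists_D (hP : PtsOf P)
    (hE : ∀ g v w h, g (P (v, w) h) = P (ρ g *ᵥ v, (c g * ρ g) *ᵥ v + ρ g *ᵥ w) h) :
    ∃ D : Subgroup (Gp p), IsOpen (D : Set (Gp p)) ∧ D.Normal ∧
      (∀ g, g ∈ D ↔ ∀ i h, g (P i h) = P i h) ∧ ∀ g ∈ D, ρ g = 1 ∧ c g = 0 := by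
  let D : Subgroup (Gp p) :=
    { carrier := {g | ∀ i h, g (P i h) = P i h}
      mul_mem' := fun {a b} ha hb i h => by rw [AlgEquiv.mul_apply, hb, ha]
      one_mem' := fun i h => rfl
      inv_mem' := fun {a} ha i h => by
        change a.symm (P i h) = P i h
        rw [AlgEquiv.symm_apply_eq, ha] }
  have hD : ∀ g, g ∈ D ↔ ∀ i h, g (P i h) = P i h := fun g => Iff.rfl
  have hDr : ∀ g ∈ D, ρ g = 1 ∧ c g = 0 := by
    intro g hg
    have h1 : ρ g = 1 := by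
      apply mat_ext
      intro w
      rw [one_mulVec]
      have h2 : P (0, ρ g *ᵥ w) = P (0, w) := by
        ext h
        have h3 := hE g 0 w h
        rw [hg, mulVec_zero, mulVec_zero, zero_add] at h3
        exact h3.symm
      exact congrArg Prod.snd (hP.inj h2)
    refine ⟨h1, ?_⟩
    apply mat_ext
    intro v
    rw [zero_mulVec]
    have h2 : P (v, c g *ᵥ v) = P (v, 0) := by
      ext h
      have h3 := hE g v 0 h
      rw [hg, h1, one_mulVec, mul_one, mulVec_zero, add_zero] at h3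
      exact h3.symm
    exact congrArg Prod.snd (hP.inj h2)
  have hDo : IsOpen (D : Set (Gp p)) := by
    let b := Module.Free.chooseBasis S H
    have hfin : Finite (((Fin 2 → k) × (Fin 2 → k)) × Module.Free.ChooseBasisIndex S H) :=
      inferInstance
    let D' : Subgroup (Gp p) := ⨅ x : ((Fin 2 → k) × (Fin 2 → k)) ×
      Module.Free.ChooseBasisIndex S H, stb (P x.1 (b x.2))
    have hD' : IsOpen (D' : Set (Gp p)) := by
      rw [Subgroup.coe_iInf]
      exact isOpen_iInter_of_finite fun x => isOpen_stb _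
    refine Subgroup.isOpen_mono (H₁ := D') (fun g hg => ?_) hD'
    intro i h
    rw [← b.sum_repr h, map_sum, map_sum]
    refine Finset.sum_congr rfl fun j _ => ?_
    rw [map_smul, Algebra.smul_def, map_mul, hS2]
    congr 1
    exact (Subgroup.mem_iInf.mp hg) (i, j)
  have hDn : D.Normal := by
    constructor
    rintro u hu g ⟨v, w⟩ h
    have h1 : u (g⁻¹ (P (v, w) h)) = g⁻¹ (P (v, w) h) := by
      rw [hE g⁻¹]
      exact hu _ _
    rw [AlgEquiv.mul_apply, AlgEquiv.mul_apply, h1, ← AlgEquiv.mul_apply, mul_inv_cancel,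
      AlgEquiv.one_apply]
  exact ⟨D, hDo, hDn, hD, hDr⟩

include hS1 hS2 in
/-- **Flat cocycles have good Kummer generators.** -/
theorem exists_good (hp2 : p ≠ 2) (hP : PtsOf P)
    (hE : ∀ g v w h, g (P (v, w) h) = P (ρ g *ᵥ v, (c g * ρ g) *ᵥ v + ρ g *ᵥ w) h)
    (hcoc : ∀ g h, c (g * h) = c g + ρ g * c h * ρ g⁻¹)
    (hθ : ∀ g ∈ II p, ρ g = 1 → g (wp p) = wp p) (hρK : ∀ g ∈ GK p, ρ g = 1)
    (Λ : Matrix (Fin 2) (Fin 2) k →+ ZMod p) :
    ∃ y, KG (fun g => Λ (c g)) y ∧ ‖y - 1‖ ≤ ‖wq p‖ ^ (p ^ 2 - 1) := by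
  obtain ⟨D, hDo, hDn, hD, hDr⟩ := exists_D hS2 hP hE
  let U : Subgroup (Gp p) := ρ.ker ⊓ stb (zp p)
  obtain ⟨y, hy0, hy⟩ := exists_kummer (U := U) (fun g hg => hg.2) (f := fun g => Λ (c g))
    (fun g hg h _ => by
      have h1 : ρ g = 1 := hg.1
      have h2 : ρ g⁻¹ = 1 := ρ.ker.inv_mem hg.1
      rw [hcoc, h1, h2, one_mul, mul_one, map_add]) hDo
    (fun v hv _ => by rw [(hDr v hv).2, map_zero])
  have hKU : ∀ g ∈ GK p, g ∈ U := fun g hg => ⟨hρK g hg, root_fixed zp_prim hg⟩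
  have hKG : KG (fun g => Λ (c g)) y := ⟨hy0, fun g hg => hy g (hKU g hg)⟩
  have hDw : ∀ g ∈ D, g ∈ II p → g (wp p) = wp p := fun g hg hg' => hθ g hg' (hDr g hg).1
  obtain ⟨a, ha0, ha, ha1⟩ := slope hS1 hS2 hp2 P (fun i => by
    have h1 := cv_nsmul hP i p
    have h2 : p • i = 0 := by
      ext j
      · rw [Prod.smul_fst, Pi.smul_apply, nsmul_eq_mul, CharP.cast_eq_zero, zero_mul]
        rfl
      · rw [Prod.smul_snd, Pi.smul_apply, nsmul_eq_mul, CharP.cast_eq_zero, zero_mul]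
        rfl
    rw [h2, hP.zero] at h1
    exact h1.symm) hDo hDn hD hDw hy0 hKG.pow_fixed (fun g hg hg' => by
      rw [hKG.2 g ⟨hg', hDw g hg hg'⟩]
      change zpw (Λ (c g)) * y = y
      rw [(hDr g hg).2, map_zero, zpw_zero, one_mul])
  refine ⟨y / a, hKG.div_fixed ha0 ha, ?_⟩
  rw [← norm_wp_pow, wp_pow_eq, mul_comm p, pow_mul] at ha1
  exact (pow_le_pow_iff_left₀ (norm_nonneg _) (by positivity) hp.out.ne_zero).mp ha1

end main

end Fermat.Agent.FB
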