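import Fermat.Agent.FB.Flat

/-!
# Flat cocycles, II: extension of scalars and the count
-/

set_option autoImplicit false
set_option linter.unusedSectionVars false

namespace Fermat.Agent.FB

open Fermat.Agent.Coh Fermat.Agent.GalD Fermat.Agent.LocalCFT Fermat.Agent.GCFT Module WithConv
  Coalgebra Polynomial Matrix

variable {p : ℕ} [hp : Fact p.Prime]

theorem exists_common {ι : Type*} [Finite ι] (f : ι → KK p) :
    ∃ N : ℕ, N ≠ 0 ∧ 2 ∣ N ∧ ∀ i, f i ∈ FF' p N := by
  have := Fintype.ofFinite ι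
  choose m hm hm' using fun i => exists_mem_FF' (f i)
  refine ⟨2 * ∏ i, m i, ?_, dvd_mul_right _ _, fun i => ?_⟩
  · exact mul_ne_zero two_ne_zero (Finset.prod_ne_zero_iff.mpr fun i _ => hm i)
  · exact FF'_le ((Finset.dvd_prod_of_mem m (Finset.mem_univ i)).trans (dvd_mul_left _ _)) (hm' i)

variable {k : Type*} [Field k] [Finite k] [CharP k p]

theorem exists_field {ρ : Gp p →* Matrix (Fin 2) (Fin 2) k} (j : k →+* KK p)
    (M : Matrix (Fin 2) (Fin 2) (KK p)) (hM : M.det ≠ 0)
    (hd : ∀ τ ∈ II p, j.mapMatrix (ρ τ) * M = M * !![tc (wp p) τ, 0; 0, tc (wp p) τ ^ p]) :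
    ∃ (E : Type) (_ : Field E) (_ : Finite E) (ι : E →+* KK p) (jE : k →+* E)
      (N N' : Matrix (Fin 2) (Fin 2) E) (th : Gp p → E),
      N * N' = 1 ∧ N' * N = 1 ∧ (∀ τ ∈ II p, ι (th τ) = tc (wp p) τ) ∧
      ∀ τ ∈ II p, N' * jE.mapMatrix (ρ τ) * N = !![th τ, 0; 0, th τ ^ p] := by
  obtain ⟨m, hm0, hm2, hm⟩ := exists_common (p := p)
    (Sum.elim (fun x : k => j x) (fun ij : Fin 2 × Fin 2 => M ij.1 ij.2))
  have hfin := finite_FF' (l := p) hm0
  let E := FF' p m
  let ι : E →+* KK p := E.subtype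
  have hι : Function.Injective ι := Subtype.val_injective
  let jE : k →+* E := j.codRestrict E fun x => hm (Sum.inl x)
  have hjE : ∀ A : Matrix (Fin 2) (Fin 2) k, ι.mapMatrix (jE.mapMatrix A) = j.mapMatrix A := fun A => rfl
  let N : Matrix (Fin 2) (Fin 2) E := Matrix.of fun a b => ⟨M a b, hm (Sum.inr (a, b))⟩
  have hN : ι.mapMatrix N = M := rfl
  let th : Gp p → E := fun g => ⟨tc (wp p) g, FF'_le hm2 (th_mem g)⟩
  have hinj : Function.Injective (fun A : Matrix (Fin 2) (Fin 2) E => ι.mapMatrix A) := by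
    intro A B hAB
    ext a b
    exact congrArg (fun X : Matrix (Fin 2) (Fin 2) (KK p) => X a b) hAB
  have hdet : IsUnit N.det := by
    rw [isUnit_iff_ne_zero]
    intro h
    apply hM
    rw [← hN, ← RingHom.map_det, h, map_zero]
  refine ⟨E, inferInstance, hfin, ι, jE, N, N⁻¹, th, Matrix.mul_nonsing_inv _ hdet,
    Matrix.nonsing_inv_mul _ hdet, fun τ _ => rfl, fun τ hτ => ?_⟩
  have h1 : jE.mapMatrix (ρ τ) * N = N * !![th τ, 0; 0, th τ ^ p] := by
    apply hinj
    change ι.mapMatrix _ = ι.mapMatrix _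
    rw [map_mul, map_mul, hjE, hN, hd τ hτ]
    congr 1
    ext a b
    fin_cases a <;> fin_cases b <;> simp [th, ι]
  rw [mul_assoc, h1, ← mul_assoc, Matrix.nonsing_inv_mul _ hdet, one_mul]

/-! ### choice of functionals -/

theorem exists_sep {E : Type*} [Field E] {V : Type*} [AddCommGroup V] [Module E V]
    [FiniteDimensional E V] {I : Type*} [Nonempty I] (n : ℕ) :
    ∀ (W : Submodule E V), finrank E W ≤ n → ∀ (f : I → V →ₗ[E] E),
      (∀ v ∈ W, (∀ i, f i v = 0) → v = 0) →
      ∃ s : Fin n → I, ∀ v ∈ W, (∀ l, f (s l) v = 0) → v = 0 := by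
  induction n with
  | zero =>
    intro W hW f _
    refine ⟨Fin.elim0, fun v hv _ => ?_⟩
    have h1 : W = ⊥ := Submodule.finrank_eq_zero.mp (Nat.le_zero.mp hW)
    rwa [h1, Submodule.mem_bot] at hv
  | succ n ih =>
    intro W hW f hf
    by_cases h0 : W = ⊥
    · refine ⟨fun _ => Classical.arbitrary I, fun v hv _ => ?_⟩
      rwa [h0, Submodule.mem_bot] at hv
    · obtain ⟨v, hv, hv0⟩ := Submodule.exists_mem_ne_zero_of_ne_bot h0
      obtain ⟨i, hi⟩ : ∃ i, f i v ≠ 0 := by
        by_contra hne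
        push Not at hne
        exact hv0 (hf v hv hne)
      have hlt : W ⊓ LinearMap.ker (f i) < W := by
        refine lt_of_le_of_ne inf_le_left fun h => hi ?_
        have h1 : v ∈ W ⊓ LinearMap.ker (f i) := by rw [h]; exact hv
        exact h1.2
      have h1 := Submodule.finrank_lt_finrank_of_lt hlt
      obtain ⟨s, hs⟩ := ih (W ⊓ LinearMap.ker (f i)) (by omega) f (fun v hv => hf v hv.1)
      refine ⟨Fin.cons i s, fun v hv h => ?_⟩
      have h2 := h 0
      rw [Fin.cons_zero] at h2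
      refine hs v ⟨hv, h2⟩ fun l => ?_
      have h3 := h l.succ
      rwa [Fin.cons_succ] at h3

/-! ### the main theorem -/

variable {S : Type*} [CommRing S] [Algebra S (PadicAlgCl p)]

variable (S) in
/-- the deformation given by a cocycle is realized by a finite flat group scheme -/
def FlC (ρ : Gp p →* Matrix (Fin 2) (Fin 2) k) (c : Gp p → Matrix (Fin 2) (Fin 2) k) : Prop :=
  ∃ (H : Type) (_ : CommRing H) (_ : HopfAlgebra S H) (_ : Module.Free S H)
    (_ : Module.Finite S H) (_ : IsCocomm S H)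
    (P : ((Fin 2 → k) × (Fin 2 → k)) → (H →ₐ[S] PadicAlgCl p)), PtsOf P ∧
    ∀ g v w h, g (P (v, w) h) = P (ρ g *ᵥ v, (c g * ρ g) *ᵥ v + ρ g *ᵥ w) h

/-- **Flat cocycles are determined by four entries.** -/
theorem exists_functionals (hp2 : p ≠ 2)
    (hS1 : ∀ s : S, ‖algebraMap S (PadicAlgCl p) s‖ ≤ 1)
    (hS2 : ∀ (g : Gp p) (s : S),
      g (algebraMap S (PadicAlgCl p) s) = algebraMap S (PadicAlgCl p) s)
    (ρ : Gp p →* Matrix (Fin 2) (Fin 2) k)
    (hirr : ∀ W : Submodule k (Fin 2 → k), (∀ g, ∀ v ∈ W, ρ g *ᵥ v ∈ W) → W = ⊥ ∨ W = ⊤)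
    (hdet : ∀ (g : Gp p) (m : ℕ), g (zp p) = zp p ^ m → (ρ g).det = (m : k)) :
    ∃ (σ : Fin 4 → Gp p) (i j : Fin 4 → Fin 2), ∀ c : Gp p → Matrix (Fin 2) (Fin 2) k,
      (∀ g h, c (g * h) = c g + ρ g * c h * ρ g⁻¹) → (∀ g, c g 1 1 = - c g 0 0) →
      FlC S ρ c → (∀ l, c (σ l) (i l) (j l) = 0) → c = 0 := by
  by_cases hex : ∃ c : Gp p → Matrix (Fin 2) (Fin 2) k,
      (∀ g h, c (g * h) = c g + ρ g * c h * ρ g⁻¹) ∧ (∀ g, c g 1 1 = - c g 0 0) ∧ FlC S ρ c
  swap
  · exact ⟨fun _ => 1, fun _ => 0, fun _ => 0, fun c h1 h2 h3 => absurd ⟨c, h1, h2, h3⟩ hex⟩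
  obtain ⟨c₀, -, -, H, _, _, _, _, _, P, hP, hE⟩ := hex
  have hP₀ : PtsOf (fun w : Fin 2 → k => P (0, w)) :=
    { zero := hP.zero
      add := fun v w => by
        rw [← hP.add]
        congr 2
        rw [Prod.mk_add_mk, add_zero]
      inj := fun v w h => congrArg Prod.snd (hP.inj h) }
  obtain ⟨j, M, hM, hd⟩ := exists_diag hS1 hS2 hp2 hP₀ (fun g v h => by
    rw [hE, mulVec_zero, mulVec_zero, zero_add]) hirr hdet
  obtain ⟨E, _, _, ι, jE, N, N', th, hNN', hN'N, hth, hdE⟩ := exists_field j M hM hd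
  -- the representation over `E`
  let cnj : Matrix (Fin 2) (Fin 2) k →+ Matrix (Fin 2) (Fin 2) E :=
    { toFun := fun X => N' * jE.mapMatrix X * N
      map_zero' := by rw [map_zero, mul_zero, zero_mul]
      map_add' := fun X Y => by rw [map_add, mul_add, add_mul] }
  have hcnj : ∀ X, cnj X = N' * jE.mapMatrix X * N := fun _ => rfl
  have hcnj1 : cnj 1 = 1 := by rw [hcnj, map_one, mul_one, hN'N]
  have hcnjm : ∀ X Y, cnj (X * Y) = cnj X * cnj Y := by
    intro X Y
    rw [hcnj, hcnj, hcnj, map_mul]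
    calc N' * (jE.mapMatrix X * jE.mapMatrix Y) * N =
        N' * jE.mapMatrix X * 1 * (jE.mapMatrix Y * N) := by rw [mul_one]; simp only [mul_assoc]
      _ = _ := by rw [← hNN']; simp only [mul_assoc]
  have hcnjb : ∀ X, N * cnj X * N' = jE.mapMatrix X := by
    intro X
    rw [hcnj]
    calc N * (N' * jE.mapMatrix X * N) * N' = (N * N') * jE.mapMatrix X * (N * N') := by
          simp only [mul_assoc]
      _ = _ := by rw [hNN', one_mul, mul_one]
  have hjinj : ∀ X Y : Matrix (Fin 2) (Fin 2) k, jE.mapMatrix X = jE.mapMatrix Y → X = Y := by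
    intro X Y hXY
    ext a b
    exact jE.injective (congrArg (fun X : Matrix (Fin 2) (Fin 2) E => X a b) hXY)
  have hcnjinj : ∀ X Y, cnj X = cnj Y → X = Y := fun X Y hXY =>
    hjinj X Y (by rw [← hcnjb, ← hcnjb, hXY])
  let ρE : Gp p →* Matrix (Fin 2) (Fin 2) E :=
    { toFun := fun g => cnj (ρ g)
      map_one' := by rw [map_one, hcnj1]
      map_mul' := fun g h => by rw [map_mul, hcnjm] }
  have hρE : ∀ τ ∈ II p, ρE τ = !![th τ, 0; 0, th τ ^ p] := hdE
  have hth1 : ∀ τ ∈ II p, ρ τ = 1 → th τ = 1 := by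
    intro τ hτ h
    have h1 := hρE τ hτ
    change cnj (ρ τ) = _ at h1
    rw [h, hcnj1] at h1
    exact (congrArg (fun X : Matrix (Fin 2) (Fin 2) E => X 0 0) h1).symm
  have hθ : ∀ g ∈ II p, ρ g = 1 → g (wp p) = wp p := by
    intro g hg h
    rw [← th_eq_one_iff, ← hth g hg, hth1 g hg h, map_one]
  have hρK : ∀ g ∈ GK p, ρ g = 1 := by
    intro g hg
    have h1 : th g = 1 := by
      apply ι.injective
      rw [hth g hg.1, map_one, th_eq_one_iff]
      exact hg.2
    apply hcnjinj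
    have h2 := hρE g hg.1
    change cnj (ρ g) = _ at h2
    rw [h2, hcnj1, h1, one_pow]
    exact (Matrix.one_fin_two).symm
  obtain ⟨τ, hτ, φ, h₀, hfour⟩ := exists_four ι ρE th hth hρE hp2
  -- the space of flat cocycles over `E`
  let Z : Submodule E (Gp p → Matrix (Fin 2) (Fin 2) E) :=
    { carrier := {c | Cc ρE c}
      add_mem' := fun ha hb => ha.add hb
      zero_mem' := Cc.zero
      smul_mem' := fun x c hc => hc.smul x }
  let F : Z →ₗ[E] (Fin 4 → E) :=
    { toFun := fun c => ![c.1 τ 1 0, c.1 τ 0 1, c.1 φ 0 0, c.1 h₀ 1 0]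
      map_add' := fun a b => by
        ext l
        fin_cases l <;> rfl
      map_smul' := fun x a => by
        ext l
        fin_cases l <;> rfl }
  have hF : Function.Injective F := by
    rw [injective_iff_map_eq_zero]
    intro c hc
    apply Subtype.ext
    exact hfour c.1 c.2 (congrFun hc 0) (congrFun hc 1) (congrFun hc 2) (congrFun hc 3)
  have hfd : FiniteDimensional E Z := FiniteDimensional.of_injective F hF
  have hdim : finrank E Z ≤ 4 := by
    have h1 := LinearMap.finrank_le_finrank_of_injective hF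
    rwa [finrank_fin_fun] at h1
  let f : Gp p × Fin 2 × Fin 2 → Z →ₗ[E] E := fun x =>
    { toFun := fun c => (N * c.1 x.1 * N') x.2.1 x.2.2
      map_add' := fun a b => by
        change (N * (a.1 x.1 + b.1 x.1) * N') x.2.1 x.2.2 = _
        rw [mul_add, add_mul, Matrix.add_apply]
      map_smul' := fun e a => by
        change (N * (e • a.1 x.1) * N') x.2.1 x.2.2 = _
        rw [mul_smul_comm, smul_mul_assoc, Matrix.smul_apply]
        rfl }
  obtain ⟨s, hs⟩ := exists_sep 4 (⊤ : Submodule E Z) (by rwa [finrank_top]) f (by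
    intro c _ hc
    apply Subtype.ext
    funext g
    have h1 : N * c.1 g * N' = 0 := by
      ext a b
      exact hc (g, a, b)
    have h2 : c.1 g = N' * (N * c.1 g * N') * N := by
      calc c.1 g = 1 * c.1 g * 1 := by rw [one_mul, mul_one]
        _ = _ := by rw [← hN'N]; simp only [mul_assoc]
    rw [h2, h1, mul_zero, zero_mul]
    rfl)
  refine ⟨fun l => (s l).1, fun l => (s l).2.1, fun l => (s l).2.2, ?_⟩
  rintro c hcoc htr ⟨H, _, _, _, _, _, P, hP, hE⟩ hc
  have hCc : Cc ρE (fun g => cnj (c g)) :=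
    { coc := fun g h => by
        rw [hcoc, map_add, hcnjm, hcnjm]
        rfl
      tr := fun g => by
        have h1 : (cnj (c g)).trace = 0 := by
          rw [hcnj, Matrix.trace_mul_cycle, hNN', one_mul, Matrix.trace_fin_two]
          change jE (c g 0 0) + jE (c g 1 1) = 0
          rw [htr, map_neg, add_neg_cancel]
        rw [Matrix.trace_fin_two] at h1
        exact (eq_neg_of_add_eq_zero_right h1)
      cont := by
        obtain ⟨D, hDo, -, -, hDr⟩ := exists_D hS2 hP hE
        exact ⟨D, hDo, fun u hu => by rw [(hDr u hu).2, map_zero]⟩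
      good := fun a b Λ => by
        let Λ' : Matrix (Fin 2) (Fin 2) k →+ ZMod p :=
          { toFun := fun X => Λ (cnj X a b)
            map_zero' := by rw [map_zero, Matrix.zero_apply, map_zero]
            map_add' := fun X Y => by rw [map_add, Matrix.add_apply, map_add] }
        exact exists_good hS1 hS2 hp2 hP hE hcoc hθ hρK Λ' }
  have h1 := hs ⟨_, hCc⟩ trivial fun l => by
    change (N * cnj (c (s l).1) * N') (s l).2.1 (s l).2.2 = 0
    rw [hcnjb]
    change jE (c (s l).1 (s l).2.1 (s l).2.2) = 0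
    rw [hc l, map_zero]
  funext g
  apply hcnjinj
  rw [Pi.zero_apply, map_zero]
  exact congrFun (congrArg Subtype.val h1) g

end Fermat.Agent.FB
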