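import Fermat.Agent.FB.Coset

/-!
# Generation of the ring of integers by a uniformizer
-/

set_option autoImplicit false
set_option linter.unusedSectionVars false

namespace Fermat.Agent.FB

open Polynomial Module

section ultra

variable {L : Type*} [NormedField L] [IsUltrametricDist L]

theorem norm_le_norm_sum {ι : Type*} (s : Finset ι) (x : ι → L)
    (h : ∀ i ∈ s, ∀ j ∈ s, i ≠ j → x i ≠ 0 → x j ≠ 0 → ‖x i‖ ≠ ‖x j‖) :
    ∀ i ∈ s, ‖x i‖ ≤ ‖∑ j ∈ s, x j‖ := by
  classical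
  intro i hi
  obtain ⟨i₀, hi₀, hmax⟩ := Finset.exists_max_image s (fun i => ‖x i‖) ⟨i, hi⟩
  by_cases h0 : x i₀ = 0
  · have := hmax i hi
    simp only [h0, norm_zero] at this
    exact this.trans (norm_nonneg _)
  have hpos : 0 < ‖x i₀‖ := norm_pos_iff.mpr h0
  have hlt : ∀ j ∈ s.erase i₀, ‖x j‖ < ‖x i₀‖ := by
    intro j hj
    rw [Finset.mem_erase] at hj
    by_cases hj0 : x j = 0
    · rw [hj0, norm_zero]
      exact hpos
    · exact lt_of_le_of_ne (hmax j hj.2) (h j hj.2 i₀ hi₀ hj.1 hj0 h0)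
  have h1 : ‖∑ j ∈ s.erase i₀, x j‖ < ‖x i₀‖ := by
    rcases (s.erase i₀).eq_empty_or_nonempty with he | hn
    · rw [he, Finset.sum_empty, norm_zero]
      exact hpos
    · obtain ⟨j, hj, hle⟩ := IsUltrametricDist.exists_norm_finsetSum_le_of_nonempty hn x
      exact hle.trans_lt (hlt j hj)
  have h2 : ‖∑ j ∈ s, x j‖ = ‖x i₀‖ := by
    rw [← Finset.add_sum_erase _ _ hi₀]
    rw [IsUltrametricDist.norm_add_eq_max_of_norm_ne_norm h1.ne', max_eq_left h1.le]
  rw [h2]
  exact hmax i hi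

end ultra

section gen

variable {L : Type*} [NormedField L] [IsUltrametricDist L]
  {G : Type*} [Group G] [Fintype G] [MulSemiringAction G L] [FaithfulSMul G L]

theorem norm_mul_pow_pow {π : ℝ} (hπ0 : 0 < π) {α : L} {n : ℕ} (hα : ‖α‖ ^ n = π)
    {a : L} {k : ℤ} (hk : ‖a‖ = π ^ k) (i : ℕ) : ‖a * α ^ i‖ ^ n = π ^ (k * n + i) := by
  rw [norm_mul, norm_pow, mul_pow, hk, ← pow_mul ‖α‖, mul_comm i, pow_mul, hα,
    zpow_add₀ hπ0.ne', zpow_mul, zpow_natCast, zpow_natCast]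

/-- expansion in powers of a uniformizer -/
theorem exists_expansion {π : ℝ} (hπ0 : 0 < π) (hπ1 : π < 1)
    {α : L} (hα : ‖α‖ ^ Fintype.card G = π)
    (hF : ∀ a : L, (∀ g : G, g • a = a) → a ≠ 0 → ∃ k : ℤ, ‖a‖ = π ^ k) (y : L) :
    ∃ a : Fin (Fintype.card G) → L, (∀ i (g : G), g • a i = a i) ∧
      (∀ i, ‖a i * α ^ (i : ℕ)‖ ≤ ‖y‖) ∧ ∑ i, a i * α ^ (i : ℕ) = y := by
  set n := Fintype.card G with hn
  have hn0 : 0 < n := Fintype.card_pos
  have hα0 : α ≠ 0 := by
    rintro rfl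
    rw [norm_zero, zero_pow hn0.ne'] at hα
    exact hπ0.ne hα
  have hdist : ∀ a : Fin n → L, (∀ i (g : G), g • a i = a i) →
      ∀ j, ‖a j * α ^ (j : ℕ)‖ ≤ ‖∑ i, a i * α ^ (i : ℕ)‖ := by
    intro a ha j
    refine norm_le_norm_sum Finset.univ (fun i : Fin n => a i * α ^ (i : ℕ)) ?_ j
      (Finset.mem_univ _)
    intro i _ j _ hij hi hj he
    apply hij
    have hai : a i ≠ 0 := left_ne_zero_of_mul hi
    have haj : a j ≠ 0 := left_ne_zero_of_mul hj
    obtain ⟨k, hk⟩ := hF (a i) (ha i) hai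
    obtain ⟨k', hk'⟩ := hF (a j) (ha j) haj
    have h1 : ‖a i * α ^ (i : ℕ)‖ ^ n = ‖a j * α ^ (j : ℕ)‖ ^ n := by rw [he]
    rw [norm_mul_pow_pow hπ0 hα hk, norm_mul_pow_pow hπ0 hα hk'] at h1
    have h2 := zpow_right_injective₀ hπ0 hπ1.ne h1
    have hi2 := i.2
    have hj2 := j.2
    apply Fin.ext
    have h3 : ((i : ℕ) : ℤ) % n = ((j : ℕ) : ℤ) % n := by
      apply Int.emod_emod_of_dvd _ (dvd_refl (n : ℤ)) |>.symm.trans
      rw [Int.emod_emod_of_dvd _ (dvd_refl (n : ℤ))]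
      apply Int.ModEq.symm
      rw [Int.modEq_iff_dvd]
      refine ⟨k' - k, ?_⟩
      linarith
    rw [Int.emod_eq_of_lt (by positivity) (by exact_mod_cast hi2),
      Int.emod_eq_of_lt (by positivity) (by exact_mod_cast hj2)] at h3
    exact_mod_cast h3
  let F := FixedPoints.subfield G L
  have hmemF : ∀ a : F, ∀ g : G, g • (a : L) = a := fun a g => a.2 g
  let v : Fin n → L := fun i => α ^ (i : ℕ)
  have hv : LinearIndependent F v := by
    rw [Fintype.linearIndependent_iff]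
    intro g hg i
    have h1 := hdist (fun i => (g i : L)) (fun i σ => hmemF (g i) σ) i
    have h2 : ∑ i, (g i : L) * α ^ (i : ℕ) = 0 := hg
    rw [h2, norm_zero, norm_le_zero_iff, mul_eq_zero] at h1
    exact Subtype.ext (h1.resolve_right (pow_ne_zero _ hα0))
  have hfr : finrank F L = n := FixedPoints.finrank_eq_card G L
  have : Nonempty (Fin n) := ⟨⟨0, hn0⟩⟩
  let b := basisOfLinearIndependentOfCardEqFinrank hv (by rw [Fintype.card_fin, hfr])
  refine ⟨fun i => (b.repr y i : L), fun i g => hmemF _ g, ?_, ?_⟩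
  · have hsum : ∑ i, (b.repr y i : L) * α ^ (i : ℕ) = y := by
      have := b.sum_repr y
      conv_rhs => rw [← this]
      refine Finset.sum_congr rfl fun i _ => ?_
      rw [coe_basisOfLinearIndependentOfCardEqFinrank]
      rfl
    intro i
    have := hdist (fun i => (b.repr y i : L)) (fun i g => hmemF _ g) i
    rwa [hsum] at this
  · have := b.sum_repr y
    conv_rhs => rw [← this]
    refine Finset.sum_congr rfl fun i _ => ?_
    rw [coe_basisOfLinearIndependentOfCardEqFinrank]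
    rfl

/-- the ring of integers is generated by a uniformizer -/
theorem exists_gen {π : ℝ} (hπ0 : 0 < π) (hπ1 : π < 1)
    {α : L} (hα : ‖α‖ ^ Fintype.card G = π)
    (hF : ∀ a : L, (∀ g : G, g • a = a) → a ≠ 0 → ∃ k : ℤ, ‖a‖ = π ^ k) (y : L) (hy : ‖y‖ ≤ 1) :
    ∃ g : L[X], (∀ i (σ : G), σ • g.coeff i = g.coeff i) ∧
      (∀ i, ‖g.coeff i‖ ≤ 1) ∧ g.eval α = y := by
  obtain ⟨a, ha1, ha2, ha3⟩ := exists_expansion hπ0 hπ1 hα hF y
  have ha4 : ∀ i, ‖a i‖ ≤ 1 := by
    intro i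
    by_cases h0 : a i = 0
    · rw [h0, norm_zero]
      exact zero_le_one
    obtain ⟨k, hk⟩ := hF (a i) (ha1 i) h0
    have h1 : ‖a i * α ^ (i : ℕ)‖ ^ Fintype.card G ≤ 1 :=
      pow_le_one₀ (norm_nonneg _) ((ha2 i).trans hy)
    rw [norm_mul_pow_pow hπ0 hα hk] at h1
    have h2 : 0 ≤ k * (Fintype.card G : ℤ) + ((i : ℕ) : ℤ) := by
      by_contra hlt
      push Not at hlt
      have := one_lt_zpow_of_neg₀ hπ0 hπ1 hlt
      linarith
    have h3 : 0 ≤ k := by
      by_contra hlt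
      push Not at hlt
      have hi := i.2
      have h4 : k * (Fintype.card G : ℤ) ≤ -1 * (Fintype.card G : ℤ) :=
        mul_le_mul_of_nonneg_right (by omega) (by positivity)
      have h5 : (((i : ℕ) : ℤ)) < Fintype.card G := by exact_mod_cast hi
      linarith
    rw [hk]
    exact zpow_le_one₀ hπ0 hπ1.le h3
  refine ⟨∑ i, C (a i) * X ^ (i : ℕ), ?_, ?_, ?_⟩
  · intro j σ
    rw [finsetSum_coeff, Finset.smul_sum]
    refine Finset.sum_congr rfl fun i _ => ?_
    rw [coeff_C_mul, coeff_X_pow]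
    split_ifs
    · rw [mul_one, ha1]
    · rw [mul_zero, smul_zero]
  · intro j
    rw [finsetSum_coeff]
    refine IsUltrametricDist.norm_sum_le_of_forall_le_of_nonneg zero_le_one fun i _ => ?_
    rw [coeff_C_mul, coeff_X_pow]
    split_ifs
    · rw [mul_one]
      exact ha4 i
    · rw [mul_zero, norm_zero]
      exact zero_le_one
  · rw [eval_finsetSum, ← ha3]
    refine Finset.sum_congr rfl fun i _ => ?_
    rw [eval_mul, eval_C, eval_pow, eval_X]

end gen

end Fermat.Agent.FB
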