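import Fermat.Agent.LocalCFT.Unram
import Fermat.Agent.FB.Gen

/-!
# The inertia group of `ℚ_p`, residues and tame characters
-/

set_option autoImplicit false
set_option linter.unusedSectionVars false

namespace Fermat.Agent.FB

open Fermat.Agent.Coh Fermat.Agent.GalD Fermat.Agent.LocalCFT Module IntermediateField

variable {p : ℕ} [hp : Fact p.Prime]

/-- the local Galois group -/
abbrev Gp (p : ℕ) [hp : Fact p.Prime] : Type := Gal(PadicAlgCl p/ℚ_[p])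

theorem isOpen_iff {U : Subgroup (Gp p)} : (LF p).IsOpen U ↔ IsOpen (U : Set (Gp p)) := by
  constructor
  · rintro ⟨_, ⟨K, h1, h2, rfl⟩, hKU⟩
    exact Subgroup.isOpen_mono hKU K.fixingSubgroup_isOpen
  · intro h
    obtain ⟨E, h1, h2, h3⟩ := (krullTopology_mem_nhds_one_iff_of_normal _ _ _).mp
      (h.mem_nhds U.one_mem)
    exact ⟨_, ⟨E, h1, h2, rfl⟩, h3⟩

/-- stabilizers -/
def stb (x : PadicAlgCl p) : Subgroup (Gp p) where
  carrier := {g | g x = x}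
  mul_mem' := fun {a b} ha hb => by
    change a (b x) = x
    rw [hb, ha]
  one_mem' := rfl
  inv_mem' := fun {a} ha => by
    change a.symm x = x
    rw [AlgEquiv.symm_apply_eq]
    exact ha.symm

theorem mem_stb {x : PadicAlgCl p} {g : Gp p} : g ∈ stb x ↔ g x = x := Iff.rfl

theorem isOpen_stb (x : PadicAlgCl p) : IsOpen (stb x : Set (Gp p)) := by
  have hint : IsIntegral ℚ_[p] x := Algebra.IsIntegral.isIntegral x
  have := adjoin.finiteDimensional hint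
  refine Subgroup.isOpen_mono (H₁ := ℚ_[p]⟮x⟯.fixingSubgroup) ?_
    (IntermediateField.fixingSubgroup_isOpen _)
  intro g hg
  exact hg ⟨x, mem_adjoin_simple_self _ x⟩

/-! ### residues -/

open Classical in
/-- the residue of an element -/
noncomputable def rdd (z : PadicAlgCl p) : KK p :=
  if h : ‖z‖ ≤ 1 then rd ⟨z, mem_OO.mpr h⟩ else 0

theorem rdd_of_le {z : PadicAlgCl p} (h : ‖z‖ ≤ 1) : rdd z = rd ⟨z, mem_OO.mpr h⟩ := dif_pos h

theorem rdd_eq_iff {x y : PadicAlgCl p} (hx : ‖x‖ ≤ 1) (hy : ‖y‖ ≤ 1) :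
    rdd x = rdd y ↔ ‖x - y‖ < 1 := by
  rw [rdd_of_le hx, rdd_of_le hy, rd_eq_iff]

theorem rdd_eq_zero_iff {x : PadicAlgCl p} (hx : ‖x‖ ≤ 1) : rdd x = 0 ↔ ‖x‖ < 1 := by
  rw [rdd_of_le hx, rd_eq_zero_iff]

theorem rdd_ne_zero {x : PadicAlgCl p} (hx : ‖x‖ = 1) : rdd x ≠ 0 := by
  rw [Ne, rdd_eq_zero_iff hx.le, hx]
  exact lt_irrefl _

theorem rdd_mul {x y : PadicAlgCl p} (hx : ‖x‖ ≤ 1) (hy : ‖y‖ ≤ 1) :
    rdd (x * y) = rdd x * rdd y := by
  have hxy : ‖x * y‖ ≤ 1 := by rw [norm_mul]; exact mul_le_one₀ hx (norm_nonneg _) hy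
  rw [rdd_of_le hx, rdd_of_le hy, rdd_of_le hxy, ← map_mul]
  rfl

theorem rdd_add {x y : PadicAlgCl p} (hx : ‖x‖ ≤ 1) (hy : ‖y‖ ≤ 1) :
    rdd (x + y) = rdd x + rdd y := by
  have hxy : ‖x + y‖ ≤ 1 := (IsUltrametricDist.norm_add_le_max x y).trans (max_le hx hy)
  rw [rdd_of_le hx, rdd_of_le hy, rdd_of_le hxy, ← map_add]
  rfl

theorem rdd_neg {x : PadicAlgCl p} (hx : ‖x‖ ≤ 1) : rdd (-x) = -rdd x := by
  have hx' : ‖-x‖ ≤ 1 := by rwa [norm_neg]
  rw [rdd_of_le hx, rdd_of_le hx', ← map_neg]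
  rfl

theorem rdd_sub {x y : PadicAlgCl p} (hx : ‖x‖ ≤ 1) (hy : ‖y‖ ≤ 1) :
    rdd (x - y) = rdd x - rdd y := by
  rw [sub_eq_add_neg, rdd_add hx (by rwa [norm_neg]), rdd_neg hy, sub_eq_add_neg]

theorem rdd_one : rdd (1 : PadicAlgCl p) = 1 := by
  rw [rdd_of_le (by rw [norm_one])]
  exact map_one _

theorem rdd_zero : rdd (0 : PadicAlgCl p) = 0 := by
  rw [rdd_eq_zero_iff (by rw [norm_zero]; exact zero_le_one), norm_zero]
  exact zero_lt_one

theorem rdd_pow {x : PadicAlgCl p} (hx : ‖x‖ ≤ 1) (n : ℕ) : rdd (x ^ n) = rdd x ^ n := by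
  induction n with
  | zero => rw [pow_zero, pow_zero, rdd_one]
  | succ n ih =>
    rw [pow_succ, rdd_mul (by rw [norm_pow]; exact pow_le_one₀ (norm_nonneg _) hx) hx, ih,
      pow_succ]

theorem rdd_div {x y : PadicAlgCl p} (hx : ‖x‖ ≤ 1) (hy : ‖y‖ = 1) :
    rdd (x / y) = rdd x / rdd y := by
  have hy0 : y ≠ 0 := norm_ne_zero_iff.mp (by rw [hy]; exact one_ne_zero)
  rw [eq_div_iff (rdd_ne_zero hy), ← rdd_mul (by rw [norm_div, hy, div_one]; exact hx) hy.le,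
    div_mul_cancel₀ _ hy0]

theorem rdd_gal (g : Gp p) {x : PadicAlgCl p} (hx : ‖x‖ ≤ 1) : rdd (g x) = gbar g (rdd x) := by
  have hx' : ‖g x‖ ≤ 1 := by rwa [norm_gal]
  rw [rdd_of_le hx, rdd_of_le hx', gbar_rd]
  rfl

theorem exists_rdd (y : KK p) : ∃ z : PadicAlgCl p, ‖z‖ ≤ 1 ∧ rdd z = y := by
  obtain ⟨x, rfl⟩ := rd_surjective y
  exact ⟨x, mem_OO.mp x.2, rdd_of_le (mem_OO.mp x.2)⟩

theorem exists_mem_FF' (y : KK p) : ∃ m ≠ 0, y ∈ FF' p m := by
  obtain ⟨x, rfl⟩ := rd_surjective y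
  have hU : (LF p).IsOpen (stb (x : PadicAlgCl p)) := isOpen_iff.mpr (isOpen_stb _)
  refine ⟨fdeg (stb (x : PadicAlgCl p)), (exists_unif_fdeg hU).1.ne', ?_⟩
  rw [← kap_eq hU]
  exact ⟨x, mem_fld.mpr fun g hg => hg, rfl⟩

/-! ### inertia -/

variable (p) in
/-- the inertia group -/
def II : Subgroup (Gp p) where
  carrier := {g | ∀ y : KK p, gbar g y = y}
  mul_mem' := fun {a b} ha hb y => by rw [gbar_mul, hb, ha]
  one_mem' := fun y => by
    obtain ⟨x, rfl⟩ := rd_surjective y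
    rfl
  inv_mem' := fun {a} ha y => by
    have h1 := gbar_mul a⁻¹ a y
    rw [ha, inv_mul_cancel] at h1
    rw [← h1]
    obtain ⟨x, rfl⟩ := rd_surjective y
    rfl

theorem mem_II {g : Gp p} : g ∈ II p ↔ ∀ y : KK p, gbar g y = y := Iff.rfl

variable (p) in
/-- the open subgroups containing inertia -/
def TT (m : ℕ) : Subgroup (Gp p) where
  carrier := {g | ∀ y ∈ FF' p m, gbar g y = y}
  mul_mem' := fun {a b} ha hb y hy => by rw [gbar_mul, hb y hy, ha y hy]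
  one_mem' := fun y _ => (II p).one_mem y
  inv_mem' := fun {a} ha y hy => by
    have h1 := gbar_mul a⁻¹ a y
    rw [ha y hy, inv_mul_cancel] at h1
    rw [← h1]
    exact (II p).one_mem y

theorem mem_TT {m : ℕ} {g : Gp p} : g ∈ TT p m ↔ ∀ y ∈ FF' p m, gbar g y = y := Iff.rfl

theorem II_le_TT (m : ℕ) : II p ≤ TT p m := fun _ hg y _ => hg y

theorem TT_anti {m n : ℕ} (h : m ∣ n) : TT p n ≤ TT p m := fun _ hg y hy => hg y (FF'_le h hy)

theorem mem_II_of_TT {g : Gp p} (h : ∀ m ≠ 0, g ∈ TT p m) : g ∈ II p := fun y => by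
  obtain ⟨m, hm, hy⟩ := exists_mem_FF' y
  exact h m hm y hy

theorem gbar_conj (g u : Gp p) (y : KK p) :
    gbar (g * u * g⁻¹) y = gbar g (gbar u (gbar g⁻¹ y)) := by
  rw [gbar_mul, gbar_mul]

theorem gbar_inv_cancel (g : Gp p) (y : KK p) : gbar g (gbar g⁻¹ y) = y := by
  rw [← gbar_mul, mul_inv_cancel]
  exact (II p).one_mem y

instance normal_II : (II p).Normal where
  conj_mem u hu g y := by rw [gbar_conj, hu, gbar_inv_cancel]

instance normal_TT (m : ℕ) : (TT p m).Normal where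
  conj_mem u hu g y hy := by rw [gbar_conj, hu _ (gbar_mem _ hy), gbar_inv_cancel]

theorem TT_root {m : ℕ} (hm : m ≠ 0) {g : Gp p} (hg : g ∈ TT p m) {u : PadicAlgCl p}
    (hu : u ^ (p ^ m - 1) = 1) : g u = u := by
  have hN := (pow_sub_one_pos (l := p) hm).ne'
  have hun : ‖u‖ = 1 := norm_of_pow_eq_one hN hu
  have hu0 : u ≠ 0 := norm_ne_zero_iff.mp (by rw [hun]; exact one_ne_zero)
  have h1 : rdd u ∈ FF' p m := by
    rw [mem_FF', ← Nat.sub_add_cancel (Nat.one_le_pow m p hp.out.pos), pow_succ, ← rdd_pow hun.le,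
      hu, rdd_one, one_mul]
  have h2 : rdd (g u) = rdd u := by rw [rdd_gal g hun.le, hg _ h1]
  rw [rdd_eq_iff (by rw [norm_gal]; exact hun.le) hun.le] at h2
  have h3 : g u / u = 1 := by
    apply eq_one_of_pow (coprime_pow_sub_one (l := p) hm)
    · rw [div_pow, ← map_pow, hu, map_one, div_one]
    · rw [div_sub_one hu0, norm_div, hun, div_one]
      exact h2
  exact (div_eq_one_iff_eq hu0).mp h3

theorem mem_TT_of_primitive {m : ℕ} (hm : m ≠ 0) {z : PadicAlgCl p}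
    (hz : IsPrimitiveRoot z (p ^ m - 1)) {g : Gp p} (hg : g z = z) : g ∈ TT p m := by
  intro y hy
  by_cases h0 : y = 0
  · rw [h0, map_zero]
  obtain ⟨w, hw, rfl⟩ := exists_teich hm y hy h0
  have hN : NeZero (p ^ m - 1) := ⟨(pow_sub_one_pos (l := p) hm).ne'⟩
  obtain ⟨i, hi, hi2⟩ := hz.eq_pow_of_pow_eq_one hw
  rw [gbar_rd]
  congr 1
  apply Subtype.ext
  rw [coe_gOO, ← hi2, map_pow, hg]

theorem isOpen_TT {m : ℕ} (hm : m ≠ 0) : IsOpen (TT p m : Set (Gp p)) := by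
  obtain ⟨z, hz⟩ := exists_primitive (l := p) hm
  exact Subgroup.isOpen_mono (fun g hg => mem_TT_of_primitive hm hz hg) (isOpen_stb z)

theorem II_root {N : ℕ} (hN : N.Coprime p) {g : Gp p} (hg : g ∈ II p) {u : PadicAlgCl p}
    (hu : u ^ N = 1) : g u = u := by
  have hN0 : N ≠ 0 := by
    rintro rfl
    rw [Nat.coprime_zero_left] at hN
    exact hp.out.one_lt.ne' hN
  have hun : ‖u‖ = 1 := norm_of_pow_eq_one hN0 hu
  have hu0 : u ≠ 0 := norm_ne_zero_iff.mp (by rw [hun]; exact one_ne_zero)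
  have h2 : rdd (g u) = rdd u := by rw [rdd_gal g hun.le, hg _]
  rw [rdd_eq_iff (by rw [norm_gal]; exact hun.le) hun.le] at h2
  have h3 : g u / u = 1 := by
    apply eq_one_of_pow hN
    · rw [div_pow, ← map_pow, hu, map_one, div_one]
    · rw [div_sub_one hu0, norm_div, hun, div_one]
      exact h2
  exact (div_eq_one_iff_eq hu0).mp h3

/-- Teichmüller lifts are fixed by inertia -/
theorem exists_lift_II {y : KK p} (hy : y ≠ 0) :
    ∃ z : PadicAlgCl p, (∀ g ∈ II p, g z = z) ∧ ‖z‖ = 1 ∧ rdd z = y := by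
  obtain ⟨m, hm, hym⟩ := exists_mem_FF' y
  obtain ⟨z, hz, hzy⟩ := exists_teich hm y hym hy
  have h1 := norm_of_pow_eq_one (pow_sub_one_pos (l := p) hm).ne' hz
  exact ⟨z, fun g hg => TT_root hm (II_le_TT m hg) hz, h1, by rw [rdd_of_le h1.le, ← hzy]⟩

/-- **Compactness.** -/
theorem cpt {C : Subgroup (Gp p)} (hC : IsClosed (C : Set (Gp p))) {S : Subgroup (Gp p)}
    (hS : IsOpen (S : Set (Gp p))) (h : C ⊓ II p ≤ S) : ∃ m ≠ 0, C ⊓ TT p m ≤ S := by
  by_contra hne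
  push Not at hne
  have hfac : ∀ n : ℕ, n.factorial ≠ 0 := fun n => n.factorial_ne_zero
  let Z : ℕ → Set (Gp p) := fun n => ((C : Set (Gp p)) ∩ (TT p n.factorial : Set (Gp p))) ∩
    (S : Set (Gp p))ᶜ
  have hZ : ∀ n, IsClosed (Z n) := fun n =>
    (hC.inter (Subgroup.isClosed_of_isOpen _ (isOpen_TT (hfac n)))).inter hS.isClosed_compl
  have hne' : ∀ n, (Z n).Nonempty := by
    intro n
    obtain ⟨g, hg1, hg2⟩ := SetLike.not_le_iff_exists.mp (hne _ (hfac n))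
    exact ⟨g, ⟨hg1.1, hg1.2⟩, hg2⟩
  have hanti : ∀ n, Z (n + 1) ⊆ Z n := by
    rintro n g ⟨⟨h1, h2⟩, h3⟩
    exact ⟨⟨h1, TT_anti (Nat.factorial_dvd_factorial (Nat.le_succ n)) h2⟩, h3⟩
  obtain ⟨g, hg⟩ := IsCompact.nonempty_iInter_of_sequence_nonempty_isCompact_isClosed Z hanti hne'
    (hZ 0).isCompact hZ
  rw [Set.mem_iInter] at hg
  refine (hg 0).2 (h ⟨(hg 0).1.1, mem_II_of_TT fun m hm => ?_⟩)
  exact TT_anti (Nat.dvd_factorial (Nat.pos_of_ne_zero hm) le_rfl) (hg m).1.2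

theorem index_TT {m : ℕ} (hm : m ≠ 0) : (TT p m).index = m ∧ fdeg (TT p m) = m := by
  have hU : (LF p).IsOpen (TT p m) := isOpen_iff.mpr (isOpen_TT hm)
  have h1 : m ∣ fdeg (TT p m) := by
    rw [← FF'_le_kap_iff hU hm]
    intro y hy
    exact mem_kap_of_gbar hm hy fun u hu => hu y hy
  obtain ⟨h2, ⟨ϖ, h3⟩, h4⟩ := exists_unif_fdeg hU
  have h5 : fdeg (TT p m) ∣ (TT p m).index := by
    have := h4 (toFF l_mem_fld l_ne_zero)
    rw [VU_l hU] at this
    exact_mod_cast this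
  have h6 : (TT p m).index ≤ m := by
    have : NeZero m := ⟨hm⟩
    let φ : Gp p →* Multiplicative (ZMod m) :=
      { toFun := fun g => Multiplicative.ofAdd ((fexp hm g : ℕ) : ZMod m)
        map_one' := by
          have h7 : m ∣ fexp hm (1 : Gp p) :=
            (dvd_fexp_iff hm _).mpr fun y _ => (II p).one_mem y
          rw [(ZMod.natCast_eq_zero_iff _ _).mpr h7]
          rfl
        map_mul' := fun g h => by
          have h7 := (ZMod.natCast_eq_natCast_iff _ _ _).mpr (fexp_mul hm g h)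
          rw [h7, Nat.cast_add]
          rfl }
    have hker : φ.ker = TT p m := by
      ext g
      rw [MonoidHom.mem_ker, mem_TT, ← dvd_fexp_iff hm, ← ZMod.natCast_eq_zero_iff]
      exact Iff.rfl
    rw [← hker, Subgroup.index_ker]
    refine (Nat.card_le_card_of_injective (Subtype.val) Subtype.val_injective).trans ?_
    rw [Nat.card_congr Multiplicative.toAdd, Nat.card_zmod]
  have h7 : 0 < (TT p m).index := index_pos hU
  have h8 := Nat.le_of_dvd h7 h5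
  have h9 := Nat.le_of_dvd h2 h1
  omega

theorem norm_p_pos : 0 < ‖(p : PadicAlgCl p)‖ := norm_pos_iff.mpr l_ne_zero

theorem norm_TT {m : ℕ} (hm : m ≠ 0) {x : PadicAlgCl p} (hx0 : x ≠ 0)
    (hx : ∀ g ∈ TT p m, g x = x) : ∃ k : ℤ, ‖x‖ = ‖(p : PadicAlgCl p)‖ ^ k := by
  have hU : (LF p).IsOpen (TT p m) := isOpen_iff.mpr (isOpen_TT hm)
  obtain ⟨h2, ⟨ϖ, h3⟩, h4⟩ := exists_unif_fdeg hU
  have hxU : x ∈ fld (TT p m) := mem_fld.mpr hx
  obtain ⟨k, hk⟩ := h4 (toFF hxU hx0)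
  have h5 := VU_spec hU (toFF hxU hx0)
  rw [uval_toFF, hk, (index_TT hm).2, (index_TT hm).1] at h5
  refine ⟨k, ?_⟩
  rw [norm_l]
  have h6 : (0 : ℝ) ≤ ((p : ℝ)⁻¹) ^ k := (zpow_pos (inv_pos.mpr l_pos) k).le
  refine (pow_left_inj₀ (norm_nonneg _) h6 hm).mp ?_
  rw [h5, ← zpow_natCast, ← zpow_mul, inv_zpow', mul_comm]

/-- elements fixed by inertia have integral valuation -/
theorem norm_II {x : PadicAlgCl p} (hx0 : x ≠ 0) (hx : ∀ g ∈ II p, g x = x) :
    ∃ k : ℤ, ‖x‖ = ‖(p : PadicAlgCl p)‖ ^ k := by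
  obtain ⟨m, hm, h⟩ := cpt (C := ⊤) isClosed_univ (isOpen_stb x) (fun g hg => hx g hg.2)
  exact norm_TT hm hx0 fun g hg => h ⟨trivial, hg⟩

theorem norm_sub_lt_II {g : Gp p} (hg : g ∈ II p) {x : PadicAlgCl p} (hx : ‖x‖ ≤ 1) :
    ‖g x - x‖ < 1 := by
  rw [← rdd_eq_iff (by rw [norm_gal]; exact hx) hx, rdd_gal g hx, hg]

/-! ### tame characters -/

/-- the tame character attached to an element -/
noncomputable def tc (x : PadicAlgCl p) (g : Gp p) : KK p := rdd (g x / x)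

theorem norm_gal_div {x : PadicAlgCl p} (hx : x ≠ 0) (g : Gp p) : ‖g x / x‖ = 1 := by
  rw [norm_div, norm_gal, div_self (norm_ne_zero_iff.mpr hx)]

theorem tc_ne_zero {x : PadicAlgCl p} (hx : x ≠ 0) (g : Gp p) : tc x g ≠ 0 :=
  rdd_ne_zero (norm_gal_div hx g)

theorem tc_one {x : PadicAlgCl p} (hx : x ≠ 0) : tc x (1 : Gp p) = 1 := by
  rw [tc, AlgEquiv.one_apply, div_self hx, rdd_one]

theorem tc_mul' {x : PadicAlgCl p} (hx : x ≠ 0) (g h : Gp p) :
    tc x (g * h) = gbar g (tc x h) * tc x g := by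
  have hgx : g x ≠ 0 := (map_ne_zero g).mpr hx
  have h1 : (g * h) x / x = g (h x / x) * (g x / x) := by
    rw [AlgEquiv.mul_apply, map_div₀]
    field_simp
  rw [tc, h1, rdd_mul (by rw [norm_gal, norm_gal_div hx]) (norm_gal_div hx g).le,
    rdd_gal g (norm_gal_div hx h).le]
  rfl

theorem tc_mul {x : PadicAlgCl p} (hx : x ≠ 0) {g : Gp p} (hg : g ∈ II p) (h : Gp p) :
    tc x (g * h) = tc x g * tc x h := by
  rw [tc_mul' hx, hg, mul_comm]

theorem tc_pow_left {x : PadicAlgCl p} (hx : x ≠ 0) {g : Gp p} (hg : g ∈ II p) (n : ℕ) :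
    tc x (g ^ n) = tc x g ^ n := by
  induction n with
  | zero => rw [pow_zero, pow_zero, tc_one hx]
  | succ n ih => rw [pow_succ', tc_mul hx hg, ih, pow_succ']

theorem tc_mul_arg {x y : PadicAlgCl p} (hx : x ≠ 0) (hy : y ≠ 0) (g : Gp p) :
    tc (x * y) g = tc x g * tc y g := by
  rw [tc, map_mul, mul_div_mul_comm, rdd_mul (norm_gal_div hx g).le (norm_gal_div hy g).le]
  rfl

theorem tc_pow_arg {x : PadicAlgCl p} (hx : x ≠ 0) (g : Gp p) (n : ℕ) :
    tc (x ^ n) g = tc x g ^ n := by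
  rw [tc, map_pow, ← div_pow, rdd_pow (norm_gal_div hx g).le]
  rfl

theorem tc_unit {x : PadicAlgCl p} (hx : ‖x‖ = 1) {g : Gp p} (hg : g ∈ II p) : tc x g = 1 := by
  rw [tc, rdd_div (by rw [norm_gal, hx]) hx, rdd_gal g hx.le, hg, div_self (rdd_ne_zero hx)]

/-- the tame character only depends on the norm -/
theorem tc_congr {x y : PadicAlgCl p} (hx : x ≠ 0) (hxy : ‖x‖ = ‖y‖) {g : Gp p} (hg : g ∈ II p) :
    tc x g = tc y g := by
  have hy : y ≠ 0 := norm_ne_zero_iff.mp (by rw [← hxy]; exact norm_ne_zero_iff.mpr hx)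
  have h1 : x = (x / y) * y := (div_mul_cancel₀ _ hy).symm
  conv_lhs => rw [h1]
  rw [tc_mul_arg (div_ne_zero hx hy) hy, tc_unit _ hg, one_mul]
  rw [norm_div, hxy, div_self (norm_ne_zero_iff.mpr hy)]

end Fermat.Agent.FB
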