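import Fermat.Agent.FB.Tame

/-!
# Kummer extensions of the tame field: normal forms and the size of differences
-/

set_option autoImplicit false
set_option linter.unusedSectionVars false

namespace Fermat.Agent.FB

open Fermat.Agent.Coh Fermat.Agent.GalD Fermat.Agent.LocalCFT Module IntermediateField

variable {p : ℕ} [hp : Fact p.Prime]

/-- the norm is the norm of an element of the tame extension -/
def IsV (x : PadicAlgCl p) : Prop := ∃ k : ℤ, ‖x‖ = ‖wp p‖ ^ k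

theorem norm_pow_sub_one (hp2 : p ≠ 2) {z : PadicAlgCl p} (h1 : ‖z‖ < 1)
    (h2 : ‖wp p‖ ^ (p + 1) < ‖z‖) : ‖(1 + z) ^ p - 1‖ = ‖z‖ ^ p := by
  have hz0 : 0 < ‖z‖ := (pow_pos norm_wp_pos _).trans h2
  obtain ⟨r, hr⟩ := one_add_pow hp2 (⟨z, mem_OO.mpr h1.le⟩ : OO p)
  have hr' : (1 + z) ^ p = 1 + z ^ p + p * z * (1 + z * (r : PadicAlgCl p)) := by
    have := congrArg (Subtype.val) hr
    push_cast at this
    exact this
  have h3 : ‖(p : PadicAlgCl p) * z * (1 + z * (r : PadicAlgCl p))‖ < ‖z ^ p‖ := by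
    have h4 : ‖1 + z * (r : PadicAlgCl p)‖ ≤ 1 := by
      refine (IsUltrametricDist.norm_add_le_max _ _).trans (max_le (by rw [norm_one]) ?_)
      rw [norm_mul]
      exact mul_le_one₀ h1.le (norm_nonneg _) (mem_OO.mp r.2)
    rw [norm_mul, norm_mul, norm_pow]
    refine (mul_le_of_le_one_right (by positivity) h4).trans_lt ?_
    have h5 : ‖z‖ ^ p = ‖z‖ ^ (p - 1) * ‖z‖ := by
      rw [← pow_succ, Nat.sub_add_cancel hp.out.pos]
    rw [h5]
    refine mul_lt_mul_of_pos_right ?_ hz0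
    rw [← norm_wp_pow, ee_eq, pow_mul]
    exact pow_lt_pow_left₀ h2 (by positivity) (by have := hp.out.two_le; omega)
  have h4 : (1 + z) ^ p - 1 = z ^ p + p * z * (1 + z * (r : PadicAlgCl p)) := by
    rw [hr']
    ring
  rw [h4, IsUltrametricDist.norm_add_eq_max_of_norm_ne_norm h3.ne', max_eq_left h3.le, norm_pow]

theorem exists_leading {z : PadicAlgCl p} (_hz : z ≠ 0) (h : IsV z) :
    ∃ b : PadicAlgCl p, b ≠ 0 ∧ (∀ g ∈ GK p, g b = b) ∧ ‖z - b‖ < ‖z‖ ∧ ‖b‖ = ‖z‖ := by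
  obtain ⟨k, hk⟩ := h
  have hw : wp p ^ k ≠ 0 := zpow_ne_zero _ wp_ne_zero
  have hn : ‖z / wp p ^ k‖ = 1 := by
    rw [norm_div, norm_zpow, hk, div_self (zpow_ne_zero _ norm_wp_pos.ne')]
  obtain ⟨t, ht1, ht2, ht3⟩ := exists_lift_II (rdd_ne_zero hn)
  have ht0 : t ≠ 0 := norm_ne_zero_iff.mp (by rw [ht2]; exact one_ne_zero)
  refine ⟨t * wp p ^ k, mul_ne_zero ht0 hw, ?_, ?_, ?_⟩
  · intro g hg
    rw [map_mul, map_zpow₀, ht1 g hg.1]
    congr 2
    exact hg.2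
  · rw [rdd_eq_iff ht2.le hn.le] at ht3
    have h1 : z - t * wp p ^ k = -(t - z / wp p ^ k) * wp p ^ k := by
      field_simp
      ring
    rw [h1, norm_mul, norm_neg]
    have h2 : ‖z‖ = 1 * ‖wp p ^ k‖ := by rw [one_mul, norm_zpow, hk]
    rw [h2]
    exact mul_lt_mul_of_pos_right ht3 (norm_pos_iff.mpr hw)
  · rw [norm_mul, ht2, one_mul, norm_zpow, hk]

theorem pz (hp2 : p ≠ 2) {y : PadicAlgCl p} (hyp : ∀ g ∈ GK p, g (y ^ p) = y ^ p)
    {a : PadicAlgCl p} (ha : ∀ g ∈ GK p, g a = a) (h1 : ‖y / a - 1‖ < 1)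
    (h2 : ‖wp p‖ ^ (p + 1) ≤ ‖y / a - 1‖) : ∃ k : ℤ, ‖y / a - 1‖ ^ p = ‖wp p‖ ^ k := by
  rcases h2.eq_or_lt with h3 | h3
  · refine ⟨((p + 1) * p : ℕ), ?_⟩
    rw [← h3, zpow_natCast, pow_mul]
  · have h4 := norm_pow_sub_one hp2 h1 h3
    rw [add_sub_cancel, div_pow] at h4
    have h5 : y ^ p / a ^ p - 1 ≠ 0 := by
      rw [← norm_ne_zero_iff, h4]
      exact pow_ne_zero _ ((pow_pos norm_wp_pos _).trans h3).ne'
    obtain ⟨k, hk⟩ := norm_GK h5 fun g hg => by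
      rw [map_sub, map_div₀, hyp g hg, map_pow, ha g hg, map_one]
    exact ⟨k, by rw [← h4, hk]⟩

/-- **Normal forms of Kummer generators.** -/
theorem normal_form (hp2 : p ≠ 2) {y : PadicAlgCl p} (hy0 : y ≠ 0)
    (hyp : ∀ g ∈ GK p, g (y ^ p) = y ^ p) :
    ¬ IsV y ∨
    (∃ a : PadicAlgCl p, a ≠ 0 ∧ (∀ g ∈ GK p, g a = a) ∧ ‖y / a - 1‖ < 1 ∧
      ‖wp p‖ ^ (p + 1) < ‖y / a - 1‖ ∧ ¬ IsV (y / a - 1)) ∨
    ∃ a : PadicAlgCl p, a ≠ 0 ∧ (∀ g ∈ GK p, g a = a) ∧ ‖y / a - 1‖ < ‖wp p‖ ^ (p + 1) := by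
  by_contra hne
  push Not at hne
  obtain ⟨h1, h2, h3⟩ := hne
  have hq := norm_wp_pos (p := p)
  have hq1 := norm_wp_lt_one (p := p)
  have key : ∀ n : ℕ, ∃ a : PadicAlgCl p, a ≠ 0 ∧ (∀ g ∈ GK p, g a = a) ∧ ‖y / a - 1‖ < 1 ∧
      ‖y / a - 1‖ ^ p ≤ ‖wp p‖ ^ n := by
    intro n
    induction n with
    | zero =>
      obtain ⟨b, hb0, hb, hb1, hb2⟩ := exists_leading hy0 h1
      have h4 : ‖y / b - 1‖ < 1 := by
        rw [div_sub_one hb0, norm_div, div_lt_one (norm_pos_iff.mpr hb0), hb2]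
        exact hb1
      exact ⟨b, hb0, hb, h4, by rw [pow_zero]; exact pow_le_one₀ (norm_nonneg _) h4.le⟩
    | succ n ih =>
      obtain ⟨a, ha0, ha, hz1, hzn⟩ := ih
      have h4 := h3 a ha0 ha
      set z := y / a - 1 with hz
      have hz0 : z ≠ 0 := norm_pos_iff.mp ((pow_pos hq _).trans_le h4)
      have hV : IsV z := by
        rcases h4.eq_or_lt with h5 | h5
        · exact ⟨((p + 1 : ℕ) : ℤ), by rw [← h5, zpow_natCast]⟩
        · exact h2 a ha0 ha hz1 h5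
      obtain ⟨b, hb0, hb, hb1, hb2⟩ := exists_leading hz0 hV
      obtain ⟨k, hk⟩ := hV
      have hb3 : ‖1 + b‖ = 1 := by
        have : ‖b‖ < ‖(1 : PadicAlgCl p)‖ := by rw [hb2, norm_one]; exact hz1
        rw [IsUltrametricDist.norm_add_eq_max_of_norm_ne_norm this.ne', max_eq_left this.le,
          norm_one]
      have hb4 : 1 + b ≠ 0 := norm_ne_zero_iff.mp (by rw [hb3]; exact one_ne_zero)
      have ha' : ∀ g ∈ GK p, g (a * (1 + b)) = a * (1 + b) := fun g hg => by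
        rw [map_mul, map_add, map_one, ha g hg, hb g hg]
      have h5 : y / (a * (1 + b)) - 1 = (z - b) / (1 + b) := by
        have h6 : y = a * (1 + z) := by
          rw [hz]
          field_simp
          ring
        rw [h6]
        field_simp
        ring
      have h6 : ‖y / (a * (1 + b)) - 1‖ < ‖z‖ := by
        rw [h5, norm_div, hb3, div_one]
        exact hb1
      have h7 : ‖y / (a * (1 + b)) - 1‖ < 1 := h6.trans hz1
      obtain ⟨k', hk'⟩ := pz hp2 hyp ha' h7 (h3 _ (mul_ne_zero ha0 hb4) ha')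
      refine ⟨a * (1 + b), mul_ne_zero ha0 hb4, ha', h7, ?_⟩
      have h8 : ‖wp p‖ ^ k' < ‖wp p‖ ^ (k * p) := by
        rw [← hk', zpow_mul, ← hk, zpow_natCast]
        exact pow_lt_pow_left₀ h6 (norm_nonneg _) hp.out.ne_zero
      have h9 : k * p < k' := (zpow_lt_zpow_iff_right_of_lt_one₀ hq hq1).mp h8
      rw [hk, ← zpow_natCast, ← zpow_mul, ← zpow_natCast,
        zpow_le_zpow_iff_right_of_lt_one₀ hq hq1] at hzn
      rw [hk', ← zpow_natCast, zpow_le_zpow_iff_right_of_lt_one₀ hq hq1]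
      push_cast
      omega
  obtain ⟨a, ha0, ha, _, h5⟩ := key ((p + 1) * p + 1)
  have h6 := h3 a ha0 ha
  have h7 : ‖wp p‖ ^ ((p + 1) * p) ≤ ‖wp p‖ ^ ((p + 1) * p + 1) := by
    refine le_trans ?_ h5
    rw [pow_mul]
    exact pow_le_pow_left₀ (by positivity) h6 _
  rw [pow_succ] at h7
  have h8 : 0 < ‖wp p‖ ^ ((p + 1) * p) := pow_pos hq _
  nlinarith

/-! ### decomposition -/

theorem primitive_of_ne {ζ : PadicAlgCl p} (h : ζ ^ p = 1) (h1 : ζ ≠ 1) : IsPrimitiveRoot ζ p := by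
  exact IsPrimitiveRoot.iff_orderOf.mpr (orderOf_eq_prime h h1)

theorem gal_pow_apply {g : Gp p} {y ζ : PadicAlgCl p} (h : g y = ζ * y) (hζ : g ζ = ζ) (i : ℕ) :
    (g ^ i) y = ζ ^ i * y := by
  induction i with
  | zero => rw [pow_zero, pow_zero, one_mul, AlgEquiv.one_apply]
  | succ i ih => rw [pow_succ, AlgEquiv.mul_apply, h, map_mul, ih, ← mul_assoc, pow_succ,
      mul_comm ((g ^ i) ζ)]; congr 2; clear ih; induction i with
      | zero => rw [pow_zero, AlgEquiv.one_apply]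
      | succ i ih => rw [pow_succ, AlgEquiv.mul_apply, hζ, ih]

open Polynomial in
/-- elements of the Kummer extension are polynomials in the generator -/
theorem exists_poly {y : PadicAlgCl p} (hy0 : y ≠ 0) (hyp : ∀ g ∈ GK p, g (y ^ p) = y ^ p)
    {g₀ : Gp p} (hg₀ : g₀ ∈ GK p) (hne : g₀ y ≠ y) {b : PadicAlgCl p}
    (hb : ∀ g ∈ GK p, g y = y → g b = b) :
    ∃ P : (PadicAlgCl p)[X], (∀ g ∈ GK p, ∀ i, g (P.coeff i) = P.coeff i) ∧ P.natDegree < p ∧
      P.eval y = b := by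
  have hp0 : (p : PadicAlgCl p) ≠ 0 := l_ne_zero
  set ζ := g₀ y / y with hζ
  have hζp : ∀ g ∈ GK p, (g y / y) ^ p = 1 := fun g hg => by
    rw [div_pow, ← map_pow, hyp g hg, div_self (pow_ne_zero _ hy0)]
  have hζ1 : ζ ≠ 1 := fun h => hne ((div_eq_one_iff_eq hy0).mp h)
  have hprim : IsPrimitiveRoot ζ p := primitive_of_ne (hζp g₀ hg₀) hζ1
  have hζ0 : ζ ≠ 0 := hprim.ne_zero hp.out.ne_zero
  have hζfix : ∀ g ∈ GK p, g ζ = ζ := fun g hg => root_fixed hprim hg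
  have hg₀y : g₀ y = ζ * y := by rw [hζ, div_mul_cancel₀ _ hy0]
  have hpow : ∀ i : ℕ, (g₀ ^ i) y = ζ ^ i * y := gal_pow_apply hg₀y (hζfix g₀ hg₀)
  -- the conjugates of `b` are fixed by the kernel
  have hker : ∀ h ∈ GK p, h y = y → ∀ i : ℕ, h ((g₀ ^ i) b) = (g₀ ^ i) b := by
    intro h hh hhy i
    have hgi : g₀ ^ i ∈ GK p := (GK p).pow_mem hg₀ i
    have h1 : (g₀ ^ i)⁻¹ * h * g₀ ^ i ∈ GK p :=
      (GK p).mul_mem ((GK p).mul_mem ((GK p).inv_mem hgi) hh) hgi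
    have h2 := hb _ h1 (by
      rw [AlgEquiv.mul_apply, AlgEquiv.mul_apply, hpow, map_mul, map_pow, hζfix h hh, hhy, ← hpow]
      exact (g₀ ^ i).symm_apply_apply y)
    rw [AlgEquiv.mul_apply, AlgEquiv.mul_apply] at h2
    change (g₀ ^ i).symm (h ((g₀ ^ i) b)) = b at h2
    rwa [AlgEquiv.symm_apply_eq] at h2
  have hgp : (g₀ ^ p) b = b := by
    refine hb _ ((GK p).pow_mem hg₀ p) ?_
    rw [hpow, hprim.pow_eq_one, one_mul]
  -- the components
  let F : ℕ → ℕ → PadicAlgCl p := fun j i => (ζ⁻¹) ^ (i * j) * (g₀ ^ i) b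
  let B : ℕ → PadicAlgCl p := fun j => ∑ i ∈ Finset.range p, F j i
  have hB0 : ∀ j, g₀ (B j) = ζ ^ j * B j := by
    intro j
    have h1 : ∀ i, g₀ (F j i) = ζ ^ j * F j (i + 1) := by
      intro i
      change g₀ ((ζ⁻¹) ^ (i * j) * (g₀ ^ i) b) = ζ ^ j * ((ζ⁻¹) ^ ((i + 1) * j) * (g₀ ^ (i + 1)) b)
      rw [map_mul, map_pow, map_inv₀, hζfix g₀ hg₀, pow_succ' g₀, AlgEquiv.mul_apply, add_mul,
        one_mul, pow_add, ← mul_assoc, ← mul_assoc, mul_comm (ζ ^ j), mul_assoc ((ζ⁻¹) ^ (i * j)),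
        ← mul_pow, mul_inv_cancel₀ hζ0, one_pow, mul_one]
    have h2 : F j p = F j 0 := by
      change (ζ⁻¹) ^ (p * j) * (g₀ ^ p) b = (ζ⁻¹) ^ (0 * j) * (g₀ ^ 0) b
      rw [hgp, pow_mul, inv_pow, hprim.pow_eq_one, inv_one, one_pow, zero_mul, pow_zero, pow_zero,
        AlgEquiv.one_apply]
    change g₀ (∑ i ∈ Finset.range p, F j i) = ζ ^ j * ∑ i ∈ Finset.range p, F j i
    rw [map_sum, Finset.sum_congr rfl fun i _ => h1 i, ← Finset.mul_sum]
    congr 1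
    have h3 := Finset.sum_range_succ (F j) p
    have h4 := Finset.sum_range_succ' (F j) p
    rw [h3, h2] at h4
    exact (add_right_cancel h4).symm
  have hBker : ∀ h ∈ GK p, h y = y → ∀ j, h (B j) = B j := by
    intro h hh hhy j
    change h (∑ i ∈ Finset.range p, F j i) = ∑ i ∈ Finset.range p, F j i
    rw [map_sum]
    refine Finset.sum_congr rfl fun i _ => ?_
    change h ((ζ⁻¹) ^ (i * j) * (g₀ ^ i) b) = _
    rw [map_mul, map_pow, map_inv₀, hζfix h hh, hker h hh hhy]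
  let a : ℕ → PadicAlgCl p := fun j => B j / (p * y ^ j)
  have ha : ∀ g ∈ GK p, ∀ j, g (a j) = a j := by
    have hg₀a : ∀ j, g₀ (a j) = a j := by
      intro j
      change g₀ (B j / (p * y ^ j)) = B j / (p * y ^ j)
      rw [map_div₀, map_mul, map_pow, map_natCast, hB0, hg₀y, mul_pow, mul_left_comm,
        mul_div_mul_left _ _ (pow_ne_zero _ hζ0)]
    have hg₀a' : ∀ i j, (g₀ ^ i) (a j) = a j := by
      intro i j
      induction i with
      | zero => rw [pow_zero, AlgEquiv.one_apply]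
      | succ i ih => rw [pow_succ, AlgEquiv.mul_apply, hg₀a, ih]
    intro g hg j
    have : NeZero p := ⟨hp.out.ne_zero⟩
    obtain ⟨i, _, hi⟩ := hprim.eq_pow_of_pow_eq_one (hζp g hg)
    have hgi : g₀ ^ i ∈ GK p := (GK p).pow_mem hg₀ i
    set h := (g₀ ^ i)⁻¹ * g with hh
    have hhG : h ∈ GK p := (GK p).mul_mem ((GK p).inv_mem hgi) hg
    have hhy : h y = y := by
      rw [hh, AlgEquiv.mul_apply]
      have h1 : g y = (g₀ ^ i) y := by rw [hpow, hi, div_mul_cancel₀ _ hy0]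
      rw [h1]
      exact (g₀ ^ i).symm_apply_apply y
    have h2 : g = g₀ ^ i * h := by rw [hh, mul_inv_cancel_left]
    rw [h2, AlgEquiv.mul_apply]
    have h3 : h (a j) = a j := by
      change h (B j / (p * y ^ j)) = B j / (p * y ^ j)
      rw [map_div₀, map_mul, map_pow, map_natCast, hBker h hhG hhy, hhy]
    rw [h3, hg₀a']
  refine ⟨∑ j ∈ Finset.range p, C (a j) * X ^ j, ?_, ?_, ?_⟩
  · intro g hg i
    rw [finsetSum_coeff, map_sum]
    refine Finset.sum_congr rfl fun j _ => ?_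
    rw [coeff_C_mul, coeff_X_pow]
    split_ifs
    · rw [mul_one, ha g hg]
    · rw [mul_zero, map_zero]
  · refine (natDegree_sum_le_of_forall_le (n := p - 1) _ _ fun j hj => ?_).trans_lt
      (Nat.sub_lt hp.out.pos one_pos)
    refine (natDegree_C_mul_X_pow_le _ _).trans ?_
    rw [Finset.mem_range] at hj
    omega
  · rw [eval_finsetSum]
    have h1 : ∀ j ∈ Finset.range p, eval y (C (a j) * X ^ j) = (p : PadicAlgCl p)⁻¹ * B j := by
      intro j _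
      rw [eval_mul, eval_C, eval_pow, eval_X]
      change B j / (p * y ^ j) * y ^ j = _
      have := pow_ne_zero j hy0
      field_simp
    rw [Finset.sum_congr rfl h1, ← Finset.mul_sum]
    have h2 : ∑ j ∈ Finset.range p, B j = p * b := by
      change ∑ j ∈ Finset.range p, ∑ i ∈ Finset.range p, (ζ⁻¹) ^ (i * j) * (g₀ ^ i) b = _
      rw [Finset.sum_comm]
      have h3 : ∀ i ∈ Finset.range p, ∑ j ∈ Finset.range p, (ζ⁻¹) ^ (i * j) * (g₀ ^ i) b =
          if i = 0 then p * b else 0 := by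
        intro i hi
        rw [← Finset.sum_mul]
        split_ifs with h0
        · rw [h0, pow_zero, AlgEquiv.one_apply]
          simp
        · have h4 : (ζ⁻¹) ^ i ≠ 1 := by
            rw [Finset.mem_range] at hi
            exact hprim.inv.pow_ne_one_of_pos_of_lt h0 hi
          have h5 : (∑ j ∈ Finset.range p, ((ζ⁻¹) ^ i) ^ j) * ((ζ⁻¹) ^ i - 1) = 0 := by
            rw [geom_sum_mul, ← pow_mul, mul_comm, pow_mul, inv_pow, hprim.pow_eq_one, inv_one,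
              one_pow, sub_self]
          have h6 : ∑ j ∈ Finset.range p, (ζ⁻¹) ^ (i * j) = 0 := by
            rw [← (mul_eq_zero.mp h5).resolve_right (sub_ne_zero.mpr h4)]
            exact Finset.sum_congr rfl fun j _ => pow_mul _ _ _
          rw [h6, zero_mul]
      rw [Finset.sum_congr rfl h3, Finset.sum_ite_eq', if_pos (Finset.mem_range.mpr hp.out.pos)]
    rw [h2, ← mul_assoc, inv_mul_cancel₀ hp0, one_mul]

/-! ### the size of differences -/

theorem bez {x : PadicAlgCl p} (hx0 : x ≠ 0) {d : ℕ} (hd : d.Coprime p) {a b : ℤ}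
    (h1 : ‖x‖ ^ d = ‖wp p‖ ^ a) (h2 : ‖x‖ ^ p = ‖wp p‖ ^ b) : IsV x := by
  have h3 := Nat.gcd_eq_gcd_ab d p
  rw [Nat.Coprime.gcd_eq_one hd] at h3
  refine ⟨a * Nat.gcdA d p + b * Nat.gcdB d p, ?_⟩
  have h4 : ‖x‖ = ‖x‖ ^ ((1 : ℕ) : ℤ) := by rw [Nat.cast_one, zpow_one]
  rw [h4, h3, zpow_add₀ (norm_ne_zero_iff.mpr hx0), zpow_mul, zpow_mul, zpow_natCast,
    zpow_natCast, h1, h2, ← zpow_mul, ← zpow_mul, ← zpow_add₀ norm_wp_pos.ne']

open Polynomial in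
/-- **The size of differences.** -/
theorem norm_gal_sub_pow_le {z : PadicAlgCl p} (hz0 : z ≠ 0) (hz1 : ¬ IsV z)
    (hz2 : ∃ k : ℤ, ‖z‖ ^ p = ‖wp p‖ ^ k) {Q : (PadicAlgCl p)[X]}
    (hQ : ∀ g ∈ GK p, ∀ i, g (Q.coeff i) = Q.coeff i) (hQd : Q.natDegree < p)
    (hQ1 : ‖Q.eval z‖ ≤ 1) {g : Gp p} (hg : g ∈ GK p) :
    ‖g (Q.eval z) - Q.eval z‖ ^ p ≤ (‖g z - z‖ / ‖z‖) ^ p * ‖wp p‖ := by
  have hq := norm_wp_pos (p := p)
  have hq1 := norm_wp_lt_one (p := p)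
  have hzn : 0 < ‖z‖ := norm_pos_iff.mpr hz0
  obtain ⟨l, hl⟩ := hz2
  have hcop : ∀ d : ℕ, 0 < d → d < p → d.Coprime p := fun d h1 h2 =>
    ((Nat.Prime.coprime_iff_not_dvd hp.out).mpr fun h => by
      have := Nat.le_of_dvd h1 h
      omega).symm
  have hev : Q.eval z = ∑ j ∈ Finset.range p, Q.coeff j * z ^ j := eval_eq_sum_range' hQd z
  -- distinct norms
  have hdist : ∀ j ∈ Finset.range p, ‖Q.coeff j * z ^ j‖ ≤ ‖Q.eval z‖ := by
    rw [hev]
    refine norm_le_norm_sum (Finset.range p) (fun j => Q.coeff j * z ^ j) ?_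
    intro i hi j hj hij hi0 hj0 he
    rw [Finset.mem_range] at hi hj
    wlog hlt : i < j generalizing i j with H
    · exact H j hj i hi (Ne.symm hij) hj0 hi0 he.symm (by omega)
    obtain ⟨k, hk⟩ := norm_GK (left_ne_zero_of_mul hi0) fun g hg => hQ g hg i
    obtain ⟨k', hk'⟩ := norm_GK (left_ne_zero_of_mul hj0) fun g hg => hQ g hg j
    have h1 : ‖Q.coeff i * z ^ i‖ = ‖Q.coeff j * z ^ j‖ := he
    rw [norm_mul, norm_mul, norm_pow, norm_pow, hk, hk'] at h1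
    apply hz1
    refine bez hz0 (hcop (j - i) (by omega) (by omega)) (a := k - k') (b := l) ?_ hl
    have h2 : ‖z‖ ^ j = ‖z‖ ^ i * ‖z‖ ^ (j - i) := by rw [← pow_add]; congr 1; omega
    rw [h2, mul_left_comm, mul_comm (‖wp p‖ ^ k)] at h1
    have h3 := mul_left_cancel₀ (pow_pos hzn i).ne' h1
    rw [zpow_sub₀ hq.ne', h3, mul_div_cancel_left₀ _ (zpow_pos hq k').ne']
  -- small terms
  have hsmall : ∀ j ∈ Finset.range p, 0 < j → ‖Q.coeff j * z ^ j‖ ^ p ≤ ‖wp p‖ := by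
    intro j hj hj0
    by_cases h0 : Q.coeff j = 0
    · rw [h0, zero_mul, norm_zero, zero_pow hp.out.ne_zero]
      exact hq.le
    obtain ⟨k, hk⟩ := norm_GK h0 fun g hg => hQ g hg j
    have h1 : ‖Q.coeff j * z ^ j‖ ≤ 1 := (hdist j hj).trans hQ1
    rw [Finset.mem_range] at hj
    have h2 : ‖Q.coeff j * z ^ j‖ ≠ 1 := by
      intro h
      rw [norm_mul, norm_pow, hk] at h
      apply hz1
      refine bez hz0 (hcop j hj0 hj) (a := -k) (b := l) ?_ hl
      rw [zpow_neg]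
      exact (eq_inv_of_mul_eq_one_right h)
    have h3 : ‖Q.coeff j * z ^ j‖ ^ p < 1 :=
      pow_lt_one₀ (norm_nonneg _) (lt_of_le_of_ne h1 h2) hp.out.ne_zero
    have h4 : ‖Q.coeff j * z ^ j‖ ^ p = ‖wp p‖ ^ (k * p + l * j) := by
      rw [norm_mul, norm_pow, mul_pow, hk, ← pow_mul, mul_comm j, pow_mul, hl,
        zpow_add₀ hq.ne', zpow_mul, zpow_mul, zpow_natCast, zpow_natCast]
    rw [h4] at h3 ⊢
    exact norm_wp_zpow_le_of_lt h3
  -- the difference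
  have hdiff : g (Q.eval z) - Q.eval z =
      ∑ j ∈ Finset.range p, Q.coeff j * ((g z) ^ j - z ^ j) := by
    rw [hev, map_sum, ← Finset.sum_sub_distrib]
    refine Finset.sum_congr rfl fun j _ => ?_
    rw [map_mul, map_pow, hQ g hg, mul_sub]
  rw [hdiff]
  obtain ⟨j, hj, hle⟩ := IsUltrametricDist.exists_norm_finsetSum_le_of_nonempty
    (Finset.nonempty_range_iff.mpr hp.out.ne_zero)
    (fun j => Q.coeff j * ((g z) ^ j - z ^ j))
  refine (pow_le_pow_left₀ (norm_nonneg _) hle p).trans ?_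
  rcases Nat.eq_zero_or_pos j with h0 | h0
  · rw [h0, pow_zero, pow_zero, sub_self, mul_zero, norm_zero, zero_pow hp.out.ne_zero]
    positivity
  have h1 : ‖(g z) ^ j - z ^ j‖ ≤ ‖g z - z‖ / ‖z‖ * ‖z‖ ^ j := by
    rw [← Commute.geom_sum₂_mul (Commute.all _ _), norm_mul]
    have h2 : ‖∑ i ∈ Finset.range j, (g z) ^ i * z ^ (j - 1 - i)‖ ≤ ‖z‖ ^ (j - 1) := by
      refine IsUltrametricDist.norm_sum_le_of_forall_le_of_nonneg (by positivity) fun i hi => ?_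
      rw [norm_mul, norm_pow, norm_pow, norm_gal, ← pow_add]
      rw [Finset.mem_range] at hi
      exact le_of_eq (by congr 1; omega)
    have h3 : ‖z‖ ^ j = ‖z‖ ^ (j - 1) * ‖z‖ := by rw [← pow_succ, Nat.sub_add_cancel h0]
    rw [h3]
    calc _ ≤ ‖z‖ ^ (j - 1) * ‖g z - z‖ := mul_le_mul_of_nonneg_right h2 (norm_nonneg _)
      _ = _ := by field_simp
  have h2 : ‖Q.coeff j * ((g z) ^ j - z ^ j)‖ ≤ ‖g z - z‖ / ‖z‖ * ‖Q.coeff j * z ^ j‖ := by
    rw [norm_mul, norm_mul, norm_pow]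
    calc _ ≤ ‖Q.coeff j‖ * (‖g z - z‖ / ‖z‖ * ‖z‖ ^ j) :=
          mul_le_mul_of_nonneg_left h1 (norm_nonneg _)
      _ = _ := by ring
  refine (pow_le_pow_left₀ (norm_nonneg _) h2 p).trans ?_
  rw [mul_pow]
  exact mul_le_mul_of_nonneg_left (hsmall j hj h0) (by positivity)

end Fermat.Agent.FB
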