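import Fermat.Agent.FB.Bound

/-!
# The supremum norm on convolution algebras
-/

set_option autoImplicit false
set_option linter.unusedSectionVars false

namespace Fermat.Agent.FB

open Coalgebra TensorProduct WithConv Polynomial

variable {L : Type*} [NormedField L] [IsUltrametricDist L]
  {S : Type*} [CommRing S] [Algebra S L]

theorem exists_max {H : Type*} [AddCommGroup H] [Module S H] [Module.Free S H] [Module.Finite S H]
    (hS1 : ∀ s : S, ‖algebraMap S L s‖ ≤ 1) (f : H →ₗ[S] L) : ∃ h₀, ∀ h, ‖f h‖ ≤ ‖f h₀‖ := by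
  let b := Module.Free.chooseBasis S H
  rcases isEmpty_or_nonempty (Module.Free.ChooseBasisIndex S H) with he | hne
  · refine ⟨0, fun h => ?_⟩
    have h1 := b.sum_repr h
    rw [Finset.univ_eq_empty, Finset.sum_empty] at h1
    rw [← h1]
  · obtain ⟨i₀, hi₀⟩ := Finite.exists_max (fun i => ‖f (b i)‖)
    refine ⟨b i₀, fun h => ?_⟩
    rw [← b.sum_repr h, map_sum]
    refine IsUltrametricDist.norm_sum_le_of_forall_le_of_nonneg (norm_nonneg _) fun i _ => ?_
    rw [map_smul, Algebra.smul_def, norm_mul]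
    exact (mul_le_of_le_one_left (norm_nonneg _) (hS1 _)).trans (hi₀ i)

section nrm

variable {H : Type*} [CommRing H] [Bialgebra S H] [Module.Free S H] [Module.Finite S H]
  (hS1 : ∀ s : S, ‖algebraMap S L s‖ ≤ 1)

/-- the supremum norm -/
noncomputable def nrm (f : WithConv (H →ₗ[S] L)) : ℝ := ‖f (exists_max hS1 f.ofConv).choose‖

variable (f g : WithConv (H →ₗ[S] L))

theorem le_nrm (h : H) : ‖f h‖ ≤ nrm hS1 f := (exists_max hS1 f.ofConv).choose_spec h

theorem exists_nrm : ∃ h, ‖f h‖ = nrm hS1 f := ⟨_, rfl⟩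

theorem nrm_nonneg : 0 ≤ nrm hS1 f := norm_nonneg _

variable {f g}

theorem nrm_le {r : ℝ} (h : ∀ x, ‖f x‖ ≤ r) : nrm hS1 f ≤ r := h _

theorem nrm_lt {r : ℝ} (h : ∀ x, ‖f x‖ < r) : nrm hS1 f < r := h _

theorem nrm_eq_zero (h : nrm hS1 f = 0) : f = 0 := by
  apply WithConv.ext
  ext x
  have h1 := le_nrm hS1 f x
  rw [h] at h1
  exact norm_le_zero_iff.mp h1

theorem nrm_zero : nrm hS1 (0 : WithConv (H →ₗ[S] L)) = 0 := norm_zero

theorem nrm_neg : nrm hS1 (-f) = nrm hS1 f := by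
  have h1 : ∀ f : WithConv (H →ₗ[S] L), nrm hS1 (-f) ≤ nrm hS1 f := fun f => nrm_le hS1 fun x => by
    change ‖-(f x)‖ ≤ _
    rw [norm_neg]
    exact le_nrm hS1 f x
  refine le_antisymm (h1 f) ?_
  have h2 := h1 (-f)
  rwa [neg_neg] at h2

theorem nrm_add_le : nrm hS1 (f + g) ≤ max (nrm hS1 f) (nrm hS1 g) := nrm_le hS1 fun x =>
  (IsUltrametricDist.norm_add_le_max (f x) (g x)).trans
    (max_le_max (le_nrm hS1 f x) (le_nrm hS1 g x))

theorem nrm_mul_le : nrm hS1 (f * g) ≤ nrm hS1 f * nrm hS1 g := by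
  have h0 := mul_nonneg (nrm_nonneg hS1 f) (nrm_nonneg hS1 g)
  refine nrm_le hS1 fun x => ?_
  rw [LinearMap.convMul_apply]
  generalize comul (R := S) x = t
  induction t with
  | zero =>
    rw [map_zero, map_zero, norm_zero]
    exact h0
  | tmul a b =>
    rw [TensorProduct.map_tmul, LinearMap.mul'_apply, norm_mul]
    exact mul_le_mul (le_nrm hS1 f a) (le_nrm hS1 g b) (norm_nonneg _) (nrm_nonneg hS1 f)
  | add a b ha hb =>
    rw [map_add, map_add]
    exact (IsUltrametricDist.norm_add_le_max _ _).trans (max_le ha hb)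

theorem nrm_one_le : nrm hS1 (1 : WithConv (H →ₗ[S] L)) ≤ 1 := nrm_le hS1 fun x => by
  rw [LinearMap.convOne_apply]
  exact hS1 _

theorem nrm_pow_le (n : ℕ) : nrm hS1 (f ^ (n + 1)) ≤ nrm hS1 f ^ (n + 1) := by
  induction n with
  | zero => rw [zero_add, pow_one, pow_one]
  | succ n ih =>
    rw [pow_succ, pow_succ _ (n + 1)]
    exact (nrm_mul_le hS1).trans (mul_le_mul_of_nonneg_right ih (nrm_nonneg hS1 f))

variable [IsCocomm S H]

/-- the unit ball as a subring -/
noncomputable def nball : Subring (WithConv (H →ₗ[S] L)) where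
  carrier := {f | nrm hS1 f ≤ 1}
  mul_mem' := fun {a b} ha hb => (nrm_mul_le hS1).trans (mul_le_one₀ ha (nrm_nonneg hS1 b) hb)
  one_mem' := nrm_one_le hS1
  add_mem' := fun {a b} ha hb => (nrm_add_le hS1).trans (max_le ha hb)
  zero_mem' := by
    change nrm hS1 0 ≤ 1
    rw [nrm_zero]
    exact zero_le_one
  neg_mem' := fun {a} ha => by
    change nrm hS1 (-a) ≤ 1
    rw [nrm_neg]
    exact ha

end nrm

end Fermat.Agent.FB
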