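import Fermat.Agent.FB.Inertia
import Fermat.Agent.LocalCFT.Cyc

/-!
# The tame extension of `ℚ_p` of ramification index `p² - 1`
-/

set_option autoImplicit false
set_option linter.unusedSectionVars false

namespace Fermat.Agent.FB

open Fermat.Agent.Coh Fermat.Agent.GalD Fermat.Agent.LocalCFT Module IntermediateField

section orbit

variable {L : Type*} [NormedField L] {G : Type*} [Group G] [MulSemiringAction G L]

theorem exists_orbit_norm (hiso : ∀ (g : G) (x : L), ‖g • x‖ = ‖x‖) {x : L} (hx : x ≠ 0)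
    (hfin : (MulAction.orbit G x).Finite) :
    ∃ N : L, N ≠ 0 ∧ (∀ g : G, g • N = N) ∧ ‖N‖ = ‖x‖ ^ (MulAction.orbit G x).ncard := by
  classical
  have hmem : ∀ y ∈ hfin.toFinset, ∃ g : G, g • x = y := fun y hy => by
    rw [Set.Finite.mem_toFinset] at hy
    exact hy
  refine ⟨∏ y ∈ hfin.toFinset, y, ?_, fun g => ?_, ?_⟩
  · rw [Finset.prod_ne_zero_iff]
    intro y hy
    obtain ⟨g, rfl⟩ := hmem y hy
    rw [← norm_ne_zero_iff, hiso, norm_ne_zero_iff]
    exact hx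
  · rw [Finset.smul_prod']
    refine Finset.prod_bij (fun y _ => g • y) ?_ ?_ ?_ ?_
    · intro y hy
      rw [Set.Finite.mem_toFinset] at hy ⊢
      obtain ⟨h, rfl⟩ := hy
      exact ⟨g * h, mul_smul g h x⟩
    · intro y _ z _ h
      exact smul_left_cancel g h
    · intro y hy
      rw [Set.Finite.mem_toFinset] at hy
      obtain ⟨h, rfl⟩ := hy
      refine ⟨g⁻¹ • (h • x), ?_, smul_inv_smul g _⟩
      rw [Set.Finite.mem_toFinset]
      exact ⟨g⁻¹ * h, mul_smul _ h x⟩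
    · intro y _
      rfl
  · rw [norm_prod, Finset.prod_congr rfl (g := fun _ => ‖x‖), Finset.prod_const,
      Set.ncard_eq_toFinset_card _ hfin]
    intro y hy
    obtain ⟨g, rfl⟩ := hmem y hy
    exact hiso g x

end orbit

variable {p : ℕ} [hp : Fact p.Prime]

theorem ee_pos : 0 < p ^ 2 - 1 := pow_sub_one_pos (l := p) two_ne_zero

theorem ee_coprime : (p ^ 2 - 1).Coprime p := coprime_pow_sub_one (l := p) two_ne_zero

theorem ee_eq : p ^ 2 - 1 = (p + 1) * (p - 1) := by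
  have := Nat.sq_sub_sq p 1
  simpa using this

variable (p) in
/-- a root of `-p` of order `p² - 1` -/
noncomputable def wp : PadicAlgCl p :=
  (IsAlgClosed.exists_pow_nat_eq (-(p : PadicAlgCl p)) (ee_pos (p := p))).choose

theorem wp_pow : wp p ^ (p ^ 2 - 1) = -(p : PadicAlgCl p) :=
  (IsAlgClosed.exists_pow_nat_eq (-(p : PadicAlgCl p)) (ee_pos (p := p))).choose_spec

theorem norm_wp_pow : ‖wp p‖ ^ (p ^ 2 - 1) = ‖(p : PadicAlgCl p)‖ := by
  rw [← norm_pow, wp_pow, norm_neg]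

theorem wp_ne_zero : wp p ≠ 0 := by
  intro h
  have h1 := wp_pow (p := p)
  rw [h, zero_pow (ee_pos (p := p)).ne', eq_comm, neg_eq_zero] at h1
  exact l_ne_zero h1

theorem norm_wp_pos : 0 < ‖wp p‖ := norm_pos_iff.mpr wp_ne_zero

theorem norm_wp_lt_one : ‖wp p‖ < 1 := by
  rw [← pow_lt_one_iff_of_nonneg (norm_nonneg _) (ee_pos (p := p)).ne', norm_wp_pow]
  exact norm_natCast_l

theorem zpow_wp_inj {a b : ℤ} (h : ‖wp p‖ ^ a = ‖wp p‖ ^ b) : a = b :=
  zpow_right_injective₀ norm_wp_pos norm_wp_lt_one.ne h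

theorem norm_p_zpow (k : ℤ) :
    ‖(p : PadicAlgCl p)‖ ^ k = ‖wp p‖ ^ (((p ^ 2 - 1 : ℕ) : ℤ) * k) := by
  rw [← norm_wp_pow, zpow_mul, zpow_natCast]

theorem wp_div_pow (g : Gp p) : (g (wp p) / wp p) ^ (p ^ 2 - 1) = 1 := by
  rw [div_pow, ← map_pow, wp_pow, map_neg, map_natCast, div_self]
  exact neg_ne_zero.mpr l_ne_zero

theorem th_pow (g : Gp p) : tc (wp p) g ^ (p ^ 2 - 1) = 1 := by
  rw [tc, ← rdd_pow (norm_gal_div wp_ne_zero g).le, wp_div_pow, rdd_one]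

theorem th_mem (g : Gp p) : tc (wp p) g ∈ FF' p 2 := by
  rw [mem_FF', ← Nat.sub_add_cancel (Nat.one_le_pow 2 p hp.out.pos), pow_succ, th_pow, one_mul]

theorem th_eq_one_iff {g : Gp p} : tc (wp p) g = 1 ↔ g (wp p) = wp p := by
  constructor
  · intro h
    rw [tc, ← rdd_one (p := p), rdd_eq_iff (norm_gal_div wp_ne_zero g).le (by rw [norm_one])] at h
    exact (div_eq_one_iff_eq wp_ne_zero).mp (eq_one_of_pow ee_coprime (wp_div_pow g) h)
  · intro h
    rw [tc, h, div_self wp_ne_zero, rdd_one]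

/-! ### orbits -/

theorem isoII (g : II p) (x : PadicAlgCl p) : ‖g • x‖ = ‖x‖ := norm_gal _ _

open Classical in
theorem orbit_wp_sub : MulAction.orbit (II p) (wp p) ⊆
    ((Polynomial.nthRoots (p ^ 2 - 1) (-(p : PadicAlgCl p))).toFinset : Set (PadicAlgCl p)) := by
  rintro _ ⟨g, rfl⟩
  rw [Finset.mem_coe, Multiset.mem_toFinset, Polynomial.mem_nthRoots ee_pos]
  change ((g : Gp p) (wp p)) ^ (p ^ 2 - 1) = _
  rw [← map_pow, wp_pow, map_neg, map_natCast]

open Classical in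
theorem roots_card : ((Polynomial.nthRoots (p ^ 2 - 1)
    (-(p : PadicAlgCl p))).toFinset : Set (PadicAlgCl p)).ncard ≤ p ^ 2 - 1 := by
  rw [Set.ncard_coe_finset]
  exact (Multiset.toFinset_card_le _).trans (Polynomial.card_nthRoots _ _)

theorem orbit_wp_card : (MulAction.orbit (II p) (wp p)).ncard = p ^ 2 - 1 := by
  have hfin : (MulAction.orbit (II p) (wp p)).Finite :=
    Set.Finite.subset (Finset.finite_toSet _) orbit_wp_sub
  apply le_antisymm
  · exact (Set.ncard_le_ncard orbit_wp_sub (Finset.finite_toSet _)).trans roots_card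
  · obtain ⟨N, hN0, hN, hNn⟩ := exists_orbit_norm isoII wp_ne_zero hfin
    obtain ⟨k, hk⟩ := norm_II hN0 fun g hg => hN ⟨g, hg⟩
    rw [hNn, norm_p_zpow, ← zpow_natCast] at hk
    have h1 := zpow_wp_inj hk
    have h2 : (p ^ 2 - 1 : ℕ) ∣ (MulAction.orbit (II p) (wp p)).ncard := by
      rw [← Int.natCast_dvd_natCast]
      exact ⟨k, h1⟩
    refine Nat.le_of_dvd ?_ h2
    rw [Set.ncard_pos hfin]
    exact MulAction.nonempty_orbit _

theorem exists_II_mul {u : PadicAlgCl p} (hu : u ^ (p ^ 2 - 1) = 1) :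
    ∃ g ∈ II p, g (wp p) = u * wp p := by
  classical
  have h1 := Set.eq_of_subset_of_ncard_le (orbit_wp_sub (p := p))
    (by rw [orbit_wp_card]; exact roots_card) (Finset.finite_toSet _)
  have h2 : u * wp p ∈ MulAction.orbit (II p) (wp p) := by
    rw [h1, Finset.mem_coe, Multiset.mem_toFinset, Polynomial.mem_nthRoots ee_pos, mul_pow, hu,
      wp_pow, one_mul]
  obtain ⟨g, hg⟩ := h2
  exact ⟨g, g.2, hg⟩

theorem exists_th {b : KK p} (hb : b ^ (p ^ 2 - 1) = 1) : ∃ g ∈ II p, tc (wp p) g = b := by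
  have hb0 : b ≠ 0 := by
    rintro rfl
    rw [zero_pow (ee_pos (p := p)).ne'] at hb
    exact zero_ne_one hb
  have hb2 : b ∈ FF' p 2 := by
    rw [mem_FF', ← Nat.sub_add_cancel (Nat.one_le_pow 2 p hp.out.pos), pow_succ, hb, one_mul]
  obtain ⟨z, hz, hzb⟩ := exists_teich two_ne_zero b hb2 hb0
  obtain ⟨g, hg, hgz⟩ := exists_II_mul hz
  refine ⟨g, hg, ?_⟩
  rw [tc, hgz, mul_div_cancel_right₀ _ wp_ne_zero, rdd_of_le (norm_of_pow_eq_one ee_pos.ne' hz).le,
    ← hzb]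

variable (p) in
/-- the inertia group of the tame extension -/
noncomputable def GK : Subgroup (Gp p) := II p ⊓ stb (wp p)

theorem mem_GK {g : Gp p} : g ∈ GK p ↔ g ∈ II p ∧ g (wp p) = wp p := Iff.rfl

/-- norms of the elements of the tame extension -/
theorem norm_GK {x : PadicAlgCl p} (hx0 : x ≠ 0) (hx : ∀ g ∈ GK p, g x = x) :
    ∃ k : ℤ, ‖x‖ = ‖wp p‖ ^ k := by
  have h1 : MulAction.stabilizer (II p) (wp p) ≤ MulAction.stabilizer (II p) x :=
    fun g hg => hx g ⟨g.2, hg⟩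
  have h2 := Subgroup.index_dvd_of_le h1
  rw [MulAction.index_stabilizer, MulAction.index_stabilizer, orbit_wp_card] at h2
  obtain ⟨r, hr⟩ := h2
  have hfin : (MulAction.orbit (II p) x).Finite := by
    refine Set.finite_of_ncard_ne_zero fun h => ?_
    rw [h, zero_mul] at hr
    exact (ee_pos (p := p)).ne' hr
  obtain ⟨N, hN0, hN, hNn⟩ := exists_orbit_norm isoII hx0 hfin
  obtain ⟨k, hk⟩ := norm_II hN0 fun g hg => hN ⟨g, hg⟩
  refine ⟨k * r, ?_⟩
  have hr0 : (MulAction.orbit (II p) x).ncard ≠ 0 := by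
    intro h
    rw [h, zero_mul] at hr
    exact (ee_pos (p := p)).ne' hr
  refine (pow_left_inj₀ (norm_nonneg _) (zpow_pos norm_wp_pos _).le hr0).mp ?_
  rw [← hNn, hk, norm_p_zpow, ← zpow_natCast, ← zpow_mul]
  congr 1
  rw [hr]
  push_cast
  ring

theorem norm_wp_zpow_le_of_lt {k : ℤ} (h : ‖wp p‖ ^ k < 1) : ‖wp p‖ ^ k ≤ ‖wp p‖ := by
  have h1 : 0 < k := by
    by_contra hk
    push Not at hk
    have := one_le_zpow_of_nonpos₀ (norm_wp_pos (p := p)) norm_wp_lt_one.le hk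
    linarith
  have h2 : ‖wp p‖ ^ k ≤ ‖wp p‖ ^ (1 : ℤ) :=
    zpow_le_zpow_right_of_le_one₀ norm_wp_pos norm_wp_lt_one.le (by omega)
  rwa [zpow_one] at h2

/-- inertia moves integral elements of the tame extension by at most the norm of the
uniformizer -/
theorem norm_sub_le_GK {x : PadicAlgCl p} (hx : ∀ g ∈ GK p, g x = x) (hx1 : ‖x‖ ≤ 1) {g : Gp p}
    (hg : g ∈ II p) : ‖g x - x‖ ≤ ‖wp p‖ := by
  by_cases h0 : g x - x = 0
  · rw [h0, norm_zero]
    exact norm_nonneg _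
  have hconj : ∀ h ∈ GK p, h (g x) = g x := by
    intro h hh
    have h1 : g⁻¹ * h * g ∈ GK p := by
      refine ⟨?_, ?_⟩
      · have := (normal_II (p := p)).conj_mem h hh.1 g⁻¹
        rwa [inv_inv] at this
      · change (g⁻¹ * h * g) (wp p) = wp p
        rw [← th_eq_one_iff, mul_assoc, tc_mul wp_ne_zero ((II p).inv_mem hg),
          tc_mul wp_ne_zero hh.1, th_eq_one_iff.mpr hh.2, one_mul, ← tc_mul wp_ne_zero
          ((II p).inv_mem hg), inv_mul_cancel, tc_one wp_ne_zero]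
    have h2 := hx _ h1
    rw [AlgEquiv.mul_apply, AlgEquiv.mul_apply] at h2
    change g.symm (h (g x)) = x at h2
    rwa [AlgEquiv.symm_apply_eq] at h2
  obtain ⟨k, hk⟩ := norm_GK h0 fun h hh => by rw [map_sub, hconj h hh, hx h hh]
  have h1 := norm_sub_lt_II hg hx1
  rw [hk] at h1 ⊢
  exact norm_wp_zpow_le_of_lt h1

/-! ### Frobenius -/

theorem exists_frob_m {m : ℕ} (hm : m ≠ 0) : ∃ g : Gp p, ∀ y ∈ FF' p m, gbar g y = y ^ p := by
  have : NeZero m := ⟨hm⟩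
  let φ : Gp p →* Multiplicative (ZMod m) :=
    { toFun := fun g => Multiplicative.ofAdd ((fexp hm g : ℕ) : ZMod m)
      map_one' := by
        have h7 : m ∣ fexp hm (1 : Gp p) :=
          (dvd_fexp_iff hm _).mpr fun y _ => (II p).one_mem y
        rw [(ZMod.natCast_eq_zero_iff _ _).mpr h7]
        rfl
      map_mul' := fun g h => by
        have h7 := (ZMod.natCast_eq_natCast_iff _ _ _).mpr (fexp_mul hm g h)
        rw [h7, Nat.cast_add]
        rfl }
  have hker : φ.ker = TT p m := by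
    ext g
    rw [MonoidHom.mem_ker, mem_TT, ← dvd_fexp_iff hm, ← ZMod.natCast_eq_zero_iff]
    exact Iff.rfl
  have h1 : Nat.card φ.range = Nat.card (Multiplicative (ZMod m)) := by
    rw [← Subgroup.index_ker, hker, (index_TT hm).1, Nat.card_congr Multiplicative.toAdd,
      Nat.card_zmod]
  have : Finite (Multiplicative (ZMod m)) := inferInstanceAs (Finite (ZMod m))
  have h2 : φ.range = ⊤ := Subgroup.eq_top_of_card_eq _ h1
  obtain ⟨g, hg⟩ : Multiplicative.ofAdd (1 : ZMod m) ∈ φ.range := by rw [h2]; trivial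
  refine ⟨g, fun y hy => ?_⟩
  rw [fexp_spec hm g hy]
  have h3 : fexp hm g ≡ 1 [MOD m] := by
    rw [← ZMod.natCast_eq_natCast_iff, Nat.cast_one]
    exact hg
  have h4 := (frob_congr (l := p) hm _ _).mpr h3 y hy
  rw [h4, pow_one]

/-- a lift of Frobenius -/
theorem exists_frob₀ : ∃ g : Gp p, ∀ y : KK p, gbar g y = y ^ p := by
  have hfac : ∀ n : ℕ, n.factorial ≠ 0 := fun n => n.factorial_ne_zero
  let Z : ℕ → Set (Gp p) := fun n => {g | ∀ y ∈ FF' p n.factorial, gbar g y = y ^ p}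
  have hZ : ∀ n, IsClosed (Z n) := by
    intro n
    obtain ⟨g₀, hg₀⟩ := exists_frob_m (p := p) (hfac n)
    have h1 : Z n = (fun g => g₀⁻¹ * g) ⁻¹' (TT p n.factorial : Set (Gp p)) := by
      ext g
      rw [Set.mem_preimage, SetLike.mem_coe, mem_TT]
      refine forall₂_congr fun y hy => ?_
      rw [← hg₀ y hy, gbar_mul]
      constructor
      · intro h
        have h2 := gbar_inv_cancel g₀⁻¹ y
        rwa [inv_inv, ← h] at h2
      · intro h
        conv_rhs => rw [← h]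
        rw [gbar_inv_cancel]
    rw [h1]
    exact (Subgroup.isClosed_of_isOpen _ (isOpen_TT (hfac n))).preimage (continuous_const_mul _)
  obtain ⟨g, hg⟩ := IsCompact.nonempty_iInter_of_sequence_nonempty_isCompact_isClosed Z
    (fun n g hg y hy => hg y (FF'_le (Nat.factorial_dvd_factorial (Nat.le_succ n)) hy))
    (fun n => exists_frob_m (hfac n)) (hZ 0).isCompact hZ
  rw [Set.mem_iInter] at hg
  refine ⟨g, fun y => ?_⟩
  obtain ⟨m, hm, hy⟩ := exists_mem_FF' y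
  exact hg m y (FF'_le (Nat.dvd_factorial (Nat.pos_of_ne_zero hm) le_rfl) hy)

/-- a lift of Frobenius fixing the uniformizer -/
theorem exists_frob : ∃ g : Gp p, g (wp p) = wp p ∧ ∀ y : KK p, gbar g y = y ^ p := by
  obtain ⟨g₀, hg₀⟩ := exists_frob₀ (p := p)
  have hu := wp_div_pow g₀
  set u := g₀ (wp p) / wp p with hu'
  have hu0 : u ≠ 0 := div_ne_zero ((map_ne_zero g₀).mpr wp_ne_zero) wp_ne_zero
  obtain ⟨h, hh, hhw⟩ := exists_II_mul (u := u⁻¹) (by rw [inv_pow, hu, inv_one])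
  refine ⟨h * g₀, ?_, fun y => by rw [gbar_mul, hg₀, hh]⟩
  have h1 : g₀ (wp p) = u * wp p := by rw [hu', div_mul_cancel₀ _ wp_ne_zero]
  rw [AlgEquiv.mul_apply, h1, map_mul, II_root ee_coprime hh hu, hhw, ← mul_assoc,
    mul_inv_cancel₀ hu0, one_mul]

theorem th_conj {φ : Gp p} (hφ : φ (wp p) = wp p) (hφ' : ∀ y : KK p, gbar φ y = y ^ p) {g : Gp p}
    (hg : g ∈ II p) : tc (wp p) (φ * g * φ⁻¹) = tc (wp p) g ^ p := by
  have h1 : φ⁻¹ (wp p) = wp p := by
    change φ.symm _ = _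
    rw [AlgEquiv.symm_apply_eq, hφ]
  rw [tc_mul' wp_ne_zero, th_eq_one_iff.mpr h1, map_one, one_mul, tc_mul' wp_ne_zero,
    th_eq_one_iff.mpr hφ, mul_one, hφ']

/-! ### roots of unity -/

variable (p) in
theorem exists_zp : ∃ ζ : PadicAlgCl p, IsPrimitiveRoot ζ p := by
  obtain ⟨ζ, hζ⟩ := LocalCFT.exists_prim (p := p) (Ω := PadicAlgCl p) 1
  rw [pow_one] at hζ
  exact ⟨ζ, hζ⟩

variable (p) in
/-- a primitive `p`-th root of unity -/
noncomputable def zp : PadicAlgCl p := (exists_zp p).choose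

theorem zp_prim : IsPrimitiveRoot (zp p) p := (exists_zp p).choose_spec

theorem norm_zp : ‖zp p‖ = 1 := norm_of_pow_eq_one hp.out.ne_zero zp_prim.pow_eq_one

theorem norm_root_sub {ζ : PadicAlgCl p} (hζ : IsPrimitiveRoot ζ p) :
    ‖ζ - 1‖ ^ (p - 1) = ‖(p : PadicAlgCl p)‖ := by
  have h1 := norm_one_sub_pow (p := p) 0 (ζ := ζ) (by simpa using hζ)
  rw [zero_add, pow_one, Nat.totient_prime hp.out] at h1
  rw [norm_l, ← h1, norm_sub_rev]

theorem norm_root_sub' {ζ : PadicAlgCl p} (hζ : IsPrimitiveRoot ζ p) :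
    ‖ζ - 1‖ = ‖wp p‖ ^ (p + 1) := by
  have hp1 : p - 1 ≠ 0 := by have := hp.out.two_le; omega
  refine (pow_left_inj₀ (norm_nonneg _) (pow_nonneg (norm_nonneg _) _) hp1).mp ?_
  rw [norm_root_sub hζ, ← pow_mul, ← ee_eq, norm_wp_pow]

theorem root_sub_ne_zero {ζ : PadicAlgCl p} (hζ : IsPrimitiveRoot ζ p) : ζ - 1 ≠ 0 := by
  rw [← norm_ne_zero_iff, norm_root_sub' hζ]
  exact pow_ne_zero _ norm_wp_pos.ne'

theorem norm_root_sub_lt {ζ : PadicAlgCl p} (hζ : IsPrimitiveRoot ζ p) : ‖ζ - 1‖ < 1 := by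
  rw [norm_root_sub' hζ]
  exact pow_lt_one₀ (norm_nonneg _) norm_wp_lt_one (by omega)

theorem norm_natSum_le (ζ : PadicAlgCl p) (hζ : ‖ζ‖ ≤ 1) (m : ℕ) :
    ‖∑ i ∈ Finset.range m, ζ ^ i‖ ≤ 1 := by
  refine IsUltrametricDist.norm_sum_le_of_forall_le_of_nonneg zero_le_one fun i _ => ?_
  rw [norm_pow]
  exact pow_le_one₀ (norm_nonneg _) hζ

theorem rdd_geom {ζ : PadicAlgCl p} (hζ : ‖ζ‖ = 1) (h1 : ‖ζ - 1‖ < 1) (m : ℕ) :
    rdd (∑ i ∈ Finset.range m, ζ ^ i) = (m : KK p) := by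
  have h2 : rdd ζ = 1 := by
    rw [← rdd_one (p := p), rdd_eq_iff hζ.le (by rw [norm_one])]
    exact h1
  induction m with
  | zero => rw [Finset.range_zero, Finset.sum_empty, rdd_zero, Nat.cast_zero]
  | succ m ih =>
    rw [Finset.sum_range_succ, rdd_add (norm_natSum_le ζ hζ.le m)
      (by rw [norm_pow, hζ, one_pow]), ih, rdd_pow hζ.le, h2, one_pow, Nat.cast_succ]

theorem tc_root {ζ : PadicAlgCl p} (hζ : IsPrimitiveRoot ζ p) {g : Gp p} {m : ℕ}
    (hg : g ζ = ζ ^ m) : tc (ζ - 1) g = (m : KK p) := by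
  have hn : ‖ζ‖ = 1 := norm_of_pow_eq_one hp.out.ne_zero hζ.pow_eq_one
  rw [← rdd_geom hn (norm_root_sub_lt hζ) m, tc]
  congr 1
  rw [div_eq_iff (root_sub_ne_zero hζ), geom_sum_mul, map_sub, map_one, hg]

theorem th_pow_cyc {ζ : PadicAlgCl p} (hζ : IsPrimitiveRoot ζ p) {g : Gp p} (hg : g ∈ II p) {m : ℕ}
    (hm : g ζ = ζ ^ m) : tc (wp p) g ^ (p + 1) = (m : KK p) := by
  rw [← tc_root hζ hm, ← tc_pow_arg wp_ne_zero]
  exact tc_congr (pow_ne_zero _ wp_ne_zero) (by rw [norm_pow, norm_root_sub' hζ]) hg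

theorem exists_cyc {ζ : PadicAlgCl p} (hζ : IsPrimitiveRoot ζ p) (g : Gp p) :
    ∃ m : ℕ, g ζ = ζ ^ m := by
  have : NeZero p := ⟨hp.out.ne_zero⟩
  obtain ⟨i, _, hi⟩ := hζ.eq_pow_of_pow_eq_one (ξ := g ζ) (by
    rw [← map_pow, hζ.pow_eq_one, map_one])
  exact ⟨i, hi.symm⟩

theorem root_fixed_of_one {ζ : PadicAlgCl p} (hζ : IsPrimitiveRoot ζ p) {g : Gp p} {m : ℕ}
    (hm : g ζ = ζ ^ m) (h1 : (m : KK p) = 1) : g ζ = ζ := by
  rw [← Nat.cast_one, CharP.natCast_eq_natCast (KK p) p] at h1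
  rw [hm]
  conv_rhs => rw [← pow_one ζ]
  rw [pow_eq_pow_mod m hζ.pow_eq_one, pow_eq_pow_mod 1 hζ.pow_eq_one]
  exact congrArg (fun i => ζ ^ i) h1

/-- the tame extension contains the `p`-th roots of unity -/
theorem root_fixed {ζ : PadicAlgCl p} (hζ : IsPrimitiveRoot ζ p) {g : Gp p} (hg : g ∈ GK p) :
    g ζ = ζ := by
  obtain ⟨m, hm⟩ := exists_cyc hζ g
  refine root_fixed_of_one hζ hm ?_
  rw [← th_pow_cyc hζ hg.1 hm, th_eq_one_iff.mpr hg.2, one_pow]

theorem one_add_pow (hp2 : p ≠ 2) {R : Type*} [CommRing R] (z : R) :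
    ∃ r : R, (1 + z) ^ p = 1 + z ^ p + p * z * (1 + z * r) := by
  have hp3 : 3 ≤ p := by
    have := hp.out.two_le
    omega
  have hdiv : ∀ k : ℕ, 0 < k → k < p → ∃ c : ℕ, p.choose k = p * c := fun k h1 h2 =>
    hp.out.dvd_choose_self h1.ne' h2
  obtain ⟨n, hn⟩ : ∃ n, p = n + 2 := ⟨p - 2, by omega⟩
  have h1 : (1 + z) ^ p = ∑ k ∈ Finset.range (p + 1), z ^ k * (p.choose k : R) := by
    rw [add_comm, add_pow]
    refine Finset.sum_congr rfl fun k _ => ?_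
    rw [one_pow, mul_one]
  have h2 : ∀ k ∈ Finset.range n, ∃ c : ℕ, p.choose (k + 2) = p * c := fun k hk =>
    hdiv _ (by omega) (by rw [Finset.mem_range] at hk; omega)
  choose! c hc using h2
  refine ⟨∑ k ∈ Finset.range n, z ^ k * (c k : R), ?_⟩
  rw [h1, Finset.sum_range_succ, hn, Finset.sum_range_succ', Finset.sum_range_succ', ← hn]
  rw [Nat.choose_self, Nat.choose_zero_right, zero_add, Nat.choose_one_right, Nat.cast_one,
    pow_zero, pow_one]
  have h3 : ∑ k ∈ Finset.range n, z ^ (k + 1 + 1) * (p.choose (k + 1 + 1) : R) =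
      p * z * (z * ∑ k ∈ Finset.range n, z ^ k * (c k : R)) := by
    rw [Finset.mul_sum, Finset.mul_sum]
    refine Finset.sum_congr rfl fun k hk => ?_
    rw [hc k hk]
    push_cast
    ring
  rw [h3]
  ring

/-- the first digit of `ζ - 1` -/
theorem rdd_root_pow (hp2 : p ≠ 2) {ζ : PadicAlgCl p} (hζ : IsPrimitiveRoot ζ p) :
    rdd ((ζ - 1) / wp p ^ (p + 1)) ^ (p - 1) = 1 := by
  have hn : ‖(ζ - 1) / wp p ^ (p + 1)‖ = 1 := by
    rw [norm_div, norm_pow, norm_root_sub' hζ, div_self (pow_ne_zero _ norm_wp_pos.ne')]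
  rw [← rdd_pow hn.le, ← rdd_one (p := p), rdd_eq_iff (by rw [norm_pow, hn, one_pow])
    (by rw [norm_one])]
  have hp1 : 1 ≤ p := hp.out.pos
  have hlt := norm_root_sub_lt hζ
  have h0 := root_sub_ne_zero hζ
  let z : OO p := ⟨ζ - 1, mem_OO.mpr hlt.le⟩
  obtain ⟨r, hr⟩ := one_add_pow hp2 z
  have hr' : (1 + (ζ - 1)) ^ p = 1 + (ζ - 1) ^ p + p * (ζ - 1) * (1 + (ζ - 1) * (r : PadicAlgCl p)) := by
    have := congrArg (Subtype.val) hr
    push_cast at this
    exact this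
  rw [add_sub_cancel, hζ.pow_eq_one] at hr'
  have h2 : (ζ - 1) ^ (p - 1) = -(p : PadicAlgCl p) * (1 + (ζ - 1) * r) := by
    have h3 : (ζ - 1) ^ p = (ζ - 1) ^ (p - 1) * (ζ - 1) := by
      rw [← pow_succ, Nat.sub_add_cancel hp1]
    rw [h3] at hr'
    apply mul_right_cancel₀ h0
    linear_combination -hr'
  rw [div_pow, ← pow_mul, ← ee_eq, wp_pow, h2, mul_div_cancel_left₀ _ (neg_ne_zero.mpr l_ne_zero),
    add_sub_cancel_left, norm_mul]
  exact (mul_le_of_le_one_right (norm_nonneg _) (mem_OO.mp r.2)).trans_lt hlt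

/-- the Frobenius lift fixes the roots of unity -/
theorem frob_root (hp2 : p ≠ 2) {ζ : PadicAlgCl p} (hζ : IsPrimitiveRoot ζ p) {φ : Gp p}
    (hφ : φ (wp p) = wp p) (hφ' : ∀ y : KK p, gbar φ y = y ^ p) : φ ζ = ζ := by
  obtain ⟨m, hm⟩ := exists_cyc hζ φ
  refine root_fixed_of_one hζ hm ?_
  rw [← tc_root hζ hm]
  have hn : ‖(ζ - 1) / wp p ^ (p + 1)‖ = 1 := by
    rw [norm_div, norm_pow, norm_root_sub' hζ, div_self (pow_ne_zero _ norm_wp_pos.ne')]
  have h1 := rdd_root_pow hp2 hζ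
  set u := (ζ - 1) / wp p ^ (p + 1) with hu
  have h2 : ζ - 1 = u * wp p ^ (p + 1) := by
    rw [hu, div_mul_cancel₀ _ (pow_ne_zero _ wp_ne_zero)]
  have hu0 : u ≠ 0 := norm_ne_zero_iff.mp (by rw [hn]; exact one_ne_zero)
  have h3 : tc (ζ - 1) φ = tc u φ := by
    conv_lhs => rw [h2]
    rw [tc_mul_arg hu0 (pow_ne_zero _ wp_ne_zero), tc_pow_arg wp_ne_zero,
      th_eq_one_iff.mpr hφ, one_pow, mul_one]
  rw [h3, tc, rdd_div (by rw [norm_gal, hn]) hn, rdd_gal φ hn.le, hφ']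
  have h4 : rdd u ^ p = rdd u := by
    have h5 : rdd u ^ p = rdd u ^ (p - 1) * rdd u := by
      rw [← pow_succ, Nat.sub_add_cancel hp.out.pos]
    rw [h5, h1, one_mul]
  rw [h4, div_self (rdd_ne_zero hn)]

end Fermat.Agent.FB
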