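import Fermat.Agent.FB.Nrm
import Fermat.Agent.FB.Tame

/-!
# Points of finite flat group schemes of order a power of `p`
-/

set_option autoImplicit false
set_option linter.unusedSectionVars false

namespace Fermat.Agent.FB

open Fermat.Agent.Coh Fermat.Agent.GalD Fermat.Agent.LocalCFT Module IntermediateField WithConv
  Coalgebra

variable {p : ℕ} [hp : Fact p.Prime]

variable {S : Type*} [CommRing S] [Algebra S (PadicAlgCl p)]
  (hS1 : ∀ s : S, ‖algebraMap S (PadicAlgCl p) s‖ ≤ 1)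
  (hS2 : ∀ (g : Gp p) (s : S), g (algebraMap S (PadicAlgCl p) s) = algebraMap S (PadicAlgCl p) s)
  {H : Type*} [CommRing H] [Bialgebra S H] [Module.Free S H] [IsCocomm S H]
  [Module.Finite S H]

variable {V : Type*} [AddCommGroup V]

/-- the convolution element of a point -/
noncomputable def cv (f : H →ₐ[S] PadicAlgCl p) : WithConv (H →ₗ[S] PadicAlgCl p) :=
  toConv f.toLinearMap

/-- a group of points -/
structure PtsOf (P : V → (H →ₐ[S] PadicAlgCl p)) : Prop where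
  zero : cv (P 0) = 1
  add : ∀ v w, cv (P (v + w)) = cv (P v) * cv (P w)
  inj : Function.Injective P

/-- the difference of a point and the unit -/
noncomputable def dd (P : V → (H →ₐ[S] PadicAlgCl p)) (v : V) :
    WithConv (H →ₗ[S] PadicAlgCl p) := cv (P v) - 1

variable {P : V → (H →ₐ[S] PadicAlgCl p)}

theorem dd_apply (v : V) (h : H) :
    dd P v h = P v h - algebraMap S (PadicAlgCl p) (counit (R := S) h) := rfl

theorem cv_eq (v : V) : cv (P v) = 1 + dd P v := by rw [dd, add_sub_cancel]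

theorem dd_add (hP : PtsOf P) (v w : V) : dd P (v + w) = dd P v + dd P w + dd P v * dd P w := by
  rw [dd, hP.add, cv_eq, cv_eq]
  ring

theorem dd_zero (hP : PtsOf P) : dd P 0 = 0 := by rw [dd, hP.zero, sub_self]

theorem eq_zero_of_dd (hP : PtsOf P) {v : V} (h : dd P v = 0) : v = 0 := by
  apply hP.inj
  have h1 : cv (P v) = cv (P 0) := by rw [cv_eq, h, add_zero, hP.zero]
  ext x
  exact congrArg (fun f : WithConv (H →ₗ[S] PadicAlgCl p) => f x) h1

theorem nrm_cv_le (f : H →ₐ[S] PadicAlgCl p) : nrm hS1 (cv f) ≤ 1 :=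
  nrm_le hS1 fun x => norm_point_le hS1 f x

theorem nrm_dd_le (v : V) : nrm hS1 (dd P v) ≤ 1 := by
  rw [dd, sub_eq_add_neg]
  refine (nrm_add_le hS1).trans (max_le (nrm_cv_le hS1 _) ?_)
  rw [nrm_neg]
  exact nrm_one_le hS1

theorem nrm_dd_pos (hP : PtsOf P) {v : V} (hv : v ≠ 0) : 0 < nrm hS1 (dd P v) :=
  lt_of_le_of_ne (nrm_nonneg hS1 _) fun h => hv (eq_zero_of_dd hP (nrm_eq_zero hS1 h.symm))

theorem cv_nsmul (hP : PtsOf P) (v : V) (n : ℕ) : cv (P (n • v)) = cv (P v) ^ n := by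
  induction n with
  | zero => rw [zero_nsmul, pow_zero, hP.zero]
  | succ n ih => rw [succ_nsmul, hP.add, ih, pow_succ]

theorem nrm_add_dd_le (hP : PtsOf P) (v w : V) :
    nrm hS1 (dd P (v + w)) ≤ max (nrm hS1 (dd P v)) (nrm hS1 (dd P w)) := by
  rw [dd_add hP]
  refine (nrm_add_le hS1).trans (max_le (nrm_add_le hS1) ?_)
  refine (nrm_mul_le hS1).trans ((mul_le_of_le_one_right (nrm_nonneg hS1 _) (nrm_dd_le hS1 w)).trans
    (le_max_left _ _))

theorem nrm_dd_neg (hP : PtsOf P) (v : V) : nrm hS1 (dd P (-v)) ≤ nrm hS1 (dd P v) := by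
  have h1 := hP.add v (-v)
  rw [add_neg_cancel, hP.zero] at h1
  have h2 : dd P (-v) = -(dd P v * cv (P (-v))) := by
    rw [dd, dd, sub_mul, ← h1]
    ring
  rw [h2, nrm_neg]
  exact (nrm_mul_le hS1).trans (mul_le_of_le_one_right (nrm_nonneg hS1 _) (nrm_cv_le hS1 _))

/-- **Torsion points are not too close to the unit.** -/
theorem norm_p_le_pow (hp2 : p ≠ 2) (hP : PtsOf P) {v : V} (hv : v ≠ 0) (hpv : p • v = 0)
    (h1 : nrm hS1 (dd P v) < 1) : ‖(p : PadicAlgCl p)‖ ≤ nrm hS1 (dd P v) ^ (p - 1) := by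
  have hpos := nrm_dd_pos hS1 hP hv
  set f := dd P v with hf
  obtain ⟨r, hr1, hr'⟩ : ∃ r : WithConv (H →ₗ[S] PadicAlgCl p), nrm hS1 r ≤ 1 ∧
      (1 + f) ^ p = 1 + f ^ p + p * f * (1 + f * r) := by
    let F : nball (H := H) hS1 := ⟨f, h1.le⟩
    obtain ⟨r, hr⟩ := one_add_pow hp2 F
    refine ⟨(nball (H := H) hS1).subtype r, r.2, ?_⟩
    have h2 := congrArg (nball (H := H) hS1).subtype hr
    rw [map_pow, map_add, map_add, map_add, map_mul, map_mul, map_add, map_mul, map_pow, map_one,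
      map_natCast] at h2
    exact h2
  rw [← cv_eq, ← cv_nsmul hP, hpv, hP.zero] at hr'
  have h3 : (p : WithConv (H →ₗ[S] PadicAlgCl p)) * (f + f * f * r) = -(f ^ p) := by
    linear_combination -hr'
  have h4 : nrm hS1 (f * f * r) < nrm hS1 f := by
    refine (nrm_mul_le hS1).trans_lt ?_
    refine (mul_le_of_le_one_right (nrm_nonneg hS1 _) hr1).trans_lt ?_
    refine (nrm_mul_le hS1).trans_lt ?_
    calc nrm hS1 f * nrm hS1 f < nrm hS1 f * 1 := mul_lt_mul_of_pos_left h1 hpos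
      _ = _ := mul_one _
  have h5 : nrm hS1 f ≤ nrm hS1 (f + f * f * r) := by
    have h6 : nrm hS1 f ≤ max (nrm hS1 (f + f * f * r)) (nrm hS1 (f * f * r)) := by
      have h7 : f = (f + f * f * r) + -(f * f * r) := by ring
      conv_lhs => rw [h7]
      refine (nrm_add_le hS1).trans (max_le_max le_rfl ?_)
      rw [nrm_neg]
    rcases le_max_iff.mp h6 with h7 | h7
    · exact h7
    · exact absurd h7 (not_le.mpr h4)
  obtain ⟨x, hx⟩ := exists_nrm hS1 (f + f * f * r)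
  have h6 : ‖(p : PadicAlgCl p)‖ * nrm hS1 (f + f * f * r) ≤ nrm hS1 f ^ p := by
    rw [← hx, ← norm_mul]
    have h7 : (p : PadicAlgCl p) * (f + f * f * r) x = (-(f ^ p)) x := by
      rw [← h3, ← nsmul_eq_mul, ← nsmul_eq_mul]
      rfl
    rw [h7]
    refine (le_nrm hS1 _ _).trans ?_
    rw [nrm_neg]
    obtain ⟨n, hn⟩ : ∃ n, p = n + 1 := ⟨p - 1, by have := hp.out.pos; omega⟩
    have h8 := nrm_pow_le hS1 (f := f) n
    rwa [← hn] at h8
  have h7 : nrm hS1 f ^ p = nrm hS1 f ^ (p - 1) * nrm hS1 f := by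
    rw [← pow_succ, Nat.sub_add_cancel hp.out.pos]
  rw [h7] at h6
  exact le_of_mul_le_mul_right ((mul_le_mul_of_nonneg_left h5 (norm_nonneg _)).trans h6) hpos

/-! ### leading terms -/

theorem lead_add (hP : PtsOf P) {a : PadicAlgCl p} (ha : 0 < ‖a‖) (ha1 : ‖a‖ < 1) {v w : V}
    (hv : nrm hS1 (dd P v) ≤ ‖a‖) (hw : nrm hS1 (dd P w) ≤ ‖a‖) (h : H) :
    rdd (dd P (v + w) h / a) = rdd (dd P v h / a) + rdd (dd P w h / a) := by
  have ha0 : a ≠ 0 := norm_pos_iff.mp ha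
  have hle : ∀ v, nrm hS1 (dd P v) ≤ ‖a‖ → ‖dd P v h / a‖ ≤ 1 := fun v hv => by
    rw [norm_div]
    exact div_le_one_of_le₀ ((le_nrm hS1 _ _).trans hv) ha.le
  have hvw : nrm hS1 (dd P (v + w)) ≤ ‖a‖ := (nrm_add_dd_le hS1 hP v w).trans (max_le hv hw)
  rw [← rdd_add (hle v hv) (hle w hw), rdd_eq_iff (hle _ hvw) (by
    refine (IsUltrametricDist.norm_add_le_max _ _).trans (max_le (hle v hv) (hle w hw)))]
  have h1 : dd P (v + w) h / a - (dd P v h / a + dd P w h / a) = (dd P v * dd P w) h / a := by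
    rw [dd_add hP]
    change (dd P v h + dd P w h + (dd P v * dd P w) h) / a - _ = _
    field_simp
    ring
  rw [h1, norm_div, div_lt_one ha]
  refine (le_nrm hS1 _ _).trans_lt ((nrm_mul_le hS1).trans_lt ?_)
  calc nrm hS1 (dd P v) * nrm hS1 (dd P w) ≤ ‖a‖ * ‖a‖ :=
        mul_le_mul hv hw (nrm_nonneg hS1 _) ha.le
    _ < ‖a‖ * 1 := mul_lt_mul_of_pos_left ha1 ha
    _ = _ := mul_one _

theorem lead_zero {a : PadicAlgCl p} (ha : 0 < ‖a‖)
    (hmin : ∀ v, v ≠ 0 → ‖a‖ ≤ nrm hS1 (dd P v)) {v : V}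
    (hv : nrm hS1 (dd P v) ≤ ‖a‖) (h : ∀ x, rdd (dd P v x / a) = 0) : v = 0 := by
  by_contra hne
  have h1 := hmin v hne
  refine absurd h1 (not_le.mpr (nrm_lt hS1 fun x => ?_))
  have h2 : ‖dd P v x / a‖ ≤ 1 := by
    rw [norm_div]
    exact div_le_one_of_le₀ ((le_nrm hS1 _ _).trans hv) ha.le
  have h3 := (rdd_eq_zero_iff h2).mp (h x)
  rwa [norm_div, div_lt_one ha] at h3

end Fermat.Agent.FB
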