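import Mathlib

/-!
# `p`-th roots in complete rings
-/

set_option autoImplicit false

namespace Fermat.Agent.FB

open Polynomial

/-- completeness with respect to an element -/
structure Cpl (B : Type*) [CommRing B] (ϖ : B) : Prop where
  haus : ∀ x : B, (∀ n : ℕ, ϖ ^ n ∣ x) → x = 0
  lim : ∀ f : ℕ → B, (∀ n, ϖ ^ n ∣ f (n + 1) - f n) → ∃ l, ∀ n, ϖ ^ n ∣ l - f n

variable {B : Type*} [CommRing B] {ϖ : B}

/-- The fixed point lemma. -/
theorem Cpl.exists_fix (h : Cpl B ϖ) (N : B[X]) (c : B) : ∃ x, x + ϖ * N.eval x = c := by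
  let f : ℕ → B := fun n => Nat.rec 0 (fun _ x => c - ϖ * N.eval x) n
  have hf : ∀ n, f (n + 1) = c - ϖ * N.eval (f n) := fun n => rfl
  have h1 : ∀ n, ϖ ^ n ∣ f (n + 1) - f n := by
    intro n
    induction n with
    | zero => rw [pow_zero]; exact one_dvd _
    | succ n ih =>
      obtain ⟨k, hk⟩ := N.sub_dvd_eval_sub (f (n + 1)) (f n)
      obtain ⟨m, hm⟩ := ih
      refine ⟨-(m * k), ?_⟩
      rw [hf (n + 1), hf n, ← hf n]
      have : c - ϖ * N.eval (f (n + 1)) - (c - ϖ * N.eval (f n)) =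
          -(ϖ * (N.eval (f (n + 1)) - N.eval (f n))) := by ring
      rw [this, hk, hm]
      ring
  obtain ⟨x, hx⟩ := h.lim f h1
  refine ⟨x, ?_⟩
  rw [← sub_eq_zero]
  apply h.haus
  intro n
  obtain ⟨a, ha⟩ := hx n
  obtain ⟨b, hb⟩ := hx (n + 1)
  obtain ⟨k, hk⟩ := N.sub_dvd_eval_sub x (f n)
  refine ⟨ϖ * b + ϖ * a * k, ?_⟩
  have : x + ϖ * N.eval x - c = (x - f (n + 1)) + ϖ * (N.eval x - N.eval (f n)) := by
    rw [hf]; ring
  rw [this, hb, hk, ha]
  ring

theorem Cpl.isUnit_one_add (h : Cpl B ϖ) (b : B) : IsUnit (1 + ϖ * b) := by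
  obtain ⟨x, hx⟩ := h.exists_fix (C b * X) 1
  refine IsUnit.of_mul_eq_one x ?_
  rw [eval_mul, eval_C, eval_X] at hx
  linear_combination hx

/-- the nonlinear part of the `p`-th power map -/
theorem exists_powPoly {p : ℕ} (hp : p.Prime) (hp2 : p ≠ 2) {l l' ν : B} (hl : l = ϖ * l')
    (hν : l ^ (p - 1) = p * (ϖ * ν)) :
    ∃ N : B[X], N.eval 0 = 0 ∧ ∀ x : B, (1 + l * x) ^ p = 1 + p * l * (x + ϖ * N.eval x) := by
  obtain ⟨m, rfl⟩ : ∃ m, p = m + 3 := ⟨p - 3, by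
    have := hp.two_le
    omega⟩
  refine ⟨∑ j ∈ Finset.range (m + 1), C (((((m + 3).choose (j + 2) / (m + 3) : ℕ)) : B) *
    (l' * l ^ j)) * X ^ (j + 2) + C ν * X ^ (m + 3), ?_, fun x => ?_⟩
  · rw [eval_add, eval_finsetSum]
    simp
  · rw [add_comm 1 (l * x), add_pow, Finset.sum_range_succ, Finset.sum_range_succ',
      Finset.sum_range_succ', eval_add, eval_finsetSum]
    simp only [one_pow, mul_one, Nat.choose_self, Nat.cast_one, zero_add, pow_one,
      Nat.choose_zero_right, pow_zero, Nat.choose_one_right, eval_mul, eval_C, eval_pow, eval_X]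
    have h1 : ∀ j ∈ Finset.range (m + 1), (l * x) ^ (j + 1 + 1) * ((m + 3).choose (j + 1 + 1) : B) =
        ((m + 3 : ℕ) : B) * l * (ϖ * ((((m + 3).choose (j + 2) / (m + 3) : ℕ) : B) * (l' * l ^ j) *
          x ^ (j + 2))) := by
      intro j hj
      rw [Finset.mem_range] at hj
      have h2 : (m + 3) * ((m + 3).choose (j + 2) / (m + 3)) = (m + 3).choose (j + 2) :=
        Nat.mul_div_cancel' (hp.dvd_choose_self (by omega) (by omega))
      have h3 : ((m + 3).choose (j + 1 + 1) : B) = ((m + 3 : ℕ) : B) *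
          (((m + 3).choose (j + 2) / (m + 3) : ℕ) : B) := by
        rw [← Nat.cast_mul, h2]
      rw [h3, mul_pow, pow_succ l (j + 1), pow_succ l j]
      nth_rewrite 2 [hl]
      ring
    rw [Finset.sum_congr rfl h1, ← Finset.mul_sum, ← Finset.mul_sum]
    have h4 : (l * x) ^ (m + 3) = ((m + 3 : ℕ) : B) * l * (ϖ * (ν * x ^ (m + 3))) := by
      have h5 : l ^ (m + 3) = l * l ^ (m + 3 - 1) := by
        rw [← pow_succ']
        rfl
      rw [mul_pow, h5, hν]
      ring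
    rw [h4]
    ring

/-- Every element of `1 + p l B` is a `p`-th power of an element of `1 + l B`. -/
theorem Cpl.exists_root (h : Cpl B ϖ) {p : ℕ} (hp : p.Prime) (hp2 : p ≠ 2) {l l' ν : B}
    (hl : l = ϖ * l') (hν : l ^ (p - 1) = p * (ϖ * ν)) (c : B) :
    ∃ x, (1 + l * x) ^ p = 1 + p * l * c := by
  obtain ⟨N, -, hN⟩ := exists_powPoly hp hp2 hl hν
  obtain ⟨x, hx⟩ := h.exists_fix N c
  exact ⟨x, by rw [hN, hx]⟩

/-- An element of `1 + l B` whose `p`-th power is one is one. -/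
theorem Cpl.eq_one (h : Cpl B ϖ) {p : ℕ} (hp : p.Prime) (hp2 : p ≠ 2) {l l' ν : B}
    (hl : l = ϖ * l') (hν : l ^ (p - 1) = p * (ϖ * ν))
    (hreg : ∀ x : B, (p : B) * l * x = 0 → x = 0) {x : B} (hx : (1 + l * x) ^ p = 1) : x = 0 := by
  obtain ⟨N, hN0, hN⟩ := exists_powPoly hp hp2 hl hν
  rw [hN, add_eq_left] at hx
  have h1 := hreg _ hx
  obtain ⟨k, hk⟩ := N.sub_dvd_eval_sub x 0
  rw [hN0, sub_zero, sub_zero] at hk
  rw [hk] at h1
  have h2 : x * (1 + ϖ * k) = 0 := by linear_combination h1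
  exact (h.isUnit_one_add k).mul_left_eq_zero.mp h2

end Fermat.Agent.FB
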