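import Fermat.Agent.FB.TStr0

/-!
# The restriction to inertia of a flat irreducible representation with cyclotomic determinant
-/

set_option autoImplicit false
set_option linter.unusedSectionVars false

namespace Fermat.Agent.FB

open Fermat.Agent.Coh Fermat.Agent.GalD Fermat.Agent.LocalCFT Module WithConv
  Coalgebra Polynomial Matrix

/-! ### two by two matrices -/

section mat

variable {K : Type*} [Field K] {R M : Matrix (Fin 2) (Fin 2) K} {v w : Fin 2 → K} {x y : K}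

/-- the matrix with given columns -/
def colm (v w : Fin 2 → K) : Matrix (Fin 2) (Fin 2) K := !![v 0, w 0; v 1, w 1]

theorem mul_colm (R : Matrix (Fin 2) (Fin 2) K) (v w : Fin 2 → K) :
    R * colm v w = colm (R *ᵥ v) (R *ᵥ w) := by
  ext i j
  fin_cases i <;> fin_cases j <;>
    simp [colm, Matrix.mul_apply, Matrix.mulVec, dotProduct, Fin.sum_univ_two]

theorem colm_diag (v w : Fin 2 → K) (x y : K) :
    colm v w * !![x, 0; 0, y] = colm (x • v) (y • w) := by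
  ext i j
  fin_cases i <;> fin_cases j <;> simp [colm, Matrix.mul_apply, Fin.sum_univ_two, mul_comm]

theorem colm_swap (v w : Fin 2 → K) : (colm v w).det = -(colm w v).det := by
  rw [colm, colm, det_fin_two_of, det_fin_two_of]
  ring

theorem det_colm_ne_zero (hv : v ≠ 0) (hw : w ≠ 0) (hRv : R *ᵥ v = x • v) (hRw : R *ᵥ w = y • w)
    (hxy : x ≠ y) : (colm v w).det ≠ 0 := by
  intro hdet
  obtain ⟨u, hu0, hu⟩ := Matrix.exists_mulVec_eq_zero_iff.mpr hdet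
  have h1 : u 0 • v + u 1 • w = 0 := by
    rw [← hu]
    ext i
    fin_cases i <;> simp [colm, Matrix.mulVec, dotProduct, Fin.sum_univ_two] <;> ring
  have h2 : u 0 • (x • v) + u 1 • (y • w) = 0 := by
    have h3 := congrArg (fun z => R *ᵥ z) h1
    simpa only [mulVec_add, mulVec_smul, hRv, hRw, mulVec_zero] using h3
  have h3 : (u 0 * (x - y)) • v = 0 := by
    have h4 : (u 0 * (x - y)) • v = u 0 • (x • v) + u 1 • (y • w) - y • (u 0 • v + u 1 • w) := by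
      rw [smul_add, smul_smul, smul_smul, smul_smul, smul_smul, mul_sub, sub_smul, mul_comm y,
        mul_comm y]
      abel
    rw [h4, h1, h2, smul_zero, sub_zero]
  rcases smul_eq_zero.mp h3 with h4 | h4
  · rcases mul_eq_zero.mp h4 with h5 | h5
    · rw [h5, zero_smul, zero_add] at h1
      rcases smul_eq_zero.mp h1 with h6 | h6
      · apply hu0
        ext i
        fin_cases i
        · exact h5
        · exact h6
      · exact hw h6
    · exact hxy (sub_eq_zero.mp h5)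
  · exact hv h4

end mat

variable {p : ℕ} [hp : Fact p.Prime]

variable {k : Type*} [Field k] [Finite k] [CharP k p]

theorem exists_embed : Nonempty (k →+* KK p) := by
  let _ : Algebra (ZMod p) k := ZMod.algebra k p
  have : Module.Finite (ZMod p) k := Module.Finite.of_finite
  exact ⟨((IsAlgClosed.lift : k →ₐ[ZMod p] KK p) : k →+* KK p)⟩

/-- the embedding with prescribed eigenvalue -/
theorem exists_embed_eig [Algebra (ZMod p) k] {R : Matrix (Fin 2) (Fin 2) k} {χ : KK p}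
    (hR : aeval R (minpoly (ZMod p) χ) = 0) :
    ∃ (j : k →+* KK p) (v : Fin 2 → KK p), v ≠ 0 ∧ j.mapMatrix R *ᵥ v = χ • v := by
  have : Module.Finite (ZMod p) k := Module.Finite.of_finite
  let j₀ : k →ₐ[ZMod p] KK p := IsAlgClosed.lift
  obtain ⟨x, hx⟩ := IsAlgClosed.exists_root (j₀.mapMatrix R).charpoly (by
    rw [Matrix.charpoly_degree_eq_dim]
    simp)
  have hdet : (x • (1 : Matrix (Fin 2) (Fin 2) (KK p)) - j₀.mapMatrix R).det = 0 := by
    rw [IsRoot.def, Matrix.eval_charpoly] at hx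
    rw [← hx]
    congr 2
    ext i j
    simp [Matrix.scalar_apply, Matrix.diagonal_apply, Matrix.one_apply]
  obtain ⟨v, hv0, hv⟩ := Matrix.exists_mulVec_eq_zero_iff.mpr hdet
  have hv1 : j₀.mapMatrix R *ᵥ v = x • v := by
    rw [sub_mulVec, sub_eq_zero, Matrix.smul_mulVec, one_mulVec] at hv
    exact hv.symm
  have hq : aeval x (minpoly (ZMod p) χ) = 0 := by
    have h1 := aeval_eig hv1 (minpoly (ZMod p) χ)
    rw [aeval_algHom_apply, hR, map_zero, zero_mulVec] at h1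
    exact (smul_eq_zero.mp h1.symm).resolve_right hv0
  obtain ⟨σ, hσ⟩ := exists_conj hq
  have h2 : (χ • (1 : Matrix (Fin 2) (Fin 2) (KK p)) -
      ((σ : KK p →+* KK p).comp (j₀ : k →+* KK p)).mapMatrix R).det = 0 := by
    have h3 := congrArg (σ : KK p →+* KK p) hdet
    rw [RingHom.map_det, map_zero] at h3
    rw [← h3]
    congr 1
    ext i j
    simp [Matrix.one_apply, ← hσ, apply_ite]
  obtain ⟨w, hw0, hw⟩ := Matrix.exists_mulVec_eq_zero_iff.mpr h2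
  refine ⟨(σ : KK p →+* KK p).comp (j₀ : k →+* KK p), w, hw0, ?_⟩
  rw [sub_mulVec, sub_eq_zero, Matrix.smul_mulVec, one_mulVec] at hw
  exact hw.symm

section main

variable {S : Type*} [CommRing S] [Algebra S (PadicAlgCl p)]
  (hS1 : ∀ s : S, ‖algebraMap S (PadicAlgCl p) s‖ ≤ 1)
  (hS2 : ∀ (g : Gp p) (s : S), g (algebraMap S (PadicAlgCl p) s) = algebraMap S (PadicAlgCl p) s)
  {H : Type*} [CommRing H] [Bialgebra S H] [Module.Free S H] [IsCocomm S H]
  [Module.Finite S H]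
  {ρ : Gp p →* Matrix (Fin 2) (Fin 2) k} {P : (Fin 2 → k) → (H →ₐ[S] PadicAlgCl p)}

theorem det_cyc (hdet : ∀ (g : Gp p) (m : ℕ), g (zp p) = zp p ^ m → (ρ g).det = (m : k))
    (j : k →+* KK p) {τ : Gp p} (hτ : τ ∈ II p) : j (ρ τ).det = tc (wp p) τ ^ (p + 1) := by
  obtain ⟨m, hm⟩ := exists_cyc (zp_prim (p := p)) τ
  rw [hdet τ m hm, map_natCast, th_pow_cyc zp_prim hτ hm]

/-- a power of the ramified uniformizer -/
theorem exists_pow_norm {a : PadicAlgCl p} {τ₀ : Gp p} (ha0 : a ≠ 0)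
    (hper : (τ₀ ^ (p ^ 2 - 1)) a = a)
    (hgen : ∀ τ ∈ II p, ∃ n : ℕ, ∀ i : ℕ, (τ * τ₀ ^ i) a = (τ₀ ^ (n + i)) a) :
    ∃ m : ℤ, ‖a‖ = ‖wp p‖ ^ m := by
  set N := p ^ 2 - 1 with hN
  let b : PadicAlgCl p := ∏ i ∈ Finset.range N, (τ₀ ^ i) a
  have hb0 : b ≠ 0 := Finset.prod_ne_zero_iff.mpr fun i _ => (_root_.map_ne_zero _).mpr ha0
  have h1 : τ₀ b = b := by
    have h2 : τ₀ b * a = b * a := by
      have h3 : τ₀ b = ∏ i ∈ Finset.range N, (τ₀ ^ (i + 1)) a := by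
        rw [map_prod]
        refine Finset.prod_congr rfl fun i _ => ?_
        rw [pow_succ', AlgEquiv.mul_apply]
      have h4 := Finset.prod_range_succ' (fun i => (τ₀ ^ i) a) N
      have h5 := Finset.prod_range_succ (fun i => (τ₀ ^ i) a) N
      rw [h3]
      rw [h5, hper, pow_zero, AlgEquiv.one_apply] at h4
      exact h4.symm
    exact mul_right_cancel₀ ha0 h2
  have h2 : ∀ n : ℕ, (τ₀ ^ n) b = b := by
    intro n
    induction n with
    | zero => rw [pow_zero, AlgEquiv.one_apply]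
    | succ n ih => rw [pow_succ, AlgEquiv.mul_apply, h1, ih]
  have h3 : ∀ τ ∈ II p, τ b = b := by
    intro τ hτ
    obtain ⟨n, hn⟩ := hgen τ hτ
    have h4 : τ b = (τ₀ ^ n) b := by
      rw [map_prod, map_prod]
      refine Finset.prod_congr rfl fun i _ => ?_
      rw [← AlgEquiv.mul_apply, ← AlgEquiv.mul_apply, hn, pow_add]
    rw [h4, h2]
  obtain ⟨m, hm⟩ := norm_II hb0 h3
  refine ⟨m, ?_⟩
  have h4 : ‖b‖ = ‖a‖ ^ N := by
    rw [norm_prod, Finset.prod_congr rfl (fun i _ => norm_gal (τ₀ ^ i) a), Finset.prod_const,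
      Finset.card_range]
  have h5 : (‖a‖ : ℝ) ^ N = (‖wp p‖ ^ m) ^ N := by
    rw [← h4, hm, ← norm_wp_pow, ← _root_.zpow_natCast, ← _root_.zpow_natCast,
      ← _root_.zpow_mul, ← _root_.zpow_mul, mul_comm m]
  exact (pow_left_inj₀ (norm_nonneg _) (zpow_nonneg (norm_nonneg _) _) ee_pos.ne').mp h5

/-- the case of scalar inertia is impossible -/
theorem not_scalar (hp2 : p ≠ 2)
    (hdet : ∀ (g : Gp p) (m : ℕ), g (zp p) = zp p ^ m → (ρ g).det = (m : k))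
    (h : ∀ τ ∈ II p, ∃ n : ℕ, ρ τ = (n : Matrix (Fin 2) (Fin 2) k)) : False := by
  obtain ⟨j⟩ := exists_embed (p := p) (k := k)
  obtain ⟨τ, hτ, hprim⟩ := exists_tau (p := p)
  obtain ⟨n, hn⟩ := h τ hτ
  have h1 := det_cyc hdet j hτ
  have h2 : (ρ τ).det = (n : k) ^ 2 := by
    rw [hn, ← nsmul_one, det_fin_two]
    simp [sq]
  rw [h2, map_pow, map_natCast] at h1
  have hp3 : 3 ≤ p := by have := hp.out.two_le; omega
  obtain ⟨q, hq⟩ : ∃ q, p = 2 * q + 1 := by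
    obtain ⟨q, hq⟩ := hp.out.odd_of_ne_two hp2
    exact ⟨q, hq⟩
  have hn0 : (n : KK p) ≠ 0 := by
    intro h0
    rw [h0, zero_pow two_ne_zero] at h1
    exact tc_ne_zero wp_ne_zero τ (eq_zero_of_pow_eq_zero h1.symm)
  have h3 : (n : KK p) ^ (2 * q) = 1 := by
    have h4 : (n : KK p) ^ p = n := by
      have h5 := congrArg (algebraMap (ZMod p) (KK p)) (ZMod.pow_card (n : ZMod p))
      rwa [map_pow, map_natCast] at h5
    have h5 : (n : KK p) ^ (2 * q) * n = 1 * n := by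
      rw [← pow_succ, ← hq, h4, one_mul]
    exact mul_right_cancel₀ hn0 h5
  have h4 : tc (wp p) τ ^ ((p + 1) * q) = 1 := by
    rw [pow_mul, ← h1, ← pow_mul, h3]
  have h5 := hprim.dvd_of_pow_eq_one _ h4
  rw [ee_eq] at h5
  have h6 : p - 1 ∣ q := Nat.dvd_of_mul_dvd_mul_left (Nat.succ_pos p) h5
  have h7 := Nat.le_of_dvd (by omega) h6
  omega

include hS1 hS2 in
/-- **The restriction to inertia.** -/
theorem exists_diag (hp2 : p ≠ 2) (hP : PtsOf P) (hE : ∀ g v h, g (P v h) = P (ρ g *ᵥ v) h)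
    (hirr : ∀ W : Submodule k (Fin 2 → k), (∀ g, ∀ v ∈ W, ρ g *ᵥ v ∈ W) → W = ⊥ ∨ W = ⊤)
    (hdet : ∀ (g : Gp p) (m : ℕ), g (zp p) = zp p ^ m → (ρ g).det = (m : k)) :
    ∃ (j : k →+* KK p) (M : Matrix (Fin 2) (Fin 2) (KK p)), M.det ≠ 0 ∧
      ∀ τ ∈ II p, j.mapMatrix (ρ τ) * M =
        M * !![tc (wp p) τ, 0; 0, tc (wp p) τ ^ p] := by
  let _ : Algebra (ZMod p) k := ZMod.algebra k p
  obtain ⟨v₀, h₀, hv₀, ha, hv₀a, hmin⟩ := exists_min_dd hS1 hP
  set a := dd P v₀ h₀ with hadef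
  have ha0 : a ≠ 0 := norm_pos_iff.mp ha
  have hp3 : 3 ≤ p := by have := hp.out.two_le; omega
  -- the norm is less than one
  have ha1 : ‖a‖ < 1 := by
    by_contra hge
    rw [not_lt] at hge
    refine not_scalar hp2 hdet fun τ hτ => ⟨1, ?_⟩
    rw [Nat.cast_one]
    exact rho_II_eq_one hS1 hP hE (fun v hv => hge.trans (hmin v hv)) hτ
  have key : ∀ {τ : Gp p}, τ ∈ II p → ∀ {f : (ZMod p)[X]}, aeval (tc a τ) f = 0 →
      aeval (ρ τ) f = 0 := fun {τ} hτ {f} hf =>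
    aeval_rho_eq_zero hS1 hS2 hP hE hv₀ ha ha1 hv₀a.le hmin hirr hτ hf
  have key1 : ∀ {τ : Gp p}, τ ∈ II p → tc a τ = 1 → ρ τ = 1 := by
    intro τ hτ h
    have h1 := key hτ (f := X - 1) (by rw [map_sub, aeval_X, map_one, h, sub_self])
    rwa [map_sub, aeval_X, map_one, sub_eq_zero] at h1
  have hmul : ∀ {σ τ : Gp p}, σ ∈ II p → τ ∈ II p → tc a (σ * τ) = tc a σ * tc a τ :=
    fun {σ τ} hσ _ => tc_mul ha0 hσ τ
  have key2 : ∀ {σ τ : Gp p}, σ ∈ II p → τ ∈ II p → tc a σ = tc a τ → ρ σ = ρ τ := by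
    intro σ τ hσ hτ h
    have h1 : tc a (τ⁻¹ * σ) = 1 := by
      rw [tc_mul ha0 ((II p).inv_mem hτ), h, ← tc_mul ha0 ((II p).inv_mem hτ), inv_mul_cancel,
        tc_one ha0]
    have h2 := key1 ((II p).mul_mem ((II p).inv_mem hτ) hσ) h1
    calc ρ σ = ρ (τ * (τ⁻¹ * σ)) := by rw [mul_inv_cancel_left]
      _ = ρ τ := by rw [map_mul, h2, mul_one]
  have hfix : ∀ {σ τ : Gp p}, ρ σ = ρ τ → σ a = τ a := by
    intro σ τ h
    rw [hadef, ← dd_gal hS2 hE, ← dd_gal hS2 hE, h]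
  -- a generator
  let Θ : II p →* (KK p)ˣ :=
    { toFun := fun τ => Units.mk0 (tc a (τ : Gp p)) (tc_ne_zero ha0 _)
      map_one' := Units.ext (tc_one ha0)
      map_mul' := fun σ τ => Units.ext (hmul σ.2 τ.2) }
  have hfin : Finite Θ.range := by
    have h1 : ∀ u : Θ.range, ∃ τ : II p, Θ τ = u := fun u => u.2
    choose t ht using h1
    refine Finite.of_injective (fun u => ρ (t u : Gp p)) fun u u' h => ?_
    apply Subtype.ext
    rw [← ht, ← ht]
    apply Units.ext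
    change rdd _ = rdd _
    rw [hfix h]
  obtain ⟨u₀, hu₀⟩ := IsCyclic.exists_monoid_generator (α := Θ.range)
  obtain ⟨τ₀, hτ₀⟩ := u₀.2
  have hgen0 : ∀ τ ∈ II p, ∃ n : ℕ, tc a τ = tc a (τ₀ : Gp p) ^ n := by
    intro τ hτ
    obtain ⟨n, hn⟩ := hu₀ ⟨Θ ⟨τ, hτ⟩, ⟨_, rfl⟩⟩
    refine ⟨n, ?_⟩
    have h1 := congrArg (fun u : Θ.range => ((u : (KK p)ˣ) : KK p)) hn
    simp only [SubmonoidClass.coe_pow, Units.val_pow_eq_pow_val] at h1
    rw [← hτ₀] at h1
    exact h1.symm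
  obtain ⟨τ₀, hτ₀I⟩ := τ₀
  replace hgen0 : ∀ τ ∈ II p, ∃ n : ℕ, tc a τ = tc a τ₀ ^ n := hgen0
  set χ := tc a τ₀ with hχ
  have hχ0 : χ ≠ 0 := tc_ne_zero ha0 _
  have hgen : ∀ τ ∈ II p, ∃ n : ℕ, tc a τ = χ ^ n ∧ ρ τ = ρ τ₀ ^ n := by
    intro τ hτ
    obtain ⟨n, hn⟩ := hgen0 τ hτ
    refine ⟨n, hn, ?_⟩
    rw [← map_pow]
    exact key2 hτ ((II p).pow_mem hτ₀I n) (by rw [tc_pow_left ha0 hτ₀I, hn])
  -- the embedding
  obtain ⟨j, v, hv0, hv⟩ := exists_embed_eig (key hτ₀I (minpoly.aeval (ZMod p) χ))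
  obtain ⟨φ, hφ1, hφ2⟩ := exists_frob (p := p)
  have hconj : ρ (φ * τ₀ * φ⁻¹) = ρ τ₀ ^ p := by
    rw [← map_pow]
    refine key2 ((normal_II (p := p)).conj_mem _ hτ₀I φ) ((II p).pow_mem hτ₀I p) ?_
    rw [tc_conj ha0 φ hτ₀I, hφ2, tc_pow_left ha0 hτ₀I]
  have hcomm : ρ τ₀ * ρ φ⁻¹ = ρ φ⁻¹ * ρ τ₀ ^ p := by
    rw [← hconj, ← map_mul, ← map_mul]
    congr 1
    group
  have hpow : ∀ n : ℕ, (j.mapMatrix (ρ τ₀) ^ n) *ᵥ v = χ ^ n • v := by
    intro n
    induction n with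
    | zero => rw [pow_zero, pow_zero, one_mulVec, one_smul]
    | succ n ih =>
      rw [pow_succ, ← mulVec_mulVec, hv, mulVec_smul, ih, smul_smul, pow_succ, mul_comm]
  have hwv : j.mapMatrix (ρ τ₀) *ᵥ (j.mapMatrix (ρ φ⁻¹) *ᵥ v) =
      χ ^ p • (j.mapMatrix (ρ φ⁻¹) *ᵥ v) := by
    rw [mulVec_mulVec, ← map_mul, hcomm, map_mul, ← mulVec_mulVec, map_pow, hpow, mulVec_smul]
  set w := j.mapMatrix (ρ φ⁻¹) *ᵥ v with hw
  have hw0 : w ≠ 0 := by
    intro h0
    apply hv0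
    have h1 : j.mapMatrix (ρ φ) *ᵥ w = v := by
      rw [hw, mulVec_mulVec, ← map_mul, ← map_mul, mul_inv_cancel, map_one, map_one, one_mulVec]
    rw [← h1, h0, mulVec_zero]
  -- the eigenvalues are different
  have hne : χ ≠ χ ^ p := by
    intro h
    have : CharP (KK p) p := charP_KK
    obtain ⟨m, hm⟩ := exists_natCast_of_pow (p := p) (E := KK p) h.symm
    refine not_scalar hp2 hdet fun τ hτ => ?_
    obtain ⟨n, hn1, hn2⟩ := hgen τ hτ
    have h1 := key hτ₀I (f := X - (m : (ZMod p)[X]))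
      (by rw [map_sub, aeval_X, map_natCast, hm, sub_self])
    rw [map_sub, aeval_X, map_natCast, sub_eq_zero] at h1
    exact ⟨m ^ n, by rw [hn2, h1, Nat.cast_pow]⟩
  have hM := det_colm_ne_zero hv0 hw0 hv hwv hne
  have hdv : ∀ τ ∈ II p, j.mapMatrix (ρ τ) *ᵥ v = tc a τ • v := by
    intro τ hτ
    obtain ⟨n, hn1, hn2⟩ := hgen τ hτ
    rw [hn2, map_pow, hpow, hn1]
  have hdw : ∀ τ ∈ II p, j.mapMatrix (ρ τ) *ᵥ w = tc a τ ^ p • w := by
    intro τ hτ
    obtain ⟨n, hn1, hn2⟩ := hgen τ hτ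
    have hpw : ∀ n : ℕ, (j.mapMatrix (ρ τ₀) ^ n) *ᵥ w = (χ ^ p) ^ n • w := by
      intro n
      induction n with
      | zero => rw [pow_zero, pow_zero, one_mulVec, one_smul]
      | succ n ih =>
        rw [pow_succ, ← mulVec_mulVec, hwv, mulVec_smul, ih, smul_smul, pow_succ, mul_comm]
    rw [hn2, map_pow, hpw, hn1, ← pow_mul, ← pow_mul, mul_comm p n]
  have hdiag : ∀ τ ∈ II p, j.mapMatrix (ρ τ) * colm v w =
      colm v w * !![tc a τ, 0; 0, tc a τ ^ p] := by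
    intro τ hτ
    rw [mul_colm, colm_diag, hdv τ hτ, hdw τ hτ]
  have hdet2 : ∀ τ ∈ II p, tc a τ ^ (p + 1) = tc (wp p) τ ^ (p + 1) := by
    intro τ hτ
    rw [← det_cyc hdet j hτ, RingHom.map_det]
    have h1 := congrArg Matrix.det (hdiag τ hτ)
    rw [det_mul, det_mul, mul_comm] at h1
    rw [mul_left_cancel₀ hM h1, det_fin_two_of, mul_zero, sub_zero, pow_succ']
  -- the norm
  have hper : ∀ τ ∈ II p, (τ ^ (p ^ 2 - 1)) a = a := by
    intro τ hτ
    have h1 : ρ (τ ^ (p ^ 2 - 1)) = ρ 1 := by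
      rw [map_one]
      apply key1 ((II p).pow_mem hτ _)
      rw [tc_pow_left ha0 hτ, ee_eq, pow_mul, hdet2 τ hτ, ← pow_mul, ← ee_eq, th_pow]
    rw [hfix h1, AlgEquiv.one_apply]
  obtain ⟨m, hm⟩ := exists_pow_norm ha0 (hper τ₀ hτ₀I) (fun τ hτ => by
    obtain ⟨n, -, hn2⟩ := hgen τ hτ
    refine ⟨n, fun i => hfix ?_⟩
    rw [map_mul, hn2, map_pow, map_pow, ← pow_add])
  have hm1 : 0 < m := by
    have h1 : ‖wp p‖ ^ m < ‖wp p‖ ^ (0 : ℤ) := by rw [← hm, zpow_zero]; exact ha1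
    exact (zpow_right_strictAnti₀ norm_wp_pos norm_wp_lt_one).lt_iff_gt.mp h1
  lift m to ℕ using hm1.le with n
  rw [_root_.zpow_natCast] at hm
  have hn0 : 0 < n := by exact_mod_cast hm1
  have hn2 : n ≤ p + 1 := by
    have hpv : p • v₀ = 0 := by
      funext i
      rw [Pi.smul_apply, nsmul_eq_mul, CharP.cast_eq_zero, zero_mul]
      rfl
    have h1 := norm_p_le_pow hS1 hp2 hP hv₀ hpv (by rw [hv₀a]; exact ha1)
    rw [hv₀a, hm, ← pow_mul, ← norm_wp_pow,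
      pow_le_pow_iff_right_of_lt_one₀ norm_wp_pos norm_wp_lt_one, ee_eq] at h1
    exact Nat.le_of_mul_le_mul_right h1 (by omega)
  have htc : ∀ τ ∈ II p, tc a τ = tc (wp p) τ ^ n := by
    intro τ hτ
    rw [← tc_pow_arg wp_ne_zero]
    exact tc_congr ha0 (by rw [hm, norm_pow]) hτ
  have hn3 : n = 1 ∨ n = p := by
    obtain ⟨τ, hτ, hprim⟩ := exists_tau (p := p)
    have h1 := hdet2 τ hτ
    rw [htc τ hτ, ← pow_mul] at h1
    have h2 : n * (p + 1) ≡ p + 1 [MOD (p ^ 2 - 1)] := pow_modEq hprim ee_pos h1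
    rw [ee_eq, mul_comm n] at h2
    have h3 : n ≡ 1 [MOD (p - 1)] :=
      Nat.ModEq.mul_left_cancel' (Nat.succ_ne_zero p) (by rwa [mul_one])
    have h4 : p - 1 ∣ n - 1 := (Nat.modEq_iff_dvd' (by omega)).mp h3.symm
    obtain ⟨c, hc⟩ := h4
    have h5 : c < 2 := by
      by_contra hge
      have h6 : (p - 1) * 2 ≤ (p - 1) * c := Nat.mul_le_mul_left _ (by omega)
      omega
    interval_cases c
    · left; omega
    · right; omega
  rcases hn3 with rfl | rfl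
  · refine ⟨j, colm v w, hM, fun τ hτ => ?_⟩
    rw [hdiag τ hτ, htc τ hτ, pow_one]
  · refine ⟨j, colm w v, ?_, fun τ hτ => ?_⟩
    · rw [colm_swap]
      exact neg_ne_zero.mpr hM
    · rw [mul_colm, colm_diag, hdv τ hτ, hdw τ hτ, htc τ hτ, ← pow_mul, ← sq]
      rw [mem_FF'.mp (th_mem τ)]

end main

end Fermat.Agent.FB
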