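import Fermat.Agent.FB.AlgCl

/-!
# Flat representations: the leading terms
-/

set_option autoImplicit false
set_option linter.unusedSectionVars false

namespace Fermat.Agent.FB

open Fermat.Agent.Coh Fermat.Agent.GalD Fermat.Agent.LocalCFT Module WithConv
  Coalgebra Polynomial Matrix

/-! ### polynomials in matrices -/

theorem aeval_comm {R A : Type*} [CommSemiring R] [Semiring A] [Algebra R A] {a b c : A}
    (h : a * c = c * b) (f : R[X]) : aeval a f * c = c * aeval b f := by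
  induction f using Polynomial.induction_on with
  | C r => rw [aeval_C, aeval_C, Algebra.commutes]
  | add f g hf hg => rw [map_add, map_add, add_mul, mul_add, hf, hg]
  | monomial n r h1 =>
    rw [pow_succ, ← mul_assoc, map_mul, map_mul (aeval b), aeval_X, aeval_X, mul_assoc, h,
      ← mul_assoc, h1, mul_assoc]

theorem aeval_eig {F K : Type*} [Field F] [Field K] [Algebra F K] {A : Matrix (Fin 2) (Fin 2) K}
    {v : Fin 2 → K} {x : K} (h : A *ᵥ v = x • v) (f : F[X]) : aeval A f *ᵥ v = aeval x f • v := by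
  induction f using Polynomial.induction_on with
  | C r =>
    rw [aeval_C, aeval_C, Algebra.algebraMap_eq_smul_one, Matrix.smul_mulVec, Matrix.one_mulVec,
      algebraMap_smul]
  | add f g hf hg => rw [map_add, map_add, Matrix.add_mulVec, add_smul, hf, hg]
  | monomial n r h1 =>
    rw [pow_succ, ← mul_assoc, map_mul (aeval A), map_mul (aeval x), aeval_X, aeval_X,
      ← Matrix.mulVec_mulVec, h, Matrix.mulVec_smul, h1, smul_smul, mul_comm]

theorem mat_ext {K : Type*} [CommRing K] {A B : Matrix (Fin 2) (Fin 2) K}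
    (h : ∀ v, A *ᵥ v = B *ᵥ v) : A = B := Matrix.ext_of_mulVec_single fun _ => h _

variable {p : ℕ} [hp : Fact p.Prime]

variable {S : Type*} [CommRing S] [Algebra S (PadicAlgCl p)]
  (hS1 : ∀ s : S, ‖algebraMap S (PadicAlgCl p) s‖ ≤ 1)
  (hS2 : ∀ (g : Gp p) (s : S), g (algebraMap S (PadicAlgCl p) s) = algebraMap S (PadicAlgCl p) s)
  {H : Type*} [CommRing H] [Bialgebra S H] [Module.Free S H] [IsCocomm S H]
  [Module.Finite S H]

variable {k : Type*} [Field k] [Finite k] [CharP k p]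
  {ρ : Gp p →* Matrix (Fin 2) (Fin 2) k} {P : (Fin 2 → k) → (H →ₐ[S] PadicAlgCl p)}
  (hP : PtsOf P) (hE : ∀ g v h, g (P v h) = P (ρ g *ᵥ v) h)

include hS2 hE in
theorem dd_gal (g : Gp p) (v : Fin 2 → k) (x : H) : dd P (ρ g *ᵥ v) x = g (dd P v x) := by
  rw [dd_apply, dd_apply, map_sub, hE, hS2]

include hS2 hE in
theorem nrm_dd_gal (g : Gp p) (v : Fin 2 → k) :
    nrm hS1 (dd P (ρ g *ᵥ v)) = nrm hS1 (dd P v) := by
  have h1 : ∀ (g : Gp p) (v : Fin 2 → k), nrm hS1 (dd P (ρ g *ᵥ v)) ≤ nrm hS1 (dd P v) :=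
    fun g v => nrm_le hS1 fun x => by
      rw [dd_gal hS2 hE, norm_gal]
      exact le_nrm hS1 _ _
  refine le_antisymm (h1 g v) ?_
  have h2 := h1 g⁻¹ (ρ g *ᵥ v)
  rwa [mulVec_mulVec, ← map_mul, inv_mul_cancel, map_one, one_mulVec] at h2

include hP hE in
theorem rho_II_eq_one (hmin : ∀ v, v ≠ 0 → 1 ≤ nrm hS1 (dd P v)) {τ : Gp p} (hτ : τ ∈ II p) :
    ρ τ = 1 := by
  apply mat_ext
  intro v
  rw [one_mulVec]
  by_contra hne
  refine absurd (hmin (ρ τ *ᵥ v - v) (sub_ne_zero.mpr hne)) (not_le.mpr ?_)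
  have h2 : dd P (ρ τ *ᵥ v - v) = (cv (P (ρ τ *ᵥ v)) - cv (P v)) * cv (P (-v)) := by
    have h3 := hP.add v (-v)
    rw [add_neg_cancel, hP.zero] at h3
    rw [dd, sub_eq_add_neg (ρ τ *ᵥ v) v, hP.add, sub_mul, ← h3]
  rw [h2]
  refine (nrm_mul_le hS1).trans_lt ?_
  refine (mul_le_of_le_one_right (nrm_nonneg hS1 _) (nrm_cv_le hS1 _)).trans_lt ?_
  refine nrm_lt hS1 fun x => ?_
  change ‖P (ρ τ *ᵥ v) x - P v x‖ < 1
  rw [← hE]
  exact norm_sub_lt_II hτ (norm_point_le hS1 _ _)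

include hP in
theorem exists_min_dd : ∃ (v₀ : Fin 2 → k) (h₀ : H), v₀ ≠ 0 ∧ 0 < ‖dd P v₀ h₀‖ ∧
    nrm hS1 (dd P v₀) = ‖dd P v₀ h₀‖ ∧
    ∀ v, v ≠ 0 → ‖dd P v₀ h₀‖ ≤ nrm hS1 (dd P v) := by
  have : Nonempty {v : Fin 2 → k // v ≠ 0} := ⟨⟨1, one_ne_zero⟩⟩
  obtain ⟨v₀, hv₀⟩ := Finite.exists_min (fun v : {v : Fin 2 → k // v ≠ 0} => nrm hS1 (dd P v.1))
  obtain ⟨h₀, hh₀⟩ := exists_nrm hS1 (dd P v₀.1)
  refine ⟨v₀.1, h₀, v₀.2, ?_, hh₀.symm, fun v hv => ?_⟩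
  · rw [hh₀]
    exact nrm_dd_pos hS1 hP v₀.2
  · rw [hh₀]
    exact hv₀ ⟨v, hv⟩

theorem tc_conj {a : PadicAlgCl p} (ha : a ≠ 0) (g : Gp p) {τ : Gp p} (hτ : τ ∈ II p) :
    tc a (g * τ * g⁻¹) = gbar g (tc a τ) := by
  have hga : g⁻¹ a ≠ 0 := (_root_.map_ne_zero _).mpr ha
  have h1 : tc (g⁻¹ a) τ = tc a τ := tc_congr hga (norm_gal _ _) hτ
  rw [← h1, tc, tc, ← rdd_gal g (norm_gal_div hga τ).le, map_div₀]
  have h2 : g (g⁻¹ a) = a := by
    rw [← AlgEquiv.mul_apply, mul_inv_cancel, AlgEquiv.one_apply]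
  rw [h2]
  rfl

/-! ### the leading term -/

variable {a : PadicAlgCl p} (ha : 0 < ‖a‖) (ha1 : ‖a‖ < 1)

include hP ha ha1 in
theorem lead_nsmul {v : Fin 2 → k} (hv : nrm hS1 (dd P v) ≤ ‖a‖) (n : ℕ) :
    nrm hS1 (dd P (n • v)) ≤ ‖a‖ ∧
      ∀ x, rdd (dd P (n • v) x / a) = n * rdd (dd P v x / a) := by
  induction n with
  | zero =>
    rw [zero_nsmul, dd_zero hP]
    refine ⟨by rw [nrm_zero]; exact ha.le, fun x => ?_⟩
    have h1 : (0 : WithConv (H →ₗ[S] PadicAlgCl p)) x = 0 := rfl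
    rw [h1, zero_div, rdd_zero, Nat.cast_zero, zero_mul]
  | succ n ih =>
    rw [succ_nsmul]
    refine ⟨(nrm_add_dd_le hS1 hP _ _).trans (max_le ih.1 hv), fun x => ?_⟩
    rw [lead_add hS1 hP ha ha1 ih.1 hv, ih.2, Nat.cast_succ, add_mul, one_mul]

include hS2 hE ha in
theorem lead_gal {v : Fin 2 → k} (hv : nrm hS1 (dd P v) ≤ ‖a‖) {τ : Gp p} (hτ : τ ∈ II p)
    (x : H) : rdd (dd P (ρ τ *ᵥ v) x / a) = tc a τ * rdd (dd P v x / a) := by
  have ha0 : a ≠ 0 := norm_pos_iff.mp ha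
  have hle : ‖dd P v x / a‖ ≤ 1 := by
    rw [norm_div]
    exact div_le_one_of_le₀ ((le_nrm hS1 _ _).trans hv) ha.le
  have h1 : dd P (ρ τ *ᵥ v) x / a = (τ a / a) * τ (dd P v x / a) := by
    rw [dd_gal hS2 hE, map_div₀]
    have hτa : τ a ≠ 0 := (_root_.map_ne_zero τ).mpr ha0
    field_simp
  rw [h1, rdd_mul (norm_gal_div ha0 τ).le (by rw [norm_gal]; exact hle), rdd_gal τ hle, hτ]
  rfl

include hS2 hP hE ha ha1 in
theorem lead_aeval [Algebra (ZMod p) k] {τ : Gp p} (hτ : τ ∈ II p) (f : (ZMod p)[X]) :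
    ∀ {v : Fin 2 → k}, nrm hS1 (dd P v) ≤ ‖a‖ → nrm hS1 (dd P (aeval (ρ τ) f *ᵥ v)) ≤ ‖a‖ ∧
      ∀ x, rdd (dd P (aeval (ρ τ) f *ᵥ v) x / a) = aeval (tc a τ) f * rdd (dd P v x / a) := by
  induction f using Polynomial.induction_on with
  | C r =>
    intro v hv
    obtain ⟨n, rfl⟩ := ZMod.natCast_zmod_surjective r
    have h1 : aeval (ρ τ) (C (n : ZMod p)) *ᵥ v = n • v := by
      rw [map_natCast, map_natCast, ← nsmul_one, Matrix.smul_mulVec, Matrix.one_mulVec]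
    have h2 : aeval (tc a τ) (C (n : ZMod p)) = (n : KK p) := by
      rw [map_natCast, map_natCast]
    rw [h1, h2]
    exact lead_nsmul hS1 hP ha ha1 hv n
  | add f g hf hg =>
    intro v hv
    rw [map_add, map_add, Matrix.add_mulVec]
    obtain ⟨h1, h2⟩ := hf hv
    obtain ⟨h3, h4⟩ := hg hv
    refine ⟨(nrm_add_dd_le hS1 hP _ _).trans (max_le h1 h3), fun x => ?_⟩
    rw [lead_add hS1 hP ha ha1 h1 h3, h2, h4, add_mul]
  | monomial n r h1 =>
    intro v hv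
    have h2 : nrm hS1 (dd P (ρ τ *ᵥ v)) ≤ ‖a‖ := by rwa [nrm_dd_gal hS1 hS2 hE]
    obtain ⟨h3, h4⟩ := h1 h2
    rw [pow_succ, ← mul_assoc, map_mul, map_mul (aeval (tc a τ)), aeval_X, aeval_X,
      ← Matrix.mulVec_mulVec]
    refine ⟨h3, fun x => ?_⟩
    rw [h4, lead_gal hS1 hS2 hE ha hv hτ, mul_assoc]

include hS1 hS2 hP hE in
/-- **Polynomial relations of the tame character hold for the representation.** -/
theorem aeval_rho_eq_zero [Algebra (ZMod p) k] {v₀ : Fin 2 → k} (hv₀ : v₀ ≠ 0) (ha : 0 < ‖a‖)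
    (ha1 : ‖a‖ < 1) (hv₀a : nrm hS1 (dd P v₀) ≤ ‖a‖)
    (hmin : ∀ v, v ≠ 0 → ‖a‖ ≤ nrm hS1 (dd P v))
    (hirr : ∀ W : Submodule k (Fin 2 → k), (∀ g, ∀ v ∈ W, ρ g *ᵥ v ∈ W) → W = ⊥ ∨ W = ⊤)
    {τ : Gp p} (hτ : τ ∈ II p) {f : (ZMod p)[X]} (hf : aeval (tc a τ) f = 0) :
    aeval (ρ τ) f = 0 := by
  have ha0 : a ≠ 0 := norm_pos_iff.mp ha
  let W : Submodule k (Fin 2 → k) :=
    { carrier := {v | ∀ σ ∈ II p, aeval (tc a σ) f = 0 → aeval (ρ σ) f *ᵥ v = 0}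
      add_mem' := fun {v w} hv hw σ hσ h => by
        rw [mulVec_add, hv σ hσ h, hw σ hσ h, add_zero]
      zero_mem' := fun σ hσ h => mulVec_zero _
      smul_mem' := fun c v hv σ hσ h => by
        rw [mulVec_smul, hv σ hσ h, smul_zero] }
  have hW : ∀ g, ∀ v ∈ W, ρ g *ᵥ v ∈ W := by
    intro g v hv σ hσ h
    have h1 : ρ σ * ρ g = ρ g * ρ (g⁻¹ * σ * g) := by
      rw [← map_mul, ← map_mul]
      congr 1
      group
    rw [mulVec_mulVec, aeval_comm h1 f, ← mulVec_mulVec]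
    have h2 : tc a (g⁻¹ * σ * g) = gbar g⁻¹ (tc a σ) := by
      have h3 := tc_conj ha0 g⁻¹ hσ
      rwa [inv_inv] at h3
    rw [hv _ (by simpa using (normal_II (p := p)).conj_mem σ hσ g⁻¹), mulVec_zero]
    rw [h2]
    have h4 : aeval (gbar g⁻¹ (tc a σ)) f = (gbar g⁻¹) (aeval (tc a σ) f) := by
      have h5 : (algebraMap (ZMod p) (KK p)) =
          ((gbar g⁻¹ : KK p ≃+* KK p) : KK p →+* KK p).comp (algebraMap (ZMod p) (KK p)) :=
        Subsingleton.elim _ _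
      rw [aeval_def, aeval_def]
      conv_lhs => rw [h5]
      exact (Polynomial.hom_eval₂ f (algebraMap (ZMod p) (KK p))
        ((gbar g⁻¹ : KK p ≃+* KK p) : KK p →+* KK p) (tc a σ)).symm
    rw [h4, h, map_zero]
  have hv₀W : v₀ ∈ W := by
    intro σ hσ h
    obtain ⟨h1, h2⟩ := lead_aeval hS1 hS2 hP hE ha ha1 hσ f hv₀a
    exact lead_zero hS1 ha hmin h1 fun x => by rw [h2, h, zero_mul]
  rcases hirr W hW with h | h
  · rw [h, Submodule.mem_bot] at hv₀W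
    exact absurd hv₀W hv₀
  · apply mat_ext
    intro v
    have hv : v ∈ W := by rw [h]; trivial
    rw [hv τ hτ hf, zero_mulVec]

end Fermat.Agent.FB
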